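import Mathlib
import Fermat.Prelude.Def_ModularCurve_IgusaScheme
import Fermat.Agent.Igusa.GaussVal

/-!
# PROGRAMME III (S48), port leaf X1-CHART (helper27): the chart algebras of an ARBITRARY field of
modular functions `F₀ ⊂ ℚ((q))` containing `j`

GENERIC-IN-THE-FIELD version of the Prelude's `ModularCurve.IgusaScheme.chartAlg` (ring-theoretic
part only) and of `Igusa/ChartRes.lean`.  `F₀ : IntermediateField ℚ (LaurentSeries ℚ)` with
`[Fact (jq ∈ F₀)]`; `ℤ_(ℓ) = GaloisRep.ratLocalizedAt ℓ`.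

* `jG F₀ : F₀` the element `j`; `chartAlg F₀ ℓ S` : the integral closure of `ℤ_(ℓ)[S]` in `F₀`;
  `chartAlgFin/Inf/Mid`, `inclFin/inclInf`, `isLocalization_away_inclFin/Inf`;
* `IsZlField ℓ F₀` : every element of `F₀` is a quotient of two series in `ℤ_(ℓ)((q))`
  (`isZlField_adjoin`: automatic for a field generated over `ℚ` by such quotients);
* `chartRes F₀ ℓ hfr hS : chartAlg F₀ ℓ S →+* 𝔽_ℓ((q))` : reduction of `q`-expansions.

The instances for `X₀(N)` (`F₀ = modularFunctionFieldFull N`) and `X₁(M)` (`F₀ = K1 M`) are in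
separate files.
-/

set_option autoImplicit false
set_option linter.unusedSectionVars false
set_option linter.style.haveILetI false

noncomputable section

namespace Fermat.Agent.DS.Chart

open ModularCurve Polynomial Fermat.Agent.Igusa

variable (F₀ : IntermediateField ℚ (LaurentSeries ℚ)) [hjF : Fact (jq ∈ F₀)]
variable (ℓ : ℕ) [Fact ℓ.Prime]

/-- `ℤ_(ℓ)`-algebra structure of a field of modular functions -/
scoped instance chartFieldAlgebra : Algebra ↥(GaloisRep.ratLocalizedAt ℓ) ↥F₀ :=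
  ((algebraMap ℚ ↥F₀).comp (algebraMap ↥(GaloisRep.ratLocalizedAt ℓ) ℚ)).toAlgebra

scoped instance chartFieldScalarTower :
    IsScalarTower ↥(GaloisRep.ratLocalizedAt ℓ) ℚ ↥F₀ :=
  IsScalarTower.of_algebraMap_eq' rfl

set_option quotPrecheck false in
local notation "ℤℓ" => ↥(GaloisRep.ratLocalizedAt ℓ)

set_option quotPrecheck false in
local notation "F" => ↥F₀

/-- the element `j` of `F₀` -/
def jG : F := ⟨jq, hjF.out⟩

@[simp] theorem coe_jG : (jG F₀ : LaurentSeries ℚ) = jq := rfl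

theorem jG_ne_zero : jG F₀ ≠ 0 :=
  fun h => jq_ne_zero (by simpa using congrArg Subtype.val h)

instance fact_jG_ne_zero : Fact (jG F₀ ≠ 0) := ⟨jG_ne_zero F₀⟩

/-- the integral closure of `ℤ_(ℓ)[S]` in `F₀` -/
def chartAlg (S : Set F) : Subalgebra ℤℓ F where
  carrier := {x | IsIntegral (Algebra.adjoin ℤℓ S) x}
  mul_mem' ha hb := ha.mul hb
  one_mem' := isIntegral_one
  add_mem' ha hb := ha.add hb
  zero_mem' := isIntegral_zero
  algebraMap_mem' a := by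
    have : IsIntegral (Algebra.adjoin ℤℓ S)
        (algebraMap (Algebra.adjoin ℤℓ S) F (algebraMap ℤℓ (Algebra.adjoin ℤℓ S) a)) :=
      isIntegral_algebraMap
    simpa [← IsScalarTower.algebraMap_apply] using this

omit hjF in
theorem mem_chartAlg_iff {S : Set F} {x : F} :
    x ∈ chartAlg F₀ ℓ S ↔ IsIntegral (Algebra.adjoin ℤℓ S) x := Iff.rfl

omit hjF in
theorem adjoin_le_chartAlg (S : Set F) : Algebra.adjoin ℤℓ S ≤ chartAlg F₀ ℓ S := fun x hx => by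
  rw [mem_chartAlg_iff]
  exact isIntegral_algebraMap (x := (⟨x, hx⟩ : Algebra.adjoin ℤℓ S))

omit hjF in
theorem subset_chartAlg (S : Set F) : S ⊆ (chartAlg F₀ ℓ S : Set F) := fun _ hx =>
  adjoin_le_chartAlg F₀ ℓ S (Algebra.subset_adjoin hx)

omit hjF in
theorem chartAlg_mono {S S' : Set F} (h : S ⊆ S') : chartAlg F₀ ℓ S ≤ chartAlg F₀ ℓ S' := by
  intro x hx
  rw [mem_chartAlg_iff] at hx ⊢
  exact hx.map_of_comp_eq
    (Subalgebra.inclusion (Algebra.adjoin_mono h)).toRingHom (RingHom.id F) (by ext; rfl)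

abbrev chartIncl {S S' : Set F} (h : S ⊆ S') : chartAlg F₀ ℓ S →ₐ[ℤℓ] chartAlg F₀ ℓ S' :=
  Subalgebra.inclusion (chartAlg_mono F₀ ℓ h)

omit hjF in
theorem coe_chartIncl {S S' : Set F} (h : S ⊆ S') (x : chartAlg F₀ ℓ S) :
    (chartIncl F₀ ℓ h x : F) = x :=
  Subalgebra.coe_inclusion _ x

omit hjF in
theorem chartIncl_injective {S S' : Set F} (h : S ⊆ S') :
    Function.Injective (chartIncl F₀ ℓ h) :=
  Subalgebra.inclusion_injective _

variable {F₀ ℓ}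

omit hjF in
theorem exists_pow_mul_mem_adjoin {S : Set F} {s : F} (hs : s ∈ S) (hs0 : s ≠ 0) {x : F}
    (hx : x ∈ Algebra.adjoin ℤℓ (insert s⁻¹ S)) : ∃ n : ℕ, s ^ n * x ∈ Algebra.adjoin ℤℓ S := by
  have hsA : s ∈ Algebra.adjoin ℤℓ S := Algebra.subset_adjoin hs
  induction hx using Algebra.adjoin_induction with
  | mem y hy =>
    rcases hy with rfl | hy
    · exact ⟨1, by rw [pow_one, mul_inv_cancel₀ hs0]; exact one_mem _⟩
    · exact ⟨0, by rw [pow_zero, one_mul]; exact Algebra.subset_adjoin hy⟩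
  | algebraMap a => exact ⟨0, by rw [pow_zero, one_mul]; exact Subalgebra.algebraMap_mem _ a⟩
  | add y z _ _ hy hz =>
    obtain ⟨m, hm⟩ := hy
    obtain ⟨n, hn⟩ := hz
    refine ⟨m + n, ?_⟩
    have : s ^ (m + n) * (y + z) = s ^ n * (s ^ m * y) + s ^ m * (s ^ n * z) := by ring
    rw [this]
    exact add_mem (mul_mem (pow_mem hsA n) hm) (mul_mem (pow_mem hsA m) hn)
  | mul y z _ _ hy hz =>
    obtain ⟨m, hm⟩ := hy
    obtain ⟨n, hn⟩ := hz
    refine ⟨m + n, ?_⟩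
    have : s ^ (m + n) * (y * z) = (s ^ m * y) * (s ^ n * z) := by ring
    rw [this]
    exact mul_mem hm hn

omit hjF in
theorem exists_pow_mul_mem_chartAlg {S : Set F} {s : F} (hs : s ∈ S) (hs0 : s ≠ 0) {x : F}
    (hx : x ∈ chartAlg F₀ ℓ (insert s⁻¹ S)) : ∃ n : ℕ, s ^ n * x ∈ chartAlg F₀ ℓ S := by
  classical
  obtain ⟨p, hmonic, hroot⟩ := (mem_chartAlg_iff F₀ ℓ).mp hx
  have hcoeff : ∀ i, ∃ n : ℕ, s ^ n * (p.coeff i : F) ∈ Algebra.adjoin ℤℓ S :=
    fun i => exists_pow_mul_mem_adjoin hs hs0 (p.coeff i).2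
  choose n hn using hcoeff
  set M : ℕ := ∑ i ∈ Finset.range (p.natDegree + 1), n i with hM
  have hnM : ∀ i ≤ p.natDegree, n i ≤ M := fun i hi =>
    Finset.single_le_sum (f := n) (fun _ _ => Nat.zero_le _)
      (Finset.mem_range.mpr (Nat.lt_succ_of_le hi))
  set q : F[X] := (p.map (algebraMap (Algebra.adjoin ℤℓ (insert s⁻¹ S)) F)).scaleRoots (s ^ M)
    with hq
  have hqmonic : q.Monic := (Polynomial.monic_scaleRoots_iff _).mpr (hmonic.map _)
  have hqroot : q.eval (s ^ M * x) = 0 := by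
    rw [hq, Polynomial.scaleRoots_eval_mul, Polynomial.eval_map, hroot, mul_zero]
  have hqcoeff : ∀ i, q.coeff i ∈ Algebra.adjoin ℤℓ S := by
    intro i
    rw [hq, Polynomial.coeff_scaleRoots, Polynomial.coeff_map, hmonic.natDegree_map]
    by_cases hi : i < p.natDegree
    · have hle : n i ≤ M * (p.natDegree - i) := by
        calc n i ≤ M := hnM i hi.le
          _ = M * 1 := (mul_one M).symm
          _ ≤ M * (p.natDegree - i) := Nat.mul_le_mul_left M (Nat.one_le_iff_ne_zero.mpr (by omega))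
      obtain ⟨k, hk⟩ := Nat.exists_eq_add_of_le hle
      have : (s ^ M) ^ (p.natDegree - i) = s ^ k * s ^ n i := by
        rw [← pow_mul, hk, pow_add, mul_comm]
      rw [this, Subalgebra.algebraMap_def, Algebra.algebraMap_self_apply,
        show (p.coeff i : F) * (s ^ k * s ^ n i) = s ^ k * (s ^ n i * (p.coeff i : F)) by ring]
      exact mul_mem (pow_mem (Algebra.subset_adjoin hs) k) (hn i)
    · rcases (not_lt.mp hi).lt_or_eq with hlt | heq
      · rw [Polynomial.coeff_eq_zero_of_natDegree_lt hlt, map_zero, zero_mul]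
        exact zero_mem _
      · rw [← heq, hmonic.coeff_natDegree, map_one, one_mul, Nat.sub_self, pow_zero]
        exact one_mem _
  have hlifts : q ∈ Polynomial.lifts (algebraMap (Algebra.adjoin ℤℓ S) F) :=
    (Polynomial.lifts_iff_coeff_lifts q).mpr fun i => ⟨⟨q.coeff i, hqcoeff i⟩, rfl⟩
  obtain ⟨q', hq'q, -, hq'monic⟩ := Polynomial.lifts_and_natDegree_eq_and_monic hlifts hqmonic
  refine ⟨M, (mem_chartAlg_iff F₀ ℓ).mpr ⟨q', hq'monic, ?_⟩⟩
  rw [Polynomial.eval₂_eq_eval_map, hq'q, hqroot]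

variable (F₀ ℓ)

theorem sFin_subset : ({jG F₀} : Set F) ⊆ {jG F₀, (jG F₀)⁻¹} :=
  Set.singleton_subset_iff.mpr (Set.mem_insert _ _)

theorem sInf_subset : ({(jG F₀)⁻¹} : Set F) ⊆ {jG F₀, (jG F₀)⁻¹} :=
  Set.singleton_subset_iff.mpr (Set.mem_insert_of_mem _ rfl)

abbrev chartAlgFin : Subalgebra ℤℓ F := chartAlg F₀ ℓ {jG F₀}

abbrev chartAlgInf : Subalgebra ℤℓ F := chartAlg F₀ ℓ {(jG F₀)⁻¹}

abbrev chartAlgMid : Subalgebra ℤℓ F := chartAlg F₀ ℓ {jG F₀, (jG F₀)⁻¹}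

def jChartFin : chartAlgFin F₀ ℓ := ⟨jG F₀, subset_chartAlg F₀ ℓ _ rfl⟩

def jInvChartInf : chartAlgInf F₀ ℓ := ⟨(jG F₀)⁻¹, subset_chartAlg F₀ ℓ _ rfl⟩

@[simp] theorem coe_jChartFin : (jChartFin F₀ ℓ : F) = jG F₀ := rfl
@[simp] theorem coe_jInvChartInf : (jInvChartInf F₀ ℓ : F) = (jG F₀)⁻¹ := rfl

abbrev inclFin : chartAlgFin F₀ ℓ →ₐ[ℤℓ] chartAlgMid F₀ ℓ := chartIncl F₀ ℓ (sFin_subset F₀)

abbrev inclInf : chartAlgInf F₀ ℓ →ₐ[ℤℓ] chartAlgMid F₀ ℓ := chartIncl F₀ ℓ (sInf_subset F₀)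

theorem isUnit_inclFin_jChartFin : IsUnit (inclFin F₀ ℓ (jChartFin F₀ ℓ)) := by
  refine .of_mul_eq_one ⟨(jG F₀)⁻¹, subset_chartAlg F₀ ℓ _ (by simp)⟩ (Subtype.ext ?_)
  rw [Subalgebra.coe_mul, Subalgebra.coe_one, coe_chartIncl, coe_jChartFin]
  exact mul_inv_cancel₀ (jG_ne_zero F₀)

theorem isUnit_inclInf_jInvChartInf : IsUnit (inclInf F₀ ℓ (jInvChartInf F₀ ℓ)) := by
  refine .of_mul_eq_one ⟨jG F₀, subset_chartAlg F₀ ℓ _ (by simp)⟩ (Subtype.ext ?_)
  rw [Subalgebra.coe_mul, Subalgebra.coe_one, coe_chartIncl, coe_jInvChartInf]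
  exact inv_mul_cancel₀ (jG_ne_zero F₀)

theorem isLocalization_away_inclFin :
    letI := (inclFin F₀ ℓ).toRingHom.toAlgebra
    IsLocalization.Away (jChartFin F₀ ℓ) (chartAlgMid F₀ ℓ) := by
  letI := (inclFin F₀ ℓ).toRingHom.toAlgebra
  refine (isLocalization_iff _ _).mpr ⟨?_, ?_, ?_⟩
  · rintro ⟨_, n, rfl⟩
    rw [RingHom.algebraMap_toAlgebra, map_pow]
    exact (isUnit_inclFin_jChartFin F₀ ℓ).pow n
  · intro z
    have hz : (z : F) ∈ chartAlg F₀ ℓ (insert (jG F₀)⁻¹ {jG F₀}) := by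
      rw [show insert (jG F₀)⁻¹ ({jG F₀} : Set F) = {jG F₀, (jG F₀)⁻¹}
        from Set.pair_comm _ _]
      exact z.2
    obtain ⟨n, hn⟩ := exists_pow_mul_mem_chartAlg (Set.mem_singleton _) (jG_ne_zero F₀) hz
    refine ⟨(⟨(jG F₀) ^ n * z, hn⟩, ⟨jChartFin F₀ ℓ ^ n, n, rfl⟩), Subtype.ext ?_⟩
    simp only [RingHom.algebraMap_toAlgebra, map_pow, Subalgebra.coe_mul, Subalgebra.coe_pow,
      AlgHom.toRingHom_eq_coe, AlgHom.coe_toRingHom, coe_chartIncl, coe_jChartFin]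
    exact mul_comm _ _
  · intro x y h
    refine ⟨1, ?_⟩
    rw [RingHom.algebraMap_toAlgebra] at h
    rw [chartIncl_injective F₀ ℓ _ h]

theorem isLocalization_away_inclInf :
    letI := (inclInf F₀ ℓ).toRingHom.toAlgebra
    IsLocalization.Away (jInvChartInf F₀ ℓ) (chartAlgMid F₀ ℓ) := by
  letI := (inclInf F₀ ℓ).toRingHom.toAlgebra
  refine (isLocalization_iff _ _).mpr ⟨?_, ?_, ?_⟩
  · rintro ⟨_, n, rfl⟩
    rw [RingHom.algebraMap_toAlgebra, map_pow]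
    exact (isUnit_inclInf_jInvChartInf F₀ ℓ).pow n
  · intro z
    have hz : (z : F) ∈ chartAlg F₀ ℓ (insert (jG F₀)⁻¹⁻¹ {(jG F₀)⁻¹}) := by
      rw [inv_inv]; exact z.2
    obtain ⟨n, hn⟩ := exists_pow_mul_mem_chartAlg (Set.mem_singleton _)
      (inv_ne_zero (jG_ne_zero F₀)) hz
    refine ⟨(⟨(jG F₀)⁻¹ ^ n * z, hn⟩, ⟨jInvChartInf F₀ ℓ ^ n, n, rfl⟩), Subtype.ext ?_⟩
    simp only [RingHom.algebraMap_toAlgebra, map_pow, Subalgebra.coe_mul, Subalgebra.coe_pow,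
      AlgHom.toRingHom_eq_coe, AlgHom.coe_toRingHom, coe_chartIncl, coe_jInvChartInf]
    exact mul_comm _ _
  · intro x y h
    refine ⟨1, ?_⟩
    rw [RingHom.algebraMap_toAlgebra] at h
    rw [chartIncl_injective F₀ ℓ _ h]

/-! ### `ℤ_(ℓ)`-fractions and the reduction of `q`-expansions (port of `Igusa/ChartRes.lean`) -/

/-- every element of `F₀` is a quotient of two series with coefficients in `ℤ_(ℓ)` -/
def IsZlField : Prop := ∀ x : LaurentSeries ℚ, x ∈ F₀ → IsZlFraction ℓ x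

omit hjF in
/-- a field generated over `ℚ` by `ℤ_(ℓ)`-fractions consists of `ℤ_(ℓ)`-fractions -/
theorem isZlField_adjoin (T : Set (LaurentSeries ℚ)) (hT : ∀ x ∈ T, IsZlFraction ℓ x) :
    ∀ x : LaurentSeries ℚ, x ∈ IntermediateField.adjoin ℚ T → IsZlFraction ℓ x := by
  intro x hx
  rw [← mem_zlFractionSubfield_iff]
  let Tf : IntermediateField ℚ (LaurentSeries ℚ) :=
    { zlFractionSubfield ℓ with
      algebraMap_mem' := fun r => by
        change algebraMap ℚ (LaurentSeries ℚ) r ∈ zlFractionSubfield ℓ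
        rw [eq_ratCast]
        exact SubfieldClass.ratCast_mem _ r }
  have hle : IntermediateField.adjoin ℚ T ≤ Tf := by
    rw [IntermediateField.adjoin_le_iff]
    intro y hy
    exact (mem_zlFractionSubfield_iff ℓ).mpr (hT y hy)
  exact hle hx

/-- the coercion `F₀ → ℚ((q))` as a ring hom -/
def fullVal : F →+* LaurentSeries ℚ where
  toFun x := (x : LaurentSeries ℚ)
  map_one' := rfl
  map_mul' _ _ := rfl
  map_zero' := rfl
  map_add' _ _ := rfl

omit hjF in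
@[simp] theorem fullVal_apply (x : F) : fullVal F₀ x = (x : LaurentSeries ℚ) := rfl

omit hjF in
/-- the constants of `F₀` coming from `ℤ_(ℓ)`, as Laurent series -/
theorem coe_algebraMap_zl (r : ℤℓ) :
    ((algebraMap ℤℓ F r : F) : LaurentSeries ℚ) = HahnSeries.C ((r : ℤℓ) : ℚ) := by
  have h1 : algebraMap ℤℓ F r = algebraMap ℚ F ((r : ℤℓ) : ℚ) := rfl
  rw [h1, eq_ratCast]
  have h2 : (((((r : ℤℓ) : ℚ) : F)) : LaurentSeries ℚ) = ((((r : ℤℓ) : ℚ)) : LaurentSeries ℚ) :=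
    map_ratCast (fullVal F₀) _
  rw [h2, ← eq_ratCast (algebraMap ℚ (LaurentSeries ℚ)), algebraMap_laurentSeries_eq_single]
  rfl

omit hjF in
/-- Elements of `ℤ_(ℓ)[S]` are Gauss integral if those of `S` are. -/
theorem coe_mem_gaussSubring_of_mem_adjoin {S : Set F}
    (hS : ∀ s ∈ S, ((s : F) : LaurentSeries ℚ) ∈ gaussSubring ℓ) {x : F}
    (hx : x ∈ Algebra.adjoin ℤℓ S) : ((x : F) : LaurentSeries ℚ) ∈ gaussSubring ℓ := by
  induction hx using Algebra.adjoin_induction with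
  | mem y hy => exact hS y hy
  | algebraMap r =>
    rw [coe_algebraMap_zl]
    exact (gaussRes_C ℓ r).1
  | add y z _ _ hy hz => exact (gaussSubring ℓ).add_mem hy hz
  | mul y z _ _ hy hz => exact (gaussSubring ℓ).mul_mem hy hz

variable (hfr : IsZlField F₀ ℓ)

omit hjF in
include hfr in
/-- Elements of the chart algebra are Gauss integral. -/
theorem coe_mem_gaussSubring_of_mem_chartAlg {S : Set F}
    (hS : ∀ s ∈ S, ((s : F) : LaurentSeries ℚ) ∈ gaussSubring ℓ) {x : F}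
    (hx : x ∈ chartAlg F₀ ℓ S) : ((x : F) : LaurentSeries ℚ) ∈ gaussSubring ℓ := by
  refine mem_gaussSubring_of_isIntegral ℓ (hfr _ x.2) ?_
  have hint : IsIntegral (Algebra.adjoin ℤℓ S) x := (mem_chartAlg_iff F₀ ℓ).mp hx
  let φ : Algebra.adjoin ℤℓ S →+* gaussSubring ℓ :=
    { toFun := fun a => ⟨((a : F) : LaurentSeries ℚ),
        coe_mem_gaussSubring_of_mem_adjoin F₀ ℓ hS a.2⟩
      map_one' := rfl
      map_mul' := fun _ _ => rfl
      map_zero' := rfl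
      map_add' := fun _ _ => rfl }
  exact hint.map_of_comp_eq φ (fullVal F₀) (by ext; rfl)

/-- The inclusion of a chart algebra into the Gauss ring. -/
def chartToGauss {S : Set F} (hS : ∀ s ∈ S, ((s : F) : LaurentSeries ℚ) ∈ gaussSubring ℓ) :
    chartAlg F₀ ℓ S →+* gaussSubring ℓ where
  toFun x := ⟨(((x : chartAlg F₀ ℓ S) : F) : LaurentSeries ℚ),
    coe_mem_gaussSubring_of_mem_chartAlg F₀ ℓ hfr hS x.2⟩
  map_one' := rfl
  map_mul' _ _ := rfl
  map_zero' := rfl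
  map_add' _ _ := rfl

/-- **Reduction of `q`-expansions** on a chart algebra. -/
def chartRes {S : Set F} (hS : ∀ s ∈ S, ((s : F) : LaurentSeries ℚ) ∈ gaussSubring ℓ) :
    chartAlg F₀ ℓ S →+* LaurentSeries (ZMod ℓ) :=
  (gaussRes ℓ).comp (chartToGauss F₀ ℓ hfr hS)

omit hjF in
theorem chartRes_apply {S : Set F}
    (hS : ∀ s ∈ S, ((s : F) : LaurentSeries ℚ) ∈ gaussSubring ℓ) (x : chartAlg F₀ ℓ S) :
    chartRes F₀ ℓ hfr hS x = gaussRes ℓ ⟨(((x : chartAlg F₀ ℓ S) : F) : LaurentSeries ℚ),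
      coe_mem_gaussSubring_of_mem_chartAlg F₀ ℓ hfr hS x.2⟩ := rfl

omit hjF in
/-- If the `q`-expansion of `x` is `ι a` with `a ∈ ℤ_(ℓ)((q))`, its reduction is `red a`. -/
theorem chartRes_eq_zlRed {S : Set F}
    (hS : ∀ s ∈ S, ((s : F) : LaurentSeries ℚ) ∈ gaussSubring ℓ) (x : chartAlg F₀ ℓ S)
    (a : LaurentSeries ℤℓ)
    (hxa : (((x : chartAlg F₀ ℓ S) : F) : LaurentSeries ℚ) = zlIota ℓ a) :
    chartRes F₀ ℓ hfr hS x = zlRed ℓ a := by
  rw [chartRes_apply, ← gaussRes_zlIota]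
  congr 1
  exact Subtype.ext hxa

omit hjF in
theorem chartRes_algebraMap {S : Set F}
    (hS : ∀ s ∈ S, ((s : F) : LaurentSeries ℚ) ∈ gaussSubring ℓ) (r : ℤℓ) :
    chartRes F₀ ℓ hfr hS (algebraMap ℤℓ (chartAlg F₀ ℓ S) r) = HahnSeries.C (zlResidue ℓ r) := by
  obtain ⟨hmem, hC⟩ := gaussRes_C ℓ r
  rw [chartRes_apply, ← hC]
  have h : (⟨(((algebraMap ℤℓ (chartAlg F₀ ℓ S) r : chartAlg F₀ ℓ S) : F) : LaurentSeries ℚ),
      coe_mem_gaussSubring_of_mem_chartAlg F₀ ℓ hfr hS (algebraMap ℤℓ (chartAlg F₀ ℓ S) r).2⟩ :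
      gaussSubring ℓ) = ⟨HahnSeries.C ((r : ℤℓ) : ℚ), hmem⟩ :=
    Subtype.ext (coe_algebraMap_zl F₀ ℓ r)
  rw [h]

omit hjF in
/-- The kernel of the reduction: `q`-expansion divisible by `ℓ` inside the Gauss ring. -/
theorem chartRes_eq_zero_iff {S : Set F}
    (hS : ∀ s ∈ S, ((s : F) : LaurentSeries ℚ) ∈ gaussSubring ℓ) (x : chartAlg F₀ ℓ S) :
    chartRes F₀ ℓ hfr hS x = 0 ↔ ∃ y ∈ gaussSubring ℓ,
      (((x : chartAlg F₀ ℓ S) : F) : LaurentSeries ℚ) = HahnSeries.C (ℓ : ℚ) * y := by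
  rw [chartRes_apply, gaussRes_eq_zero_iff]
  constructor
  · rintro ⟨y, hy⟩
    refine ⟨y, y.2, ?_⟩
    have := congrArg (fun z : gaussSubring ℓ => (z : LaurentSeries ℚ)) hy
    simpa [coe_gaussPrime] using this
  · rintro ⟨y, hy, hxy⟩
    exact ⟨⟨y, hy⟩, Subtype.ext (by rw [Subring.coe_mul, coe_gaussPrime]; exact hxy)⟩

end Fermat.Agent.DS.Chart
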