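import Mathlib
import Fermat.Prelude.Def_ModularCurve_IgusaScheme
import Fermat.Agent.DS.Chart.Defs
/- GENERIC-IN-THE-FIELD PORT (PROGRAMME III, leaf X1-CHART, helper27) of Igusa/ChartBaseDef.lean: `F₀ ⊂ ℚ((q))` any field of modular functions containing `j` replaces `F_N = modularFunctionFieldFull N`. -/


/-!
# S28 / Igusa, node F₀-CHART: the interface `ChartBase` for the base rings `ℤ_(ℓ)[t]`

For `t = j` or `t = 1/j` in `F_N`, the base ring `A_t := Algebra.adjoin ℤ_(ℓ) {t} ⊆ F_N` of the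
chart algebra `chartAlg F₀ ℓ {t}` is a polynomial ring over `ℤ_(ℓ)`.  `ChartBase F₀ ℓ t` records the
consequences of this used by the kernel principle (`ChartKer.lean`):
integrally closed + well-founded divisibility, `ℓ` prime, fractions of `A_t` exhaust `ℚ(j)`,
and the Gauss lemma (`q`-expansion divisible by `ℓ` ⇒ divisible by `ℓ` in `A_t`).
-/

set_option autoImplicit false
set_option linter.style.haveILetI false
set_option synthInstance.maxHeartbeats 400000
set_option linter.unusedSectionVars false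
open ModularCurve Fermat.Agent.Igusa IntermediateField

noncomputable section
namespace Fermat.Agent.DS.Chart

variable (F₀ : IntermediateField ℚ (LaurentSeries ℚ)) [hjF : Fact (jq ∈ F₀)]
variable (ℓ : ℕ) [Fact ℓ.Prime]

set_option quotPrecheck false in
local notation "ℤℓ" => ↥(GaloisRep.ratLocalizedAt ℓ)

set_option quotPrecheck false in
local notation "F" => ↥F₀

/-- The facts about the base ring `A_t = ℤ_(ℓ)[t] ⊆ F_N` (`t = j` or `1/j`) used to prove the
`q`-expansion principle on the chart `chartAlg F₀ ℓ {t}`. -/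
structure ChartBase (t : F) : Prop where
  /-- `ℤ_(ℓ)[t]` is integrally closed -/
  isIntegrallyClosed : IsIntegrallyClosed ↥(Algebra.adjoin ℤℓ ({t} : Set F))
  /-- divisibility in `ℤ_(ℓ)[t]` is well founded -/
  wfDvdMonoid : WfDvdMonoid ↥(Algebra.adjoin ℤℓ ({t} : Set F))
  /-- `ℓ` is a prime element of `ℤ_(ℓ)[t]` -/
  prime : Prime (algebraMap ℤℓ ↥(Algebra.adjoin ℤℓ ({t} : Set F)) (zlPrime ℓ))
  /-- every element of `ℚ(j)` is a fraction of elements of `ℤ_(ℓ)[t]` -/
  clear : ∀ g : F, g ∈ ℚ⟮jG F₀⟯ →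
    ∃ a d : ↥(Algebra.adjoin ℤℓ ({t} : Set F)), d ≠ 0 ∧ (d : F) * g = (a : F)
  /-- Gauss lemma: if the `q`-expansion of `a ∈ ℤ_(ℓ)[t]` is `ℓ` times a Gauss-integral series,
  then `ℓ ∣ a` in `ℤ_(ℓ)[t]` -/
  gauss : ∀ a : ↥(Algebra.adjoin ℤℓ ({t} : Set F)),
    (∃ y ∈ gaussSubring ℓ, (((a : ↥(Algebra.adjoin ℤℓ ({t} : Set F))) : F) : LaurentSeries ℚ) =
        HahnSeries.C (ℓ : ℚ) * y) →
      algebraMap ℤℓ ↥(Algebra.adjoin ℤℓ ({t} : Set F)) (zlPrime ℓ) ∣ a

end Fermat.Agent.DS.Chart
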