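import Mathlib
import Fermat.Agent.Igusa.DegQ
import Fermat.Agent.DS.Chart.Defs

/-!
# X1-CHART (helper27): generic part of `Igusa/DegQ.lean`

`F₀ ⊂ ℚ((q))` a field of modular functions containing `j`.  The degree bound
`[F₀ : ℚ(j)] ≤ d` is an INPUT of the chart layer (`DegInputs`); here only the field-independent
lemma `coe_aeval_F₀` (and, from `Igusa/DegQ.lean`, `transcendental_jq_rat`).
-/

set_option autoImplicit false
set_option linter.unusedSectionVars false

noncomputable section

namespace Fermat.Agent.DS.Chart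

open ModularCurve Polynomial IntermediateField Fermat.Agent.Igusa

variable (F₀ : IntermediateField ℚ (LaurentSeries ℚ)) [hjF : Fact (jq ∈ F₀)]

omit hjF in
theorem coe_aeval_full (x : ↥F₀) (P : ℚ[X]) :
    ((aeval x P : ↥F₀) : LaurentSeries ℚ) = aeval (x : LaurentSeries ℚ) P := by
  rw [aeval_def, aeval_def]
  have h := hom_eval₂ P (algebraMap ℚ ↥F₀) (algebraMap ↥F₀ (LaurentSeries ℚ)) x
  rw [IntermediateField.algebraMap_apply, IntermediateField.algebraMap_apply] at h
  rw [h]
  congr 1
  exact Subsingleton.elim _ _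

/-- **the degree input of the chart layer**: `F₀` is finite over `ℚ(j)` of degree at most `d` -/
structure DegInputs (d : ℕ) : Prop where
  finite : FiniteDimensional ↥ℚ⟮jG F₀⟯ ↥F₀
  finrank_le : Module.finrank ↥ℚ⟮jG F₀⟯ ↥F₀ ≤ d

end Fermat.Agent.DS.Chart
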