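import Mathlib
import Fermat.Prelude.Def_ModularCurve_IgusaScheme
import Fermat.Agent.DS.Chart.BaseDef
import Fermat.Agent.Igusa.ChartKerAbstract
import Fermat.Agent.Igusa.Assembly
import Fermat.Agent.DS.Chart.DegQ
/- GENERIC-IN-THE-FIELD PORT (PROGRAMME III, leaf X1-CHART, helper27) of Igusa/ChartKer.lean: `F₀ ⊂ ℚ((q))` any field of modular functions containing `j` replaces `F_N = modularFunctionFieldFull N`. -/


/-!
# S28 / Igusa, node F₀-CHART (part 2): the `q`-expansion principle on a chart `ℤ_(ℓ)[t]`-closure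

For `t = j` or `1/j`: given `ChartBase F₀ ℓ t` and `ψ(F₀)` elements of `chartAlg F₀ ℓ {t}` whose
reductions are linearly independent over `𝔽_ℓ(j̄)`, the kernel of `chartRes` is `ℓ · chartAlg`.
-/

set_option autoImplicit false
set_option linter.style.haveILetI false
set_option synthInstance.maxHeartbeats 400000
set_option linter.unusedSectionVars false
open ModularCurve Fermat.Agent.Igusa IntermediateField

noncomputable section
namespace Fermat.Agent.DS.Chart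

variable (F₀ : IntermediateField ℚ (LaurentSeries ℚ)) [hjF : Fact (jq ∈ F₀)]
variable (ℓ : ℕ) [Fact ℓ.Prime]

set_option quotPrecheck false in
local notation "ℤℓ" => ↥(GaloisRep.ratLocalizedAt ℓ)

set_option quotPrecheck false in
local notation "F" => ↥F₀

variable (hfr : IsZlField F₀ ℓ) {d : ℕ} (hdeg : DegInputs F₀ d)

/-- Constants lie in every subfield of `𝔽_ℓ((q))`. -/
theorem C_zmod_mem_subfield (T : Subfield (LaurentSeries (ZMod ℓ))) (c : ZMod ℓ) :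
    (HahnSeries.C c : LaurentSeries (ZMod ℓ)) ∈ T := by
  have : NeZero ℓ := ⟨(Fact.out : ℓ.Prime).ne_zero⟩
  have h : (HahnSeries.C c : LaurentSeries (ZMod ℓ)) = ((c.val : ℕ) : LaurentSeries (ZMod ℓ)) := by
    rw [← map_natCast (HahnSeries.C : ZMod ℓ →+* LaurentSeries (ZMod ℓ)), ZMod.natCast_zmod_val]
  rw [h]
  exact natCast_mem T _

/-- The residue function field `𝔽_ℓ(j̄) ⊆ 𝔽_ℓ((q))`, as a subfield. -/
abbrev resField : Subfield (LaurentSeries (ZMod ℓ)) :=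
  Subfield.closure ({jqModC (ZMod ℓ)} : Set (LaurentSeries (ZMod ℓ)))

section Base

/-- `ℤ_(ℓ)[S] → chartAlg F₀ ℓ S`. -/
@[instance_reducible]
def chartBaseAlgebra (S : Set F) : Algebra ↥(Algebra.adjoin ℤℓ S) ↥(chartAlg F₀ ℓ S) :=
  (Subalgebra.inclusion (adjoin_le_chartAlg F₀ ℓ S)).toRingHom.toAlgebra

attribute [local instance] chartBaseAlgebra

/-- shortcut instance (the generic search times out) -/
@[instance_reducible]
def chartBaseSMul (S : Set F) : SMul ↥(Algebra.adjoin ℤℓ S) ↥(chartAlg F₀ ℓ S) :=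
  (chartBaseAlgebra F₀ ℓ S).toSMul

attribute [local instance 2000] chartBaseSMul

theorem coe_chartBaseAlgebraMap (S : Set F) (a : ↥(Algebra.adjoin ℤℓ S)) :
    ((algebraMap ↥(Algebra.adjoin ℤℓ S) ↥(chartAlg F₀ ℓ S) a : ↥(chartAlg F₀ ℓ S)) : F) = (a : F) :=
  rfl

instance chartBase_isScalarTower (S : Set F) :
    IsScalarTower ↥(Algebra.adjoin ℤℓ S) ↥(chartAlg F₀ ℓ S) F :=
  IsScalarTower.of_algebraMap_eq fun _ => rfl

instance chartBase_isIntegralClosure (S : Set F) :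
    IsIntegralClosure ↥(chartAlg F₀ ℓ S) ↥(Algebra.adjoin ℤℓ S) F where
  algebraMap_injective := Subtype.val_injective
  isIntegral_iff := fun {x} =>
    ⟨fun h => ⟨⟨x, (mem_chartAlg_iff F₀ ℓ).mpr h⟩, rfl⟩,
      fun ⟨y, hy⟩ => hy ▸ (mem_chartAlg_iff F₀ ℓ).mp y.2⟩

instance chartBase_faithfulSMul (S : Set F) : FaithfulSMul ↥(Algebra.adjoin ℤℓ S) F :=
  (faithfulSMul_iff_algebraMap_injective ↥(Algebra.adjoin ℤℓ S) F).mpr Subtype.val_injective

end Base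

attribute [local instance] chartBaseAlgebra
attribute [local instance 2000] chartBaseSMul

/-- Reductions of elements of the base ring `ℤ_(ℓ)[t]` lie in `𝔽_ℓ(j̄)` if that of `t` does. -/
theorem chartRes_base_mem_resField (t : F)
    (hS : ∀ s ∈ ({t} : Set F), ((s : F) : LaurentSeries ℚ) ∈ gaussSubring ℓ)
    (htres : chartRes F₀ ℓ hfr hS ⟨t, subset_chartAlg F₀ ℓ _ rfl⟩ ∈ resField ℓ)
    (a : ↥(Algebra.adjoin ℤℓ ({t} : Set F))) :
    chartRes F₀ ℓ hfr hS (algebraMap ↥(Algebra.adjoin ℤℓ ({t} : Set F)) ↥(chartAlg F₀ ℓ {t}) a) ∈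
      resField ℓ := by
  obtain ⟨a, ha⟩ := a
  induction ha using Algebra.adjoin_induction with
  | mem y hy =>
    have hyt : y = t := hy
    subst hyt
    exact htres
  | algebraMap r =>
    have h : (algebraMap ↥(Algebra.adjoin ℤℓ ({t} : Set F)) ↥(chartAlg F₀ ℓ {t})
        ⟨algebraMap ℤℓ F r, Subalgebra.algebraMap_mem _ r⟩) =
        algebraMap ℤℓ ↥(chartAlg F₀ ℓ {t}) r := rfl
    rw [h, chartRes_algebraMap]
    exact C_zmod_mem_subfield ℓ _ _
  | add y z hy hz ihy ihz =>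
    have h : (algebraMap ↥(Algebra.adjoin ℤℓ ({t} : Set F)) ↥(chartAlg F₀ ℓ {t})
        ⟨y + z, Subalgebra.add_mem _ hy hz⟩) =
        algebraMap ↥(Algebra.adjoin ℤℓ ({t} : Set F)) ↥(chartAlg F₀ ℓ {t}) ⟨y, hy⟩ +
        algebraMap ↥(Algebra.adjoin ℤℓ ({t} : Set F)) ↥(chartAlg F₀ ℓ {t}) ⟨z, hz⟩ := rfl
    rw [h, RingHom.map_add]
    exact (resField ℓ).add_mem ihy ihz
  | mul y z hy hz ihy ihz =>
    have h : (algebraMap ↥(Algebra.adjoin ℤℓ ({t} : Set F)) ↥(chartAlg F₀ ℓ {t})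
        ⟨y * z, Subalgebra.mul_mem _ hy hz⟩) =
        algebraMap ↥(Algebra.adjoin ℤℓ ({t} : Set F)) ↥(chartAlg F₀ ℓ {t}) ⟨y, hy⟩ *
        algebraMap ↥(Algebra.adjoin ℤℓ ({t} : Set F)) ↥(chartAlg F₀ ℓ {t}) ⟨z, hz⟩ := rfl
    rw [h, RingHom.map_mul]
    exact (resField ℓ).mul_mem ihy ihz

include hdeg in
/-- **The `q`-expansion principle on the chart `chartAlg F₀ ℓ {t}`** (`t = j` or `1/j`),
from `ChartBase` and `d` elements with `𝔽_ℓ(j̄)`-independent reductions. -/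
theorem chartRes_ker_le_of_chartBase (t : F)
    (hS : ∀ s ∈ ({t} : Set F), ((s : F) : LaurentSeries ℚ) ∈ gaussSubring ℓ)
    (hbase : ChartBase F₀ ℓ t)
    (htres : chartRes F₀ ℓ hfr hS ⟨t, subset_chartAlg F₀ ℓ _ rfl⟩ ∈ resField ℓ)
    (b : Fin (d) → ↥(chartAlg F₀ ℓ {t}))
    (hb : ∀ g : Fin (d) → LaurentSeries (ZMod ℓ), (∀ i, g i ∈ resField ℓ) →
      ∑ i, g i * chartRes F₀ ℓ hfr hS (b i) = 0 → ∀ i, g i = 0)
    (x : ↥(chartAlg F₀ ℓ {t})) (hx : chartRes F₀ ℓ hfr hS x = 0) :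
    ∃ y : ↥(chartAlg F₀ ℓ {t}), x = algebraMap ℤℓ ↥(chartAlg F₀ ℓ {t}) (zlPrime ℓ) * y := by
  classical
  have := hbase.isIntegrallyClosed
  have := hbase.wfDvdMonoid
  have := hdeg.finite
  -- the independence hypothesis of the kernel principle
  have hind : ∀ a : Fin (d) → ↥(Algebra.adjoin ℤℓ ({t} : Set F)),
      chartRes F₀ ℓ hfr hS (∑ i, algebraMap ↥(Algebra.adjoin ℤℓ ({t} : Set F)) ↥(chartAlg F₀ ℓ {t})
        (a i) * b i) = 0 →
      ∀ i, algebraMap ℤℓ ↥(Algebra.adjoin ℤℓ ({t} : Set F)) (zlPrime ℓ) ∣ a i := by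
    intro a h i
    have h1 : ∑ i, chartRes F₀ ℓ hfr hS (algebraMap ↥(Algebra.adjoin ℤℓ ({t} : Set F))
        ↥(chartAlg F₀ ℓ {t}) (a i)) * chartRes F₀ ℓ hfr hS (b i) = 0 := by
      rw [← h, map_sum]
      exact Finset.sum_congr rfl fun i _ => (RingHom.map_mul _ _ _).symm
    have h2 := hb _ (fun i => chartRes_base_mem_resField F₀ ℓ hfr t hS htres (a i)) h1 i
    rw [chartRes_eq_zero_iff] at h2
    exact hbase.gauss (a i) h2
  have hclear : ∀ g : ↥ℚ⟮jG F₀⟯, ∃ a d : ↥(Algebra.adjoin ℤℓ ({t} : Set F)), d ≠ 0 ∧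
      algebraMap ↥(Algebra.adjoin ℤℓ ({t} : Set F)) F d * algebraMap ↥ℚ⟮jG F₀⟯ F g =
        algebraMap ↥(Algebra.adjoin ℤℓ ({t} : Set F)) F a := fun g => hbase.clear g g.2
  have hfin : Module.finrank ↥ℚ⟮jG F₀⟯ F ≤ Fintype.card (Fin (d)) := by
    rw [Fintype.card_fin]
    exact hdeg.finrank_le
  exact exists_eq_mul_of_map_eq_zero_of_clear (A := ↥(Algebra.adjoin ℤℓ ({t} : Set F)))
    (Kj := ↥ℚ⟮jG F₀⟯) (L := F) (B := ↥(chartAlg F₀ ℓ {t})) hfin hbase.prime (chartRes F₀ ℓ hfr hS) b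
    hclear hind x hx

include hdeg in
/-- The reduction data on the chart `chartAlg F₀ ℓ {t}`. -/
def reductionDataOfChartBase (t : F)
    (hS : ∀ s ∈ ({t} : Set F), ((s : F) : LaurentSeries ℚ) ∈ gaussSubring ℓ)
    (hbase : ChartBase F₀ ℓ t)
    (htres : chartRes F₀ ℓ hfr hS ⟨t, subset_chartAlg F₀ ℓ _ rfl⟩ ∈ resField ℓ)
    (b : Fin (d) → ↥(chartAlg F₀ ℓ {t}))
    (hb : ∀ g : Fin (d) → LaurentSeries (ZMod ℓ), (∀ i, g i ∈ resField ℓ) →
      ∑ i, g i * chartRes F₀ ℓ hfr hS (b i) = 0 → ∀ i, g i = 0) :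
    ReductionData ℓ ↥(chartAlg F₀ ℓ {t}) where
  ρ := chartRes F₀ ℓ hfr hS
  map_algebraMap := chartRes_algebraMap F₀ ℓ hfr hS
  ker_le := chartRes_ker_le_of_chartBase F₀ ℓ hfr hdeg t hS hbase htres b hb

end Fermat.Agent.DS.Chart
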