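import Mathlib
import Fermat.Prelude.Def_ModularCurve_IgusaScheme
import Fermat.Agent.DS.Chart.Ker
/- GENERIC-IN-THE-FIELD PORT (PROGRAMME III, leaf X1-CHART, helper27) of Igusa/ChartAssemble.lean: `F₀ ⊂ ℚ((q))` any field of modular functions containing `j` replaces `F_N = modularFunctionFieldFull N`. -/


/-!
# S28 / Igusa, node F₀-CHART (part 3): the three charts, and S28 in hypothesis form

Inputs: `ChartBase F₀ ℓ j`, `ChartBase F₀ ℓ (1/j)` (F₀-CHART-A), integrality of the `j(q^d)` over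
`ℤ_(ℓ)[j]` (F₀-INT) and `ψ(F₀)` monomials in the `j̄(q^d)` independent over `𝔽_ℓ(j̄)` (F₀-TOWER-cor).
Output: the frozen S28 conclusion.
-/

set_option autoImplicit false
set_option linter.style.haveILetI false
set_option synthInstance.maxHeartbeats 400000
set_option linter.unusedSectionVars false
open AlgebraicGeometry CategoryTheory CategoryTheory.Limits
open ModularCurve Fermat.Agent.Igusa IntermediateField

noncomputable section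
namespace Fermat.Agent.DS.Chart

variable (F₀ : IntermediateField ℚ (LaurentSeries ℚ)) [hjF : Fact (jq ∈ F₀)]
variable (ℓ : ℕ) [Fact ℓ.Prime]

set_option quotPrecheck false in
local notation "ℤℓ" => ↥(GaloisRep.ratLocalizedAt ℓ)

set_option quotPrecheck false in
local notation "F" => ↥F₀

variable (hfr : IsZlField F₀ ℓ) {d : ℕ} (hdeg : DegInputs F₀ d)

/-! ### Gauss integrality of `j` and `1/j` -/

theorem jq_mem_gaussSubring : (jq : LaurentSeries ℚ) ∈ gaussSubring ℓ := by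
  obtain ⟨h, -⟩ := gaussRes_jqN ℓ 1
  rwa [qExpand_one_apply] at h

theorem gaussRes_jq : gaussRes ℓ ⟨jq, jq_mem_gaussSubring ℓ⟩ = jqModC (ZMod ℓ) := by
  obtain ⟨h, h2⟩ := gaussRes_jqN ℓ 1
  rw [jqNModC_one] at h2
  rw [← h2]
  congr 1
  exact Subtype.ext (qExpand_one_apply _).symm

theorem gaussRes_jq_ne_zero : gaussRes ℓ ⟨jq, jq_mem_gaussSubring ℓ⟩ ≠ 0 := by
  rw [gaussRes_jq]
  exact jqModC_ne_zero_of_nontrivial (ZMod ℓ)

theorem jq_inv_mem_gaussSubring : (jq : LaurentSeries ℚ)⁻¹ ∈ gaussSubring ℓ :=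
  inv_mem_gaussSubring_of_gaussRes_ne_zero ℓ ⟨jq, jq_mem_gaussSubring ℓ⟩ (gaussRes_jq_ne_zero ℓ)

theorem hSFin : ∀ s ∈ ({jG F₀} : Set F), ((s : F) : LaurentSeries ℚ) ∈ gaussSubring ℓ := by
  intro s hs
  rw [Set.mem_singleton_iff.mp hs]
  exact jq_mem_gaussSubring ℓ

theorem hSInf : ∀ s ∈ ({(jG F₀)⁻¹} : Set F), ((s : F) : LaurentSeries ℚ) ∈ gaussSubring ℓ := by
  intro s hs
  rw [Set.mem_singleton_iff.mp hs]
  exact jq_inv_mem_gaussSubring ℓ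

theorem hSMid : ∀ s ∈ ({jG F₀, (jG F₀)⁻¹} : Set F),
    ((s : F) : LaurentSeries ℚ) ∈ gaussSubring ℓ := by
  intro s hs
  rcases hs with hs | hs
  · rw [hs]; exact jq_mem_gaussSubring ℓ
  · rw [Set.mem_singleton_iff.mp hs]; exact jq_inv_mem_gaussSubring ℓ

/-- `chartRes` only depends on the `q`-expansion. -/
theorem chartRes_congr {S S' : Set F}
    (hS : ∀ s ∈ S, ((s : F) : LaurentSeries ℚ) ∈ gaussSubring ℓ)
    (hS' : ∀ s ∈ S', ((s : F) : LaurentSeries ℚ) ∈ gaussSubring ℓ)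
    (x : ↥(chartAlg F₀ ℓ S)) (y : ↥(chartAlg F₀ ℓ S')) (h : (x : F) = (y : F)) :
    chartRes F₀ ℓ hfr hS x = chartRes F₀ ℓ hfr hS' y := by
  rw [chartRes_apply, chartRes_apply]
  congr 1
  exact Subtype.ext (congrArg (fun z : F => (z : LaurentSeries ℚ)) h)

theorem chartRes_jG {S : Set F}
    (hS : ∀ s ∈ S, ((s : F) : LaurentSeries ℚ) ∈ gaussSubring ℓ)
    (x : ↥(chartAlg F₀ ℓ S)) (hx : (x : F) = jG F₀) :
    chartRes F₀ ℓ hfr hS x = jqModC (ZMod ℓ) := by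
  rw [chartRes_apply, ← gaussRes_jq]
  congr 1
  exact Subtype.ext (congrArg (fun z : F => (z : LaurentSeries ℚ)) hx)

theorem chartRes_jG_inv {S : Set F}
    (hS : ∀ s ∈ S, ((s : F) : LaurentSeries ℚ) ∈ gaussSubring ℓ)
    (x : ↥(chartAlg F₀ ℓ S)) (hx : (x : F) = (jG F₀)⁻¹) :
    chartRes F₀ ℓ hfr hS x = (jqModC (ZMod ℓ))⁻¹ := by
  rw [chartRes_apply, ← gaussRes_jq, ← gaussRes_inv ℓ _ (gaussRes_jq_ne_zero ℓ)]
  congr 1
  exact Subtype.ext (congrArg (fun z : F => (z : LaurentSeries ℚ)) hx)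

/-! ### The finite chart -/

include hdeg in
/-- Reduction data on the finite chart. -/
def reductionDataFin (hbase : ChartBase F₀ ℓ (jG F₀))
    (b : Fin (d) → ↥(chartAlgFin F₀ ℓ))
    (hb : ∀ g : Fin (d) → LaurentSeries (ZMod ℓ), (∀ i, g i ∈ resField ℓ) →
      ∑ i, g i * chartRes F₀ ℓ hfr (hSFin F₀ ℓ) (b i) = 0 → ∀ i, g i = 0) :
    ReductionData ℓ ↥(chartAlgFin F₀ ℓ) :=
  reductionDataOfChartBase F₀ ℓ hfr hdeg (jG F₀) (hSFin F₀ ℓ) hbase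
    (by rw [chartRes_jG F₀ ℓ hfr _ _ rfl]; exact Subfield.subset_closure rfl) b hb

/-! ### The chart at infinity -/

theorem jqModC_inv_mem_resField : (jqModC (ZMod ℓ))⁻¹ ∈ resField ℓ :=
  (resField ℓ).inv_mem (Subfield.subset_closure rfl)

include hdeg in
/-- Reduction data on the chart at infinity. -/
def reductionDataInf (hbase : ChartBase F₀ ℓ (jG F₀)⁻¹)
    (b : Fin (d) → ↥(chartAlgInf F₀ ℓ))
    (hb : ∀ g : Fin (d) → LaurentSeries (ZMod ℓ), (∀ i, g i ∈ resField ℓ) →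
      ∑ i, g i * chartRes F₀ ℓ hfr (hSInf F₀ ℓ) (b i) = 0 → ∀ i, g i = 0) :
    ReductionData ℓ ↥(chartAlgInf F₀ ℓ) :=
  reductionDataOfChartBase F₀ ℓ hfr hdeg (jG F₀)⁻¹ (hSInf F₀ ℓ) hbase
    (by rw [chartRes_jG_inv F₀ ℓ hfr _ _ rfl]; exact jqModC_inv_mem_resField ℓ) b hb

/-- From a family in the finite chart to a family in the chart at infinity, scaling by powers
of `1/j`. -/
theorem exists_family_inf (b : Fin (d) → ↥(chartAlgFin F₀ ℓ))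
    (hb : ∀ g : Fin (d) → LaurentSeries (ZMod ℓ), (∀ i, g i ∈ resField ℓ) →
      ∑ i, g i * chartRes F₀ ℓ hfr (hSFin F₀ ℓ) (b i) = 0 → ∀ i, g i = 0) :
    ∃ b' : Fin (d) → ↥(chartAlgInf F₀ ℓ),
      ∀ g : Fin (d) → LaurentSeries (ZMod ℓ), (∀ i, g i ∈ resField ℓ) →
        ∑ i, g i * chartRes F₀ ℓ hfr (hSInf F₀ ℓ) (b' i) = 0 → ∀ i, g i = 0 := by
  have hex : ∀ i, ∃ n : ℕ, (jG F₀)⁻¹ ^ n * ((b i : ↥(chartAlgFin F₀ ℓ)) : F) ∈ chartAlgInf F₀ ℓ := by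
    intro i
    have hz : ((b i : ↥(chartAlgFin F₀ ℓ)) : F) ∈
        chartAlg F₀ ℓ (insert (jG F₀)⁻¹⁻¹ {(jG F₀)⁻¹}) := by
      rw [inv_inv]
      exact chartAlg_mono F₀ ℓ (sFin_subset F₀) (b i).2
    exact exists_pow_mul_mem_chartAlg (Set.mem_singleton _) (inv_ne_zero (jG_ne_zero F₀)) hz
  choose n hn using hex
  refine ⟨fun i => ⟨(jG F₀)⁻¹ ^ n i * ((b i : ↥(chartAlgFin F₀ ℓ)) : F), hn i⟩, ?_⟩
  -- the reduction of the scaled family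
  have hres : ∀ i, chartRes F₀ ℓ hfr (hSInf F₀ ℓ)
      ⟨(jG F₀)⁻¹ ^ n i * ((b i : ↥(chartAlgFin F₀ ℓ)) : F), hn i⟩ =
      (jqModC (ZMod ℓ))⁻¹ ^ n i * chartRes F₀ ℓ hfr (hSFin F₀ ℓ) (b i) := by
    intro i
    have h1 : chartRes F₀ ℓ hfr (hSInf F₀ ℓ)
        ⟨(jG F₀)⁻¹ ^ n i * ((b i : ↥(chartAlgFin F₀ ℓ)) : F), hn i⟩ =
        chartRes F₀ ℓ hfr (hSMid F₀ ℓ) (inclInf F₀ ℓ (jInvChartInf F₀ ℓ) ^ n i * inclFin F₀ ℓ (b i)) :=
      chartRes_congr F₀ ℓ hfr _ _ _ _ rfl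
    rw [h1, RingHom.map_mul, RingHom.map_pow,
      chartRes_jG_inv F₀ ℓ hfr (hSMid F₀ ℓ) (inclInf F₀ ℓ (jInvChartInf F₀ ℓ)) rfl,
      chartRes_congr F₀ ℓ hfr (hSMid F₀ ℓ) (hSFin F₀ ℓ) (inclFin F₀ ℓ (b i)) (b i) rfl]
  intro g hg hsum i
  have hu : (jqModC (ZMod ℓ))⁻¹ ≠ 0 := inv_ne_zero (jqModC_ne_zero_of_nontrivial (ZMod ℓ))
  have h2 : ∑ i, (g i * (jqModC (ZMod ℓ))⁻¹ ^ n i) * chartRes F₀ ℓ hfr (hSFin F₀ ℓ) (b i) = 0 := by
    rw [← hsum]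
    refine Finset.sum_congr rfl fun i _ => ?_
    rw [hres i, mul_assoc]
  have h3 := hb (fun i => g i * (jqModC (ZMod ℓ))⁻¹ ^ n i)
    (fun i => (resField ℓ).mul_mem (hg i) ((resField ℓ).pow_mem (jqModC_inv_mem_resField ℓ) _)) h2 i
  rcases mul_eq_zero.mp h3 with h | h
  · exact h
  · exact absurd h (pow_ne_zero _ hu)

/-! ### The middle chart, by localisation from the finite chart -/

/-- Reduction data on the middle chart, from the `q`-expansion principle on the finite chart. -/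
def reductionDataMid
    (hFin : ∀ x : ↥(chartAlgFin F₀ ℓ), chartRes F₀ ℓ hfr (hSFin F₀ ℓ) x = 0 →
      ∃ y : ↥(chartAlgFin F₀ ℓ), x = algebraMap ℤℓ ↥(chartAlgFin F₀ ℓ) (zlPrime ℓ) * y) :
    ReductionData ℓ ↥(chartAlgMid F₀ ℓ) where
  ρ := chartRes F₀ ℓ hfr (hSMid F₀ ℓ)
  map_algebraMap := chartRes_algebraMap F₀ ℓ hfr (hSMid F₀ ℓ)
  ker_le := by
    intro x hx
    have hz : (x : F) ∈ chartAlg F₀ ℓ (insert (jG F₀)⁻¹ {jG F₀}) := by
      rw [show insert (jG F₀)⁻¹ ({jG F₀} : Set F) = {jG F₀, (jG F₀)⁻¹}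
        from Set.pair_comm _ _]
      exact x.2
    obtain ⟨n, hn⟩ := exists_pow_mul_mem_chartAlg (Set.mem_singleton _) (jG_ne_zero F₀) hz
    have h1 : chartRes F₀ ℓ hfr (hSFin F₀ ℓ) ⟨(jG F₀) ^ n * (x : F), hn⟩ =
        chartRes F₀ ℓ hfr (hSMid F₀ ℓ) (inclFin F₀ ℓ (jChartFin F₀ ℓ) ^ n * x) :=
      chartRes_congr F₀ ℓ hfr _ _ _ _ rfl
    rw [RingHom.map_mul, hx, mul_zero] at h1
    obtain ⟨y, hy⟩ := hFin _ h1
    refine ⟨inclInf F₀ ℓ (jInvChartInf F₀ ℓ) ^ n * inclFin F₀ ℓ y, Subtype.ext ?_⟩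
    have hy' : (jG F₀) ^ n * (x : F) =
        algebraMap ℤℓ F (zlPrime ℓ) * (y : F) := congrArg Subtype.val hy
    have hj := jG_ne_zero F₀
    show (x : F) = algebraMap ℤℓ F (zlPrime ℓ) * ((jG F₀)⁻¹ ^ n * (y : F))
    rw [mul_left_comm, ← hy', ← mul_assoc, ← mul_pow, inv_mul_cancel₀ hj, one_pow, one_mul]

end Fermat.Agent.DS.Chart
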