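import Mathlib
import Fermat.Agent.DS.Chart.DegQ
/- GENERIC-IN-THE-FIELD PORT (PROGRAMME III, leaf X1-CHART, helper27) of Igusa/DegQFrac.lean: `F₀ ⊂ ℚ((q))` any field of modular functions containing `j` replaces `F_N = modularFunctionFieldFull N`. -/


/-!
# S28 / F₀-DEG (D2): `ℚ(j)` is the fraction field of `ℤ_(ℓ)[S]` for `S = {j}, {j⁻¹}, {j, j⁻¹}`

For `S : Set F_N` with `S ⊆ ℚ(j)` and `A_S := Algebra.adjoin ℤ_(ℓ) S`: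

* `adjoinToQj` / `adjoinAlgebraQj` : the inclusion `A_S → ℚ(j)` as a ring hom / algebra structure;
* `adjoinQj_isScalarTower` : `IsScalarTower A_S ℚ(j) F_N`;
* `adjoinQj_isFractionRing` : `IsFractionRing A_S ℚ(j)` when `j ∈ A_S` or `j⁻¹ ∈ A_S`;
* the three special cases `S = {j}`, `{j⁻¹}`, `{j, j⁻¹}`.
-/

set_option autoImplicit false
set_option linter.style.haveILetI false
set_option synthInstance.maxHeartbeats 400000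
set_option linter.unusedSectionVars false

noncomputable section

namespace Fermat.Agent.DS.Chart

open ModularCurve Fermat.Agent.Igusa Polynomial IntermediateField

variable (F₀ : IntermediateField ℚ (LaurentSeries ℚ)) [hjF : Fact (jq ∈ F₀)]
variable (ℓ : ℕ) [Fact ℓ.Prime]

theorem adjoin_le_Qj {S : Set ↥F₀}
    (hS : S ⊆ (ℚ⟮jG F₀⟯ : Set ↥F₀)) :
    Algebra.adjoin ↥(GaloisRep.ratLocalizedAt ℓ) S ≤
      (ℚ⟮jG F₀⟯.toSubalgebra.restrictScalars ↥(GaloisRep.ratLocalizedAt ℓ)) :=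
  Algebra.adjoin_le hS

theorem mem_Qj_of_mem_adjoin {S : Set ↥F₀}
    (hS : S ⊆ (ℚ⟮jG F₀⟯ : Set ↥F₀))
    {x : ↥F₀}
    (hx : x ∈ Algebra.adjoin ↥(GaloisRep.ratLocalizedAt ℓ) S) : x ∈ ℚ⟮jG F₀⟯ :=
  adjoin_le_Qj F₀ ℓ hS hx

/-- The inclusion `ℤ_(ℓ)[S] → ℚ(j)`. -/
def adjoinToQj {S : Set ↥F₀}
    (hS : S ⊆ (ℚ⟮jG F₀⟯ : Set ↥F₀)) :
    ↥(Algebra.adjoin ↥(GaloisRep.ratLocalizedAt ℓ) S) →+* ↥ℚ⟮jG F₀⟯ :=
  (algebraMap ↥(Algebra.adjoin ↥(GaloisRep.ratLocalizedAt ℓ) S)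
    ↥F₀).codRestrict ℚ⟮jG F₀⟯
      (fun x => mem_Qj_of_mem_adjoin F₀ ℓ hS x.2)

@[simp]
theorem coe_adjoinToQj {S : Set ↥F₀}
    (hS : S ⊆ (ℚ⟮jG F₀⟯ : Set ↥F₀))
    (x : ↥(Algebra.adjoin ↥(GaloisRep.ratLocalizedAt ℓ) S)) :
    ((adjoinToQj F₀ ℓ hS x : ↥ℚ⟮jG F₀⟯) : ↥F₀) = x :=
  rfl

/-- The algebra structure `ℤ_(ℓ)[S] → ℚ(j)` (inclusion); use with `letI`. -/
@[reducible]
def adjoinAlgebraQj {S : Set ↥F₀}
    (hS : S ⊆ (ℚ⟮jG F₀⟯ : Set ↥F₀)) :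
    Algebra ↥(Algebra.adjoin ↥(GaloisRep.ratLocalizedAt ℓ) S) ↥ℚ⟮jG F₀⟯ :=
  (adjoinToQj F₀ ℓ hS).toAlgebra

theorem adjoinQj_isScalarTower {S : Set ↥F₀}
    (hS : S ⊆ (ℚ⟮jG F₀⟯ : Set ↥F₀)) :
    letI := adjoinAlgebraQj F₀ ℓ hS
    IsScalarTower ↥(Algebra.adjoin ↥(GaloisRep.ratLocalizedAt ℓ) S) ↥ℚ⟮jG F₀⟯
      ↥F₀ := by
  let _ := adjoinAlgebraQj F₀ ℓ hS
  exact IsScalarTower.of_algebraMap_eq fun x => rfl

theorem adjoinToQj_injective {S : Set ↥F₀}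
    (hS : S ⊆ (ℚ⟮jG F₀⟯ : Set ↥F₀)) :
    Function.Injective (adjoinToQj F₀ ℓ hS) := by
  intro x y hxy
  apply Subtype.ext
  have h := congrArg (fun z : ↥ℚ⟮jG F₀⟯ => (z : ↥F₀)) hxy
  exact h

/-- Every element of `ℚ(j)` is a quotient of two elements of `ℤ_(ℓ)[S]` as soon as `j` or `j⁻¹`
lies in `ℤ_(ℓ)[S]`. -/
theorem exists_div_of_mem_Qj {S : Set ↥F₀}
    (hj : jG F₀ ∈ Algebra.adjoin ↥(GaloisRep.ratLocalizedAt ℓ) S ∨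
      (jG F₀)⁻¹ ∈ Algebra.adjoin ↥(GaloisRep.ratLocalizedAt ℓ) S)
    {z : ↥F₀} (hz : z ∈ ℚ⟮jG F₀⟯) :
    ∃ x ∈ Algebra.adjoin ↥(GaloisRep.ratLocalizedAt ℓ) S,
      ∃ y ∈ Algebra.adjoin ↥(GaloisRep.ratLocalizedAt ℓ) S, x / y = z := by
  set A := Algebra.adjoin ↥(GaloisRep.ratLocalizedAt ℓ) S with hA
  have hcl : z ∈ Subfield.closure (A : Set ↥F₀) := by
    have h1 : ℚ⟮jG F₀⟯.toSubfield ≤ Subfield.closure (A : Set ↥F₀) := by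
      rw [IntermediateField.adjoin_toSubfield, Subfield.closure_le]
      rintro w (⟨q, rfl⟩ | hw)
      · rw [eq_ratCast]
        exact SubfieldClass.ratCast_mem _ q
      · rw [Set.mem_singleton_iff] at hw
        subst hw
        rcases hj with hj | hj
        · exact Subfield.subset_closure hj
        · have := (Subfield.closure (A : Set ↥F₀)).inv_mem
            (Subfield.subset_closure hj)
          rwa [inv_inv] at this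
    exact h1 hz
  rw [Subfield.mem_closure_iff] at hcl
  obtain ⟨x, hx, y, hy, hxy⟩ := hcl
  have hsub : Subring.closure (A : Set ↥F₀) = A.toSubring :=
    Subring.closure_eq A.toSubring
  rw [hsub] at hx hy
  exact ⟨x, hx, y, hy, hxy⟩

theorem adjoinQj_isFractionRing {S : Set ↥F₀}
    (hS : S ⊆ (ℚ⟮jG F₀⟯ : Set ↥F₀))
    (hj : jG F₀ ∈ Algebra.adjoin ↥(GaloisRep.ratLocalizedAt ℓ) S ∨
      (jG F₀)⁻¹ ∈ Algebra.adjoin ↥(GaloisRep.ratLocalizedAt ℓ) S) :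
    letI := adjoinAlgebraQj F₀ ℓ hS
    IsFractionRing ↥(Algebra.adjoin ↥(GaloisRep.ratLocalizedAt ℓ) S) ↥ℚ⟮jG F₀⟯ := by
  let _ := adjoinAlgebraQj F₀ ℓ hS
  have hfaith : FaithfulSMul ↥(Algebra.adjoin ↥(GaloisRep.ratLocalizedAt ℓ) S) ↥ℚ⟮jG F₀⟯ :=
    (faithfulSMul_iff_algebraMap_injective _ _).2 (adjoinToQj_injective F₀ ℓ hS)
  apply IsFractionRing.of_field
  intro z
  obtain ⟨x, hx, y, hy, hxy⟩ := exists_div_of_mem_Qj F₀ ℓ hj z.2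
  refine ⟨⟨x, hx⟩, ⟨y, hy⟩, ?_⟩
  apply Subtype.ext
  rw [← hxy]
  rfl

/-! ### The three charts -/

theorem jG_mem_Qj : jG F₀ ∈ ℚ⟮jG F₀⟯ := IntermediateField.mem_adjoin_simple_self ℚ _

theorem singleton_jG_subset_Qj :
    ({jG F₀} : Set ↥F₀) ⊆
      (ℚ⟮jG F₀⟯ : Set ↥F₀) := by
  rintro x hx
  rw [Set.mem_singleton_iff] at hx
  subst hx
  exact jG_mem_Qj F₀

theorem singleton_jG_inv_subset_Qj :
    ({(jG F₀)⁻¹} : Set ↥F₀) ⊆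
      (ℚ⟮jG F₀⟯ : Set ↥F₀) := by
  rintro x hx
  rw [Set.mem_singleton_iff] at hx
  subst hx
  exact ℚ⟮jG F₀⟯.inv_mem (jG_mem_Qj F₀)

theorem pair_jG_subset_Qj :
    ({jG F₀, (jG F₀)⁻¹} : Set ↥F₀) ⊆
      (ℚ⟮jG F₀⟯ : Set ↥F₀) := by
  rintro x hx
  rcases hx with hx | hx
  · subst hx
    exact jG_mem_Qj F₀
  · rw [Set.mem_singleton_iff] at hx
    subst hx
    exact ℚ⟮jG F₀⟯.inv_mem (jG_mem_Qj F₀)

/-- Chart `Fin`: `Frac ℤ_(ℓ)[j] = ℚ(j)`. -/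
theorem isFractionRing_adjoin_jG :
    letI := adjoinAlgebraQj F₀ ℓ (singleton_jG_subset_Qj F₀)
    IsFractionRing ↥(Algebra.adjoin ↥(GaloisRep.ratLocalizedAt ℓ)
      ({jG F₀} : Set ↥F₀)) ↥ℚ⟮jG F₀⟯ :=
  adjoinQj_isFractionRing F₀ ℓ (singleton_jG_subset_Qj F₀)
    (Or.inl (Algebra.subset_adjoin rfl))

/-- Chart `Inf`: `Frac ℤ_(ℓ)[j⁻¹] = ℚ(j)`. -/
theorem isFractionRing_adjoin_jG_inv :
    letI := adjoinAlgebraQj F₀ ℓ (singleton_jG_inv_subset_Qj F₀)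
    IsFractionRing ↥(Algebra.adjoin ↥(GaloisRep.ratLocalizedAt ℓ)
      ({(jG F₀)⁻¹} : Set ↥F₀)) ↥ℚ⟮jG F₀⟯ :=
  adjoinQj_isFractionRing F₀ ℓ (singleton_jG_inv_subset_Qj F₀)
    (Or.inr (Algebra.subset_adjoin rfl))

/-- Chart `Mid`: `Frac ℤ_(ℓ)[j, j⁻¹] = ℚ(j)`. -/
theorem isFractionRing_adjoin_jG_pair :
    letI := adjoinAlgebraQj F₀ ℓ (pair_jG_subset_Qj F₀)
    IsFractionRing ↥(Algebra.adjoin ↥(GaloisRep.ratLocalizedAt ℓ)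
      ({jG F₀, (jG F₀)⁻¹} : Set ↥F₀)) ↥ℚ⟮jG F₀⟯ :=
  adjoinQj_isFractionRing F₀ ℓ (pair_jG_subset_Qj F₀)
    (Or.inl (Algebra.subset_adjoin (Set.mem_insert _ _)))

end Fermat.Agent.DS.Chart
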