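import Mathlib
import Fermat.Agent.DS.Chart.DegQFrac
import Fermat.Agent.DS.Chart.BaseDef
/- GENERIC-IN-THE-FIELD PORT (PROGRAMME III, leaf X1-CHART, helper27) of Igusa/ChartClear.lean: `F₀ ⊂ ℚ((q))` any field of modular functions containing `j` replaces `F_N = modularFunctionFieldFull N`. -/


/-!
# S28 / F₀-CHART: the `clear` field of `ChartBase` for `t = j` and `t = 1/j`

Every element of `ℚ(j)` is a fraction of two elements of `ℤ_(ℓ)[t]` (`t = j` or `t = 1/j`), in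
exactly the form of the field `ChartBase.clear`.
-/

set_option autoImplicit false
set_option linter.style.haveILetI false
set_option synthInstance.maxHeartbeats 400000
set_option linter.unusedSectionVars false

noncomputable section

namespace Fermat.Agent.DS.Chart

open ModularCurve Fermat.Agent.Igusa IntermediateField

variable (F₀ : IntermediateField ℚ (LaurentSeries ℚ)) [hjF : Fact (jq ∈ F₀)]
variable (ℓ : ℕ) [Fact ℓ.Prime]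

/-- General form: if `j` or `1/j` lies in `ℤ_(ℓ)[S]`, every element of `ℚ(j)` is a fraction of
elements of `ℤ_(ℓ)[S]`. -/
theorem chartClear_of_mem {S : Set ↥F₀}
    (hj : jG F₀ ∈ Algebra.adjoin ↥(GaloisRep.ratLocalizedAt ℓ) S ∨
      (jG F₀)⁻¹ ∈ Algebra.adjoin ↥(GaloisRep.ratLocalizedAt ℓ) S)
    (g : ↥F₀) (hg : g ∈ ℚ⟮jG F₀⟯) :
    ∃ a d : ↥(Algebra.adjoin ↥(GaloisRep.ratLocalizedAt ℓ) S), d ≠ 0 ∧
      (d : ↥F₀) * g = (a : ↥F₀) := by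
  obtain ⟨x, hx, y, hy, hxy⟩ := exists_div_of_mem_Qj F₀ ℓ hj hg
  by_cases hy0 : y = 0
  · refine ⟨0, 1, one_ne_zero, ?_⟩
    rw [← hxy, hy0, div_zero, mul_zero]
    rfl
  · refine ⟨⟨x, hx⟩, ⟨y, hy⟩, fun h => hy0 (congrArg Subtype.val h), ?_⟩
    rw [← hxy]
    exact mul_div_cancel₀ x hy0

/-- The `clear` field of `ChartBase F₀ ℓ (jG F₀)`. -/
theorem chartClear_j (g : ↥F₀) (hg : g ∈ ℚ⟮jG F₀⟯) :
    ∃ a d : ↥(Algebra.adjoin ↥(GaloisRep.ratLocalizedAt ℓ)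
        ({jG F₀} : Set ↥F₀)), d ≠ 0 ∧
      (d : ↥F₀) * g = (a : ↥F₀) :=
  chartClear_of_mem F₀ ℓ (S := {jG F₀}) (Or.inl (Algebra.subset_adjoin (Set.mem_singleton _))) g hg

/-- The `clear` field of `ChartBase F₀ ℓ (jG F₀)⁻¹`. -/
theorem chartClear_jInv (g : ↥F₀) (hg : g ∈ ℚ⟮jG F₀⟯) :
    ∃ a d : ↥(Algebra.adjoin ↥(GaloisRep.ratLocalizedAt ℓ)
        ({(jG F₀)⁻¹} : Set ↥F₀)), d ≠ 0 ∧
      (d : ↥F₀) * g = (a : ↥F₀) :=
  chartClear_of_mem F₀ ℓ (S := {(jG F₀)⁻¹})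
    (Or.inr (Algebra.subset_adjoin (Set.mem_singleton _))) g hg

/-- Check: the statements have exactly the form of the field `ChartBase.clear`. -/
theorem chartBase_of_clear_j
    (h1 : IsIntegrallyClosed ↥(Algebra.adjoin ↥(GaloisRep.ratLocalizedAt ℓ)
      ({jG F₀} : Set ↥F₀)))
    (h2 : WfDvdMonoid ↥(Algebra.adjoin ↥(GaloisRep.ratLocalizedAt ℓ)
      ({jG F₀} : Set ↥F₀)))
    (h3 : Prime (algebraMap ↥(GaloisRep.ratLocalizedAt ℓ) ↥(Algebra.adjoin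
      ↥(GaloisRep.ratLocalizedAt ℓ) ({jG F₀} : Set ↥F₀)) (zlPrime ℓ)))
    (h5 : ∀ a : ↥(Algebra.adjoin ↥(GaloisRep.ratLocalizedAt ℓ)
        ({jG F₀} : Set ↥F₀)),
      (∃ y ∈ gaussSubring ℓ, (((a : ↥(Algebra.adjoin ↥(GaloisRep.ratLocalizedAt ℓ)
        ({jG F₀} : Set ↥F₀))) : ↥F₀) :
          LaurentSeries ℚ) = HahnSeries.C (ℓ : ℚ) * y) →
      algebraMap ↥(GaloisRep.ratLocalizedAt ℓ) ↥(Algebra.adjoin ↥(GaloisRep.ratLocalizedAt ℓ)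
        ({jG F₀} : Set ↥F₀)) (zlPrime ℓ) ∣ a) :
    ChartBase F₀ ℓ (jG F₀) :=
  ⟨h1, h2, h3, chartClear_j F₀ ℓ, h5⟩

theorem chartBase_of_clear_jInv
    (h1 : IsIntegrallyClosed ↥(Algebra.adjoin ↥(GaloisRep.ratLocalizedAt ℓ)
      ({(jG F₀)⁻¹} : Set ↥F₀)))
    (h2 : WfDvdMonoid ↥(Algebra.adjoin ↥(GaloisRep.ratLocalizedAt ℓ)
      ({(jG F₀)⁻¹} : Set ↥F₀)))
    (h3 : Prime (algebraMap ↥(GaloisRep.ratLocalizedAt ℓ) ↥(Algebra.adjoin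
      ↥(GaloisRep.ratLocalizedAt ℓ) ({(jG F₀)⁻¹} : Set ↥F₀))
        (zlPrime ℓ)))
    (h5 : ∀ a : ↥(Algebra.adjoin ↥(GaloisRep.ratLocalizedAt ℓ)
        ({(jG F₀)⁻¹} : Set ↥F₀)),
      (∃ y ∈ gaussSubring ℓ, (((a : ↥(Algebra.adjoin ↥(GaloisRep.ratLocalizedAt ℓ)
        ({(jG F₀)⁻¹} : Set ↥F₀))) : ↥F₀) :
          LaurentSeries ℚ) = HahnSeries.C (ℓ : ℚ) * y) →
      algebraMap ↥(GaloisRep.ratLocalizedAt ℓ) ↥(Algebra.adjoin ↥(GaloisRep.ratLocalizedAt ℓ)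
        ({(jG F₀)⁻¹} : Set ↥F₀)) (zlPrime ℓ) ∣ a) :
    ChartBase F₀ ℓ (jG F₀)⁻¹ :=
  ⟨h1, h2, h3, chartClear_jInv F₀ ℓ, h5⟩

end Fermat.Agent.DS.Chart
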