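import Mathlib
import Fermat.Prelude.Def_ModularCurve_IgusaScheme
import Fermat.Prelude.Def_ModularCurve_X0ModL
import Fermat.Agent.Igusa.ZlDvr
import Fermat.Agent.DS.Chart.Defs
import Fermat.Agent.DS.Chart.Clear
/- GENERIC-IN-THE-FIELD PORT (PROGRAMME III, leaf X1-CHART, helper27) of Igusa/ChartBase.lean: `F₀ ⊂ ℚ((q))` any field of modular functions containing `j` replaces `F_N = modularFunctionFieldFull N`. -/


/-!
# S28 / Igusa, node F₀-CHART-A: the base rings `ℤ_(ℓ)[j]`, `ℤ_(ℓ)[1/j]`, `ℤ_(ℓ)[j, 1/j]`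

* `j` (and `1/j`) is transcendental, so `ℤ_(ℓ)[t] ≃ ℤ_(ℓ)[X]` is a Noetherian UFD
  (`t = j, 1/j`); `ℤ_(ℓ)[j, 1/j]` is its localization away from `j`;
* Gauss lemma: if the reduction mod `ℓ` of the `q`-expansion of `a ∈ ℤ_(ℓ)[S]` vanishes,
  then `ℓ ∣ a` in `ℤ_(ℓ)[S]`; consequently `ℓ` is a prime element of `ℤ_(ℓ)[S]`;
* the interface theorems `chartBase_j`, `chartBase_jInv` (structure `ChartBase` of
  `ChartBaseDef.lean`).
-/

set_option autoImplicit false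
set_option linter.style.haveILetI false
set_option synthInstance.maxHeartbeats 400000
set_option linter.unusedSectionVars false
open ModularCurve Fermat.Agent.Igusa Polynomial IntermediateField
open Fermat.Agent.Igusa.ZlDvr

noncomputable section
namespace Fermat.Agent.DS.Chart.ChartBaseAux

/-! ### Transcendence of `j` -/

theorem coeff_algebra_smul (K : Type*) [Field K] (c : K) (y : LaurentSeries K) (m : ℤ) :
    (@HSMul.hSMul K (LaurentSeries K) (LaurentSeries K)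
      (@instHSMul K (LaurentSeries K) Algebra.toSMul) c y).coeff m = c * y.coeff m := by
  rw [Algebra.smul_def, algebraMap_laurentSeries_eq_single, HahnSeries.coeff_single_zero_mul]

/-- `j = q⁻¹ + …` is transcendental over any field of coefficients. -/
theorem transcendental_jqModC (K : Type*) [Field K] : Transcendental K (jqModC K) := by
  rw [transcendental_iff]
  intro p hp
  by_contra hp0
  have hlead : p.leadingCoeff ≠ 0 := leadingCoeff_ne_zero.mpr hp0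
  apply hlead
  have h1 := congrArg (fun y : LaurentSeries K => y.coeff (-(p.natDegree : ℤ))) hp
  simp only [HahnSeries.coeff_zero] at h1
  rw [aeval_eq_sum_range, HahnSeries.coeff_sum] at h1
  rw [Finset.sum_eq_single p.natDegree] at h1
  · rw [coeff_algebra_smul, coeff_jqModC_pow_self, mul_one] at h1
    exact h1
  · intro i hi hne
    have hi' : i < p.natDegree := lt_of_le_of_ne (Nat.lt_succ_iff.mp (Finset.mem_range.mp hi)) hne
    rw [coeff_algebra_smul, coeff_jqModC_pow_of_lt K (by omega : -(p.natDegree : ℤ) < -(i : ℤ)),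
      mul_zero]
  · intro h
    exact absurd (Finset.mem_range.mpr (Nat.lt_succ_self _)) h


variable (F₀ : IntermediateField ℚ (LaurentSeries ℚ)) [hjF : Fact (jq ∈ F₀)]
variable (ℓ : ℕ) [Fact ℓ.Prime]

set_option quotPrecheck false in
local notation "ℤℓ" => ↥(GaloisRep.ratLocalizedAt ℓ)

set_option quotPrecheck false in
local notation "F" => ↥F₀


omit hjF in
theorem coe_aeval_rat (x : F) (P : ℚ[X]) :
    ((aeval x P : F) : LaurentSeries ℚ) = aeval (x : LaurentSeries ℚ) P := by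
  rw [aeval_def, aeval_def]
  have h := hom_eval₂ P (algebraMap ℚ F) (algebraMap F (LaurentSeries ℚ)) x
  rw [IntermediateField.algebraMap_apply, IntermediateField.algebraMap_apply] at h
  rw [h]
  congr 1
  exact Subsingleton.elim _ _

theorem transcendental_jG_rat : Transcendental ℚ (jG F₀) := by
  have h := transcendental_jqModC ℚ
  rw [jqModC_rat] at h
  rw [transcendental_iff] at h ⊢
  intro p hp
  apply h
  rw [← coe_jG F₀, ← coe_aeval_rat, hp]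
  rfl

theorem transcendental_jG_inv_rat : Transcendental ℚ (jG F₀)⁻¹ := by
  intro h
  have := h.inv
  rw [inv_inv] at this
  exact transcendental_jG_rat F₀ this

theorem algebraMap_zl_rat_injective : Function.Injective (algebraMap ℤℓ ℚ) :=
  Subtype.val_injective

theorem transcendental_jG_zl : Transcendental ℤℓ (jG F₀) :=
  (transcendental_jG_rat F₀).restrictScalars (algebraMap_zl_rat_injective ℓ)

theorem transcendental_jG_inv_zl : Transcendental ℤℓ (jG F₀)⁻¹ :=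
  (transcendental_jG_inv_rat F₀).restrictScalars (algebraMap_zl_rat_injective ℓ)

/-! ### The polynomial charts `ℤ_(ℓ)[x]`, `x ∈ {j, 1/j}` -/

/-- For `x` transcendental, `ℤ_(ℓ)[x]` is a UFD. -/
theorem ufm_adjoin_singleton {x : F} (hx : Transcendental ℤℓ x) :
    UniqueFactorizationMonoid ↥(Algebra.adjoin ℤℓ {x}) :=
  (Polynomial.algEquivOfTranscendental ℤℓ x hx).toMulEquiv.uniqueFactorizationMonoid inferInstance

theorem isNoetherianRing_adjoin_singleton {x : F} (hx : Transcendental ℤℓ x) :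
    IsNoetherianRing ↥(Algebra.adjoin ℤℓ {x}) :=
  isNoetherianRing_of_ringEquiv _ (Polynomial.algEquivOfTranscendental ℤℓ x hx).toRingEquiv


/-! ### Reduction on the base rings `ℤ_(ℓ)[S]` -/

/-- the inclusion of `ℤ_(ℓ)[S]` into the Gauss ring (no hypothesis on `F₀`) -/
def adjToGauss {S : Set F} (hS : ∀ s ∈ S, ((s : F) : LaurentSeries ℚ) ∈ gaussSubring ℓ) :
    ↥(Algebra.adjoin ℤℓ S) →+* gaussSubring ℓ where
  toFun a := ⟨((a : F) : LaurentSeries ℚ), coe_mem_gaussSubring_of_mem_adjoin F₀ ℓ hS a.2⟩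
  map_one' := rfl
  map_mul' _ _ := rfl
  map_zero' := rfl
  map_add' _ _ := rfl

/-- The reduction map on `ℤ_(ℓ)[S]` (the restriction of `chartRes`, `adjRes_apply`). -/
def adjRes {S : Set F} (hS : ∀ s ∈ S, ((s : F) : LaurentSeries ℚ) ∈ gaussSubring ℓ) :
    ↥(Algebra.adjoin ℤℓ S) →+* LaurentSeries (ZMod ℓ) :=
  (gaussRes ℓ).comp (adjToGauss F₀ ℓ hS)

theorem adjRes_apply (hfr : IsZlField F₀ ℓ) {S : Set F}
    (hS : ∀ s ∈ S, ((s : F) : LaurentSeries ℚ) ∈ gaussSubring ℓ)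
    (a : ↥(Algebra.adjoin ℤℓ S)) :
    adjRes F₀ ℓ hS a =
      chartRes F₀ ℓ hfr hS (Subalgebra.inclusion (adjoin_le_chartAlg F₀ ℓ S) a) := rfl

theorem adjRes_eq_gaussRes {S : Set F}
    (hS : ∀ s ∈ S, ((s : F) : LaurentSeries ℚ) ∈ gaussSubring ℓ)
    (a : ↥(Algebra.adjoin ℤℓ S)) (h : (((a : F) : F) : LaurentSeries ℚ) ∈ gaussSubring ℓ) :
    adjRes F₀ ℓ hS a = gaussRes ℓ ⟨(((a : F) : F) : LaurentSeries ℚ), h⟩ := rfl

theorem adjRes_algebraMap {S : Set F}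
    (hS : ∀ s ∈ S, ((s : F) : LaurentSeries ℚ) ∈ gaussSubring ℓ) (r : ℤℓ) :
    adjRes F₀ ℓ hS (algebraMap ℤℓ _ r) = HahnSeries.C (zlResidue ℓ r) := by
  obtain ⟨hmem, hC⟩ := gaussRes_C ℓ r
  rw [← hC]
  show gaussRes ℓ _ = gaussRes ℓ _
  congr 1

/-- The prime `ℓ` as an element of `ℤ_(ℓ)[S]`. -/
def ellAdj (S : Set F) : ↥(Algebra.adjoin ℤℓ S) := algebraMap ℤℓ _ (zlPrime ℓ)

theorem adjRes_ellAdj {S : Set F}
    (hS : ∀ s ∈ S, ((s : F) : LaurentSeries ℚ) ∈ gaussSubring ℓ) :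
    adjRes F₀ ℓ hS (ellAdj F₀ ℓ S) = 0 := by
  rw [ellAdj, adjRes_algebraMap, zlResidue_zlPrime, map_zero]

theorem ellAdj_ne_zero (S : Set F) : ellAdj F₀ ℓ S ≠ 0 := by
  intro h
  have h1 := congrArg (fun a : ↥(Algebra.adjoin ℤℓ S) => (((a : F) : F) : LaurentSeries ℚ)) h
  simp only [ellAdj, Subalgebra.coe_algebraMap, ZeroMemClass.coe_zero] at h1
  rw [coe_algebraMap_zl, coe_zlPrime] at h1
  have h2 := congrArg (fun y : LaurentSeries ℚ => y.coeff 0) h1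
  rw [HahnSeries.C_apply] at h2
  simp only [HahnSeries.coeff_single_same, HahnSeries.coeff_zero] at h2
  have hℓ : (ℓ : ℚ) ≠ 0 := by exact_mod_cast (Fact.out : ℓ.Prime).ne_zero
  exact hℓ h2

/-- **Primality of `ℓ` from the Gauss lemma**: if the kernel of the reduction on `ℤ_(ℓ)[S]` is
generated by `ℓ`, then `ℓ` is a prime element. -/
theorem prime_ellAdj_of_ker {S : Set F}
    (hS : ∀ s ∈ S, ((s : F) : LaurentSeries ℚ) ∈ gaussSubring ℓ)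
    (hker : ∀ a : ↥(Algebra.adjoin ℤℓ S), adjRes F₀ ℓ hS a = 0 → ellAdj F₀ ℓ S ∣ a) :
    Prime (ellAdj F₀ ℓ S) := by
  refine ⟨ellAdj_ne_zero F₀ ℓ S, ?_, ?_⟩
  · intro hu
    have := hu.map (adjRes F₀ ℓ hS)
    rw [adjRes_ellAdj] at this
    exact not_isUnit_zero this
  · intro a b hab
    have h0 : adjRes F₀ ℓ hS (a * b) = 0 := by
      obtain ⟨c, hc⟩ := hab
      rw [hc, map_mul, adjRes_ellAdj, zero_mul]
    rw [map_mul] at h0
    rcases mul_eq_zero.mp h0 with h | h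
    · exact Or.inl (hker a h)
    · exact Or.inr (hker b h)

/-- Gauss lemma for a polynomial chart `ℤ_(ℓ)[x]` whose generator has transcendental reduction. -/
theorem ellAdj_dvd_of_adjRes_eq_zero_singleton {x : F}
    (hS : ∀ s ∈ ({x} : Set F), ((s : F) : LaurentSeries ℚ) ∈ gaussSubring ℓ)
    (hxbar : Transcendental (ZMod ℓ) (gaussRes ℓ ⟨((x : F) : LaurentSeries ℚ), hS x rfl⟩))
    (a : ↥(Algebra.adjoin ℤℓ ({x} : Set F))) (ha : adjRes F₀ ℓ hS a = 0) :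
    ellAdj F₀ ℓ {x} ∣ a := by
  set xA : ↥(Algebra.adjoin ℤℓ ({x} : Set F)) := ⟨x, Algebra.self_mem_adjoin_singleton ℤℓ x⟩
    with hxA
  obtain ⟨P, hP⟩ : ∃ P : ℤℓ[X], aeval xA P = a := by
    obtain ⟨a, ha'⟩ := a
    obtain ⟨P, rfl⟩ := Algebra.adjoin_mem_exists_aeval _ _ ha'
    exact ⟨P, Subtype.ext (by rw [Polynomial.aeval_subalgebra_coe])⟩
  -- the composite `ℤ_(ℓ)[X] → ℤ_(ℓ)[x] → 𝔽_ℓ((q))`
  have hcomp : (adjRes F₀ ℓ hS).comp (aeval xA : ℤℓ[X] →ₐ[ℤℓ] _).toRingHom =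
      eval₂RingHom ((HahnSeries.C : ZMod ℓ →+* LaurentSeries (ZMod ℓ)).comp (zlResidue ℓ))
        (gaussRes ℓ ⟨((x : F) : LaurentSeries ℚ), hS x rfl⟩) := by
    refine Polynomial.ringHom_ext (fun r => ?_) ?_
    · simp only [RingHom.coe_comp, Function.comp_apply, AlgHom.toRingHom_eq_coe,
        RingHom.coe_coe, aeval_C, coe_eval₂RingHom, eval₂_C]
      exact adjRes_algebraMap F₀ ℓ hS r
    · simp only [RingHom.coe_comp, Function.comp_apply, AlgHom.toRingHom_eq_coe,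
        RingHom.coe_coe, aeval_X, coe_eval₂RingHom, eval₂_X]
      rfl
  have h1 : aeval (gaussRes ℓ ⟨((x : F) : LaurentSeries ℚ), hS x rfl⟩)
      (P.map (zlResidue ℓ)) = 0 := by
    have h2 := DFunLike.congr_fun hcomp P
    simp only [RingHom.coe_comp, Function.comp_apply, AlgHom.toRingHom_eq_coe,
      RingHom.coe_coe, coe_eval₂RingHom] at h2
    rw [hP, ha] at h2
    have hC : algebraMap (ZMod ℓ) (LaurentSeries (ZMod ℓ)) =
        (HahnSeries.C : ZMod ℓ →+* LaurentSeries (ZMod ℓ)) := by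
      ext r : 1
      rw [algebraMap_laurentSeries_eq_single, HahnSeries.C_apply]
    rw [aeval_def, eval₂_map, hC, ← h2]
  have h3 : P.map (zlResidue ℓ) = 0 := by
    rw [transcendental_iff] at hxbar
    exact hxbar _ h1
  have h4 : Polynomial.C (zlPrime ℓ) ∣ P := by
    rw [Polynomial.C_dvd_iff_dvd_coeff]
    intro i
    have := congrArg (fun Q : (ZMod ℓ)[X] => Q.coeff i) h3
    simp only [coeff_map, coeff_zero] at this
    obtain ⟨r, hr⟩ := exists_eq_mul_of_zlResidue_eq_zero ℓ this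
    exact ⟨r, hr⟩
  obtain ⟨P₁, rfl⟩ := h4
  refine ⟨aeval xA P₁, ?_⟩
  rw [← hP, map_mul, aeval_C]
  rfl


/-! ### The generators `j`, `1/j` -/

theorem jq_eq_zlIota : jq = zlIota ℓ (jqModC ℤℓ) := by
  rw [zlIota, coeffMap_jqModC, jqModC_rat]

theorem jq_mem_gaussSubring : jq ∈ gaussSubring ℓ := by
  rw [jq_eq_zlIota ℓ]
  exact zlIota_mem_gaussSubring ℓ _

theorem gaussRes_jq : gaussRes ℓ ⟨jq, jq_mem_gaussSubring ℓ⟩ = jqModC (ZMod ℓ) := by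
  have h : (⟨jq, jq_mem_gaussSubring ℓ⟩ : gaussSubring ℓ) =
      ⟨zlIota ℓ (jqModC ℤℓ), zlIota_mem_gaussSubring ℓ _⟩ := Subtype.ext (jq_eq_zlIota ℓ)
  rw [h, gaussRes_zlIota, zlRed, coeffMap_jqModC]

theorem gaussRes_jq_ne_zero : gaussRes ℓ ⟨jq, jq_mem_gaussSubring ℓ⟩ ≠ 0 := by
  rw [gaussRes_jq]
  exact jqModC_ne_zero_of_nontrivial _

theorem jq_inv_mem_gaussSubring : jq⁻¹ ∈ gaussSubring ℓ :=
  inv_mem_gaussSubring_of_gaussRes_ne_zero ℓ ⟨jq, jq_mem_gaussSubring ℓ⟩ (gaussRes_jq_ne_zero ℓ)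

theorem gaussRes_jq_inv :
    gaussRes ℓ ⟨jq⁻¹, jq_inv_mem_gaussSubring ℓ⟩ = (jqModC (ZMod ℓ))⁻¹ := by
  have := gaussRes_inv ℓ ⟨jq, jq_mem_gaussSubring ℓ⟩ (gaussRes_jq_ne_zero ℓ)
  rw [gaussRes_jq] at this
  exact this

theorem coe_jG_inv : (((jG F₀)⁻¹ : F) : LaurentSeries ℚ) = jq⁻¹ := by
  rw [IntermediateField.coe_inv, coe_jG]

/-- the hypotheses `hS` of `chartRes` for the three charts -/
theorem hSFin : ∀ s ∈ ({jG F₀} : Set F), ((s : F) : LaurentSeries ℚ) ∈ gaussSubring ℓ := by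
  rintro s rfl
  exact jq_mem_gaussSubring ℓ

theorem hSInf : ∀ s ∈ ({(jG F₀)⁻¹} : Set F), ((s : F) : LaurentSeries ℚ) ∈ gaussSubring ℓ := by
  rintro s rfl
  rw [coe_jG_inv]
  exact jq_inv_mem_gaussSubring ℓ

theorem hSMid :
    ∀ s ∈ ({jG F₀, (jG F₀)⁻¹} : Set F), ((s : F) : LaurentSeries ℚ) ∈ gaussSubring ℓ := by
  rintro s (rfl | rfl)
  · exact jq_mem_gaussSubring ℓ
  · rw [coe_jG_inv]
    exact jq_inv_mem_gaussSubring ℓ

theorem transcendental_jqModC_inv (K : Type*) [Field K] : Transcendental K (jqModC K)⁻¹ := by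
  intro h
  have := h.inv
  rw [inv_inv] at this
  exact transcendental_jqModC K this

/-- **Gauss lemma on `ℤ_(ℓ)[j]`.** -/
theorem ellAdj_dvd_of_adjRes_eq_zero_fin (a : ↥(Algebra.adjoin ℤℓ ({jG F₀} : Set F)))
    (ha : adjRes F₀ ℓ (hSFin F₀ ℓ) a = 0) : ellAdj F₀ ℓ {jG F₀} ∣ a := by
  refine ellAdj_dvd_of_adjRes_eq_zero_singleton F₀ ℓ (hSFin F₀ ℓ) ?_ a ha
  have h : (⟨((jG F₀ : F) : LaurentSeries ℚ), hSFin F₀ ℓ (jG F₀) rfl⟩ : gaussSubring ℓ) =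
      ⟨jq, jq_mem_gaussSubring ℓ⟩ := rfl
  rw [h, gaussRes_jq]
  exact transcendental_jqModC _

/-- **Gauss lemma on `ℤ_(ℓ)[1/j]`.** -/
theorem ellAdj_dvd_of_adjRes_eq_zero_inf (a : ↥(Algebra.adjoin ℤℓ ({(jG F₀)⁻¹} : Set F)))
    (ha : adjRes F₀ ℓ (hSInf F₀ ℓ) a = 0) : ellAdj F₀ ℓ {(jG F₀)⁻¹} ∣ a := by
  refine ellAdj_dvd_of_adjRes_eq_zero_singleton F₀ ℓ (hSInf F₀ ℓ) ?_ a ha
  have h : (⟨(((jG F₀)⁻¹ : F) : LaurentSeries ℚ), hSInf F₀ ℓ (jG F₀)⁻¹ rfl⟩ :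
      gaussSubring ℓ) = ⟨jq⁻¹, jq_inv_mem_gaussSubring ℓ⟩ := Subtype.ext (coe_jG_inv F₀)
  rw [h, gaussRes_jq_inv]
  exact transcendental_jqModC_inv _


/-- **Gauss lemma on `ℤ_(ℓ)[j, 1/j]`.** -/
theorem ellAdj_dvd_of_adjRes_eq_zero_mid
    (a : ↥(Algebra.adjoin ℤℓ ({jG F₀, (jG F₀)⁻¹} : Set F)))
    (ha : adjRes F₀ ℓ (hSMid F₀ ℓ) a = 0) : ellAdj F₀ ℓ {jG F₀, (jG F₀)⁻¹} ∣ a := by
  have ha' : (a : F) ∈ Algebra.adjoin ℤℓ (insert (jG F₀)⁻¹ ({jG F₀} : Set F)) := by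
    rw [show insert (jG F₀)⁻¹ ({jG F₀} : Set F) = {jG F₀, (jG F₀)⁻¹}
      from Set.pair_comm _ _]
    exact a.2
  obtain ⟨n, hn⟩ := exists_pow_mul_mem_adjoin (Set.mem_singleton _) (jG_ne_zero F₀) ha'
  -- `j` and `1/j` as elements of the middle ring
  let jM : ↥(Algebra.adjoin ℤℓ ({jG F₀, (jG F₀)⁻¹} : Set F)) :=
    ⟨jG F₀, Algebra.subset_adjoin (by simp)⟩
  let jI : ↥(Algebra.adjoin ℤℓ ({jG F₀, (jG F₀)⁻¹} : Set F)) :=
    ⟨(jG F₀)⁻¹, Algebra.subset_adjoin (by simp)⟩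
  let c : ↥(Algebra.adjoin ℤℓ ({jG F₀} : Set F)) := ⟨jG F₀ ^ n * (a : F), hn⟩
  have hmem : (((c : F) : F) : LaurentSeries ℚ) ∈ gaussSubring ℓ :=
    coe_mem_gaussSubring_of_mem_adjoin F₀ ℓ (hSFin F₀ ℓ) c.2
  have hco : ((((jM ^ n * a : ↥(Algebra.adjoin ℤℓ ({jG F₀, (jG F₀)⁻¹} : Set F))) : F) : F) :
      LaurentSeries ℚ) = (((c : F) : F) : LaurentSeries ℚ) := by
    rw [Subalgebra.coe_mul, Subalgebra.coe_pow]
  have hc : adjRes F₀ ℓ (hSFin F₀ ℓ) c = adjRes F₀ ℓ (hSMid F₀ ℓ) (jM ^ n * a) := by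
    rw [adjRes_eq_gaussRes F₀ ℓ (hSFin F₀ ℓ) c hmem,
      adjRes_eq_gaussRes F₀ ℓ (hSMid F₀ ℓ) (jM ^ n * a) (hco ▸ hmem)]
    congr 1
  have hc0 : adjRes F₀ ℓ (hSFin F₀ ℓ) c = 0 := by
    rw [hc, map_mul, ha, mul_zero]
  obtain ⟨c', hc'⟩ := ellAdj_dvd_of_adjRes_eq_zero_fin F₀ ℓ c hc0
  refine ⟨jI ^ n * Subalgebra.inclusion (Algebra.adjoin_mono (sFin_subset F₀)) c', ?_⟩
  apply Subtype.ext
  have h1 : jG F₀ ^ n * (a : F) = algebraMap ℤℓ F (zlPrime ℓ) * (c' : F) := by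
    have := congrArg (fun t : ↥(Algebra.adjoin ℤℓ ({jG F₀} : Set F)) => (t : F)) hc'
    exact this
  have hj : jG F₀ ^ n ≠ 0 := pow_ne_zero _ (jG_ne_zero F₀)
  show (a : F) = algebraMap ℤℓ F (zlPrime ℓ) * ((jG F₀)⁻¹ ^ n * (c' : F))
  rw [← mul_assoc, mul_comm (algebraMap ℤℓ F (zlPrime ℓ)), mul_assoc, ← h1, ← mul_assoc,
    ← mul_pow, inv_mul_cancel₀ (jG_ne_zero F₀), one_pow, one_mul]

/-! ### `ℓ` is prime in the three base rings -/

theorem prime_ellAdj_fin : Prime (ellAdj F₀ ℓ {jG F₀}) :=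
  prime_ellAdj_of_ker F₀ ℓ (hSFin F₀ ℓ) (ellAdj_dvd_of_adjRes_eq_zero_fin F₀ ℓ)

theorem prime_ellAdj_inf : Prime (ellAdj F₀ ℓ {(jG F₀)⁻¹}) :=
  prime_ellAdj_of_ker F₀ ℓ (hSInf F₀ ℓ) (ellAdj_dvd_of_adjRes_eq_zero_inf F₀ ℓ)

theorem prime_ellAdj_mid : Prime (ellAdj F₀ ℓ {jG F₀, (jG F₀)⁻¹}) :=
  prime_ellAdj_of_ker F₀ ℓ (hSMid F₀ ℓ) (ellAdj_dvd_of_adjRes_eq_zero_mid F₀ ℓ)


/-! ### Ring-theoretic properties of the three base rings -/

instance ufm_adjFin : UniqueFactorizationMonoid ↥(Algebra.adjoin ℤℓ ({jG F₀} : Set F)) :=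
  ufm_adjoin_singleton F₀ ℓ (transcendental_jG_zl F₀ ℓ)

instance ufm_adjInf : UniqueFactorizationMonoid ↥(Algebra.adjoin ℤℓ ({(jG F₀)⁻¹} : Set F)) :=
  ufm_adjoin_singleton F₀ ℓ (transcendental_jG_inv_zl F₀ ℓ)

instance isNoetherianRing_adjFin : IsNoetherianRing ↥(Algebra.adjoin ℤℓ ({jG F₀} : Set F)) :=
  isNoetherianRing_adjoin_singleton F₀ ℓ (transcendental_jG_zl F₀ ℓ)

instance isNoetherianRing_adjInf :
    IsNoetherianRing ↥(Algebra.adjoin ℤℓ ({(jG F₀)⁻¹} : Set F)) :=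
  isNoetherianRing_adjoin_singleton F₀ ℓ (transcendental_jG_inv_zl F₀ ℓ)

/-- `j` as an element of `ℤ_(ℓ)[j]`. -/
def jAdjFin : ↥(Algebra.adjoin ℤℓ ({jG F₀} : Set F)) :=
  ⟨jG F₀, Algebra.subset_adjoin (Set.mem_singleton _)⟩

/-- the inclusion `ℤ_(ℓ)[j] → ℤ_(ℓ)[j, 1/j]` -/
abbrev adjInclFin : ↥(Algebra.adjoin ℤℓ ({jG F₀} : Set F)) →ₐ[ℤℓ]
    ↥(Algebra.adjoin ℤℓ ({jG F₀, (jG F₀)⁻¹} : Set F)) :=
  Subalgebra.inclusion (Algebra.adjoin_mono (sFin_subset F₀))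

/-- `ℤ_(ℓ)[j, 1/j]` is the localization of `ℤ_(ℓ)[j]` away from `j`. -/
theorem isLocalization_away_adjInclFin :
    letI := (adjInclFin F₀ ℓ).toRingHom.toAlgebra
    IsLocalization.Away (jAdjFin F₀ ℓ) ↥(Algebra.adjoin ℤℓ ({jG F₀, (jG F₀)⁻¹} : Set F)) := by
  letI := (adjInclFin F₀ ℓ).toRingHom.toAlgebra
  refine (isLocalization_iff _ _).mpr ⟨?_, ?_, ?_⟩
  · rintro ⟨_, n, rfl⟩
    rw [RingHom.algebraMap_toAlgebra, map_pow]
    refine IsUnit.pow n ?_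
    refine .of_mul_eq_one ⟨(jG F₀)⁻¹, Algebra.subset_adjoin (by simp)⟩ (Subtype.ext ?_)
    exact mul_inv_cancel₀ (jG_ne_zero F₀)
  · intro z
    have hz : (z : F) ∈ Algebra.adjoin ℤℓ (insert (jG F₀)⁻¹ ({jG F₀} : Set F)) := by
      rw [show insert (jG F₀)⁻¹ ({jG F₀} : Set F) = {jG F₀, (jG F₀)⁻¹}
        from Set.pair_comm _ _]
      exact z.2
    obtain ⟨n, hn⟩ := exists_pow_mul_mem_adjoin (Set.mem_singleton _) (jG_ne_zero F₀) hz
    refine ⟨(⟨(jG F₀) ^ n * z, hn⟩, ⟨jAdjFin F₀ ℓ ^ n, n, rfl⟩), Subtype.ext ?_⟩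
    rw [RingHom.algebraMap_toAlgebra]
    show (z : F) * (jG F₀) ^ n = (jG F₀) ^ n * (z : F)
    exact mul_comm _ _
  · intro x y h
    refine ⟨1, ?_⟩
    rw [RingHom.algebraMap_toAlgebra] at h
    rw [Subalgebra.inclusion_injective _ h]

instance isIntegrallyClosed_adjFin :
    IsIntegrallyClosed ↥(Algebra.adjoin ℤℓ ({jG F₀} : Set F)) :=
  @UniqueFactorizationMonoid.instIsIntegrallyClosed _ _ _ (ufm_adjFin F₀ ℓ)

instance isIntegrallyClosed_adjInf :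
    IsIntegrallyClosed ↥(Algebra.adjoin ℤℓ ({(jG F₀)⁻¹} : Set F)) :=
  @UniqueFactorizationMonoid.instIsIntegrallyClosed _ _ _ (ufm_adjInf F₀ ℓ)

instance wfDvdMonoid_adjFin : WfDvdMonoid ↥(Algebra.adjoin ℤℓ ({jG F₀} : Set F)) :=
  @IsNoetherianRing.wfDvdMonoid _ _ _ (isNoetherianRing_adjFin F₀ ℓ)

instance wfDvdMonoid_adjInf : WfDvdMonoid ↥(Algebra.adjoin ℤℓ ({(jG F₀)⁻¹} : Set F)) :=
  @IsNoetherianRing.wfDvdMonoid _ _ _ (isNoetherianRing_adjInf F₀ ℓ)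

instance isIntegrallyClosed_adjMid :
    IsIntegrallyClosed ↥(Algebra.adjoin ℤℓ ({jG F₀, (jG F₀)⁻¹} : Set F)) := by
  let _ := (adjInclFin F₀ ℓ).toRingHom.toAlgebra
  have := isLocalization_away_adjInclFin F₀ ℓ
  have : IsIntegrallyClosed ↥(Algebra.adjoin ℤℓ ({jG F₀} : Set F)) :=
    isIntegrallyClosed_adjFin F₀ ℓ
  refine isIntegrallyClosed_of_isLocalization _ (Submonoid.powers (jAdjFin F₀ ℓ)) ?_
  rintro x ⟨n, rfl⟩
  refine mem_nonZeroDivisors_of_ne_zero (pow_ne_zero n ?_)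
  intro h
  exact jG_ne_zero F₀ (congrArg Subtype.val h)

instance isNoetherianRing_adjMid :
    IsNoetherianRing ↥(Algebra.adjoin ℤℓ ({jG F₀, (jG F₀)⁻¹} : Set F)) := by
  let _ := (adjInclFin F₀ ℓ).toRingHom.toAlgebra
  have := isLocalization_away_adjInclFin F₀ ℓ
  exact IsLocalization.isNoetherianRing (Submonoid.powers (jAdjFin F₀ ℓ)) _
    (isNoetherianRing_adjFin F₀ ℓ)

instance wfDvdMonoid_adjMid :
    WfDvdMonoid ↥(Algebra.adjoin ℤℓ ({jG F₀, (jG F₀)⁻¹} : Set F)) :=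
  @IsNoetherianRing.wfDvdMonoid _ _ _ (isNoetherianRing_adjMid F₀ ℓ)


/-! ### Gauss lemma in the form of `ChartBase.gauss` -/

theorem adjRes_eq_zero_of_exists {S : Set F}
    (hS : ∀ s ∈ S, ((s : F) : LaurentSeries ℚ) ∈ gaussSubring ℓ)
    (a : ↥(Algebra.adjoin ℤℓ S))
    (h : ∃ y ∈ gaussSubring ℓ, (((a : F) : F) : LaurentSeries ℚ) = HahnSeries.C (ℓ : ℚ) * y) :
    adjRes F₀ ℓ hS a = 0 := by
  obtain ⟨y, hy, hay⟩ := h
  rw [adjRes_eq_gaussRes F₀ ℓ hS a (coe_mem_gaussSubring_of_mem_adjoin F₀ ℓ hS a.2),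
    gaussRes_eq_zero_iff]
  exact ⟨⟨y, hy⟩, Subtype.ext (by rw [Subring.coe_mul, coe_gaussPrime]; exact hay)⟩

end Fermat.Agent.DS.Chart.ChartBaseAux

namespace Fermat.Agent.DS.Chart

open ChartBaseAux

variable (F₀ : IntermediateField ℚ (LaurentSeries ℚ)) [hjF : Fact (jq ∈ F₀)]
variable (ℓ : ℕ) [Fact ℓ.Prime]

/-- **`ChartBase` for `t = j`.** -/
theorem chartBase_j : ChartBase F₀ ℓ (jG F₀) :=
  chartBase_of_clear_j F₀ ℓ (isIntegrallyClosed_adjFin F₀ ℓ) (wfDvdMonoid_adjFin F₀ ℓ)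
    (prime_ellAdj_fin F₀ ℓ)
    (fun a h => ellAdj_dvd_of_adjRes_eq_zero_fin F₀ ℓ a
      (adjRes_eq_zero_of_exists F₀ ℓ (ChartBaseAux.hSFin F₀ ℓ) a h))

/-- **`ChartBase` for `t = 1/j`.** -/
theorem chartBase_jInv : ChartBase F₀ ℓ (jG F₀)⁻¹ :=
  chartBase_of_clear_jInv F₀ ℓ (isIntegrallyClosed_adjInf F₀ ℓ) (wfDvdMonoid_adjInf F₀ ℓ)
    (prime_ellAdj_inf F₀ ℓ)
    (fun a h => ellAdj_dvd_of_adjRes_eq_zero_inf F₀ ℓ a
      (adjRes_eq_zero_of_exists F₀ ℓ (ChartBaseAux.hSInf F₀ ℓ) a h))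

end Fermat.Agent.DS.Chart
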