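import Mathlib
import Fermat.Agent.Igusa.TensorDomain

/-!
# PROGRAMME III (S48), leaf X1-CHART (helper27): linear disjointness of `𝔽((q))` and `k(x̃)`

`k/𝔽` any field extension, `x ∈ 𝔽((q))` transcendental over `𝔽`, `x̃` its image in `k((q))`.

* `indepC_coeffMap` : an `𝔽`-independent family of `𝔽((q))` stays `k`-independent in `k((q))`
  (`𝔽((q)) ⊗_𝔽 k ↪ k((q))`, `Igusa.tensorToLaurent_injective`); independence is phrased with
  multiplication by constants `HahnSeries.C a` (no module structure: `IndepC`);
* `linearIndependent_coeffMap` : a family of `𝔽((q))` independent over `𝔽(x)` stays independent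
  over `k(x̃)` in `k((q))`.

This replaces, generically, the transfer of the tower bound (`Val/ModularMonomials`) used for
`X₀(N)`: the reductions of the basis of the chart stay independent after ANY extension of the
constant field.
-/

set_option autoImplicit false
set_option synthInstance.maxHeartbeats 400000

noncomputable section

namespace Fermat.Agent.DS.Chart

open ModularCurve IntermediateField Polynomial TensorProduct

variable {𝔽 k : Type*} [Field 𝔽] [Field k] [Algebra 𝔽 k]

/-- linear independence over the constants, phrased with multiplication -/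
def IndepC {R κ : Type*} [Field R] (u : κ → LaurentSeries R) : Prop :=
  ∀ (T : Finset κ) (a : κ → R), ∑ p ∈ T, (HahnSeries.C (a p) : LaurentSeries R) * u p = 0 →
    ∀ p ∈ T, a p = 0

theorem indepC_iff_copy {R κ : Type*} [Field R] (u : κ → LaurentSeries R) :
    IndepC u ↔ LinearIndependent R (fun p => Igusa.LaurentCopy.of R (u p)) := by
  rw [linearIndependent_iff']
  refine forall_congr' fun T => forall_congr' fun a => ?_
  have h : ∑ p ∈ T, a p • Igusa.LaurentCopy.of R (u p) =
      Igusa.LaurentCopy.of R (∑ p ∈ T, (HahnSeries.C (a p) : LaurentSeries R) * u p) := by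
    rw [map_sum]
    refine Finset.sum_congr rfl fun p _ => ?_
    rw [Algebra.smul_def, map_mul]
    rfl
  rw [h, EmbeddingLike.map_eq_zero_iff]

/-- abstract form: `B` an `𝔽`-algebra embedded in `𝔽((q))` compatibly with constants -/
theorem linearIndependent_copy_of_linearIndependent {B κ : Type*} [CommRing B] [Algebra 𝔽 B]
    (ρ : B →+* LaurentSeries 𝔽)
    (hρ : ∀ r : 𝔽, ρ (algebraMap 𝔽 B r) = HahnSeries.C (algebraMap 𝔽 𝔽 r))
    (hρinj : Function.Injective ρ) (u : κ → B) (hu : LinearIndependent 𝔽 u) :
    LinearIndependent k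
      (fun p => Igusa.LaurentCopy.of k (coeffMap (algebraMap 𝔽 k) (ρ (u p)))) := by
  classical
  rw [linearIndependent_iff']
  intro s a hsum i hi
  have hinj := Igusa.tensorToLaurent_injective (R := 𝔽) (B := B) (k := 𝔽) (K := k)
    Function.surjective_id ρ hρ
    (fun x hx => by
      rw [show x = 0 from hρinj (by rw [hx, map_zero])]; exact zero_mem _)
  have hz : ∑ j ∈ s, u j ⊗ₜ[𝔽] a j = 0 := by
    refine hinj ?_
    rw [map_sum, map_zero]
    simp only [Igusa.tensorToLaurent_tmul]
    rw [← hsum]
    refine Finset.sum_congr rfl fun j _ => ?_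
    rw [Algebra.smul_def, mul_comm, map_mul]
    rfl
  have h1 := Module.Flat.linearIndependent_one_tmul (S := k) hu
  rw [linearIndependent_iff'] at h1
  refine h1 s a ?_ i hi
  have h2 := congrArg (TensorProduct.comm 𝔽 B k) hz
  rw [map_sum, map_zero] at h2
  rw [← h2]
  refine Finset.sum_congr rfl fun j _ => ?_
  rw [TensorProduct.comm_tmul, TensorProduct.smul_tmul', smul_eq_mul, mul_one]

/-- An `𝔽`-independent family of `𝔽((q))` stays `k`-independent in `k((q))`. -/
theorem indepC_coeffMap {κ : Type*} (u : κ → LaurentSeries 𝔽) (hu : IndepC u) :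
    IndepC (fun p => coeffMap (algebraMap 𝔽 k) (u p)) := by
  rw [indepC_iff_copy] at hu ⊢
  have h := linearIndependent_copy_of_linearIndependent (k := k)
    (Igusa.LaurentCopy.of 𝔽).symm.toRingHom (fun r => rfl)
    (Igusa.LaurentCopy.of 𝔽).symm.injective _ hu
  exact h

/-! ### Regrouping: independence over polynomials in `x` -/

theorem algebraMap_laurent_eq_C {R : Type*} [Field R] (c : R) :
    algebraMap R (LaurentSeries R) c = HahnSeries.C c := by
  have h1 : algebraMap R (PowerSeries R) c = PowerSeries.C c := by simp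
  rw [HahnSeries.algebraMap_apply', h1, HahnSeries.ofPowerSeries_C]

/-- independence over polynomials in `x`, phrased with multiplication -/
def IndepPoly {R ι : Type*} [Field R] (x : LaurentSeries R) (w : ι → LaurentSeries R) : Prop :=
  ∀ (s : Finset ι) (P : ι → R[X]), ∑ i ∈ s, aeval x (P i) * w i = 0 → ∀ i ∈ s, P i = 0

theorem indepPoly_of_indepC {R ι : Type*} [Field R] (x : LaurentSeries R)
    (w : ι → LaurentSeries R) (h : IndepC (fun p : ℕ × ι => x ^ p.1 * w p.2)) :
    IndepPoly x w := by
  classical
  intro s P hsum i hi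
  set N := (s.sup fun i => (P i).natDegree) + 1 with hN
  have hdeg : ∀ i ∈ s, (P i).natDegree < N := fun i hi => by
    have : (P i).natDegree ≤ s.sup fun i => (P i).natDegree :=
      Finset.le_sup (f := fun i => (P i).natDegree) hi
    omega
  have h0 : ∑ p ∈ Finset.range N ×ˢ s,
      (HahnSeries.C ((P p.2).coeff p.1) : LaurentSeries R) * (x ^ p.1 * w p.2) = 0 := by
    rw [Finset.sum_product_right, ← hsum]
    refine Finset.sum_congr rfl fun i hi => ?_
    rw [aeval_eq_sum_range' (hdeg i hi), Finset.sum_mul]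
    refine Finset.sum_congr rfl fun n _ => ?_
    rw [Algebra.smul_def, algebraMap_laurent_eq_C, mul_assoc]
  have h1 := h _ _ h0
  ext n
  rw [coeff_zero]
  by_cases hn : n < N
  · exact h1 (n, i) (Finset.mem_product.mpr ⟨Finset.mem_range.mpr hn, hi⟩)
  · exact coeff_eq_zero_of_natDegree_lt (lt_of_lt_of_le (hdeg i hi) (not_lt.mp hn))

theorem indepC_of_indepPoly {R ι : Type*} [Field R] (x : LaurentSeries R)
    (w : ι → LaurentSeries R) (h : IndepPoly x w) :
    IndepC (fun p : ℕ × ι => x ^ p.1 * w p.2) := by
  classical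
  intro T a hsum p₀ hp₀
  set P : ι → R[X] := fun i => ∑ p ∈ T with p.2 = i, monomial p.1 (a p) with hP
  have h0 : ∑ i ∈ T.image Prod.snd, aeval x (P i) * w i = 0 := by
    rw [← hsum, ← Finset.sum_fiberwise_of_maps_to (s := T) (t := T.image Prod.snd) (g := Prod.snd)
      (fun p hp => Finset.mem_image_of_mem _ hp)]
    refine Finset.sum_congr rfl fun i _ => ?_
    rw [hP, map_sum, Finset.sum_mul]
    refine Finset.sum_congr rfl fun p hp => ?_
    have hpi : p.2 = i := (Finset.mem_filter.mp hp).2
    show aeval x (monomial p.1 (a p)) * w i =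
      (HahnSeries.C (a p) : LaurentSeries R) * (x ^ p.1 * w p.2)
    rw [hpi, aeval_monomial, algebraMap_laurent_eq_C, mul_assoc]
  have h1 := h _ _ h0 p₀.2 (Finset.mem_image_of_mem _ hp₀)
  have h2 := congrArg (fun Q : R[X] => Q.coeff p₀.1) h1
  simp only [hP, finsetSum_coeff, coeff_monomial, coeff_zero] at h2
  rw [Finset.sum_eq_single p₀] at h2
  · simpa using h2
  · intro p hp hne
    rw [if_neg]
    intro h3
    exact hne (Prod.ext h3 (Finset.mem_filter.mp hp).2)
  · intro h3
    exact absurd (Finset.mem_filter.mpr ⟨hp₀, rfl⟩ : p₀ ∈ T.filter (fun p => p.2 = p₀.2)) h3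

/-! ### The main statement -/

open scoped IntermediateField.algebraAdjoinAdjoin in
/-- **Linear disjointness.** A family of `𝔽((q))` independent over `𝔽(x)` (`x` transcendental)
stays independent over `k(x̃)` in `k((q))`, for every field extension `k/𝔽`. -/
theorem linearIndependent_coeffMap {ι : Type*} (x : LaurentSeries 𝔽) (hx : Transcendental 𝔽 x)
    (v : ι → LaurentSeries 𝔽) (hv : LinearIndependent ↥𝔽⟮x⟯ v) :
    LinearIndependent ↥k⟮coeffMap (algebraMap 𝔽 k) x⟯
      (fun i => coeffMap (algebraMap 𝔽 k) (v i)) := by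
  classical
  -- 1. independence over polynomials in `x`
  have h1 : IndepPoly x v := by
    intro s P hsum i hi
    have hmem : ∀ i, aeval x (P i) ∈ 𝔽⟮x⟯ := fun i =>
      algebra_adjoin_le_adjoin 𝔽 _ (aeval_mem_adjoin_singleton 𝔽 x)
    have h := (linearIndependent_iff'.mp hv) s (fun i => ⟨aeval x (P i), hmem i⟩) hsum i hi
    have h' : aeval x (P i) = 0 := congrArg Subtype.val h
    exact (transcendental_iff.mp hx) _ h'
  -- 2.–4.
  have h2 := indepC_of_indepPoly x v h1
  have h3 := indepC_coeffMap (k := k) _ h2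
  have h4 : IndepPoly (coeffMap (algebraMap 𝔽 k) x) (fun i => coeffMap (algebraMap 𝔽 k) (v i)) := by
    refine indepPoly_of_indepC _ _ ?_
    have : (fun p : ℕ × ι => coeffMap (algebraMap 𝔽 k) x ^ p.1 * coeffMap (algebraMap 𝔽 k) (v p.2))
        = fun p : ℕ × ι => coeffMap (algebraMap 𝔽 k) (x ^ p.1 * v p.2) := by
      funext p
      rw [map_mul, map_pow]
    rw [this]
    exact h3
  -- 5. independence over `k[x̃]`
  have h5 : LinearIndependent ↥(Algebra.adjoin k {coeffMap (algebraMap 𝔽 k) x})
      (fun i => coeffMap (algebraMap 𝔽 k) (v i)) := by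
    rw [linearIndependent_iff']
    intro s g hsum i hi
    have hex : ∀ i, ∃ P : k[X], aeval (coeffMap (algebraMap 𝔽 k) x) P = (g i : LaurentSeries k) := by
      intro i
      have h : (g i : LaurentSeries k) ∈ (aeval (R := k) (coeffMap (algebraMap 𝔽 k) x)).range := by
        rw [← Algebra.adjoin_singleton_eq_range_aeval]
        exact (g i).2
      exact h
    choose P hP using hex
    have h := h4 s P (by
      rw [← hsum]
      refine Finset.sum_congr rfl fun i _ => ?_
      rw [hP]
      rfl) i hi
    apply Subtype.ext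
    rw [← hP, h, map_zero]
    rfl
  -- 6. localisation
  exact h5.localization (S := nonZeroDivisors ↥(Algebra.adjoin k {coeffMap (algebraMap 𝔽 k) x}))
    (Rₛ := ↥k⟮coeffMap (algebraMap 𝔽 k) x⟯)

/-- variant with a name for `x̃` -/
theorem linearIndependent_coeffMap' {ι : Type*} (x : LaurentSeries 𝔽) (hx : Transcendental 𝔽 x)
    (v : ι → LaurentSeries 𝔽) (hv : LinearIndependent ↥𝔽⟮x⟯ v) {y : LaurentSeries k}
    (hy : coeffMap (algebraMap 𝔽 k) x = y) :
    LinearIndependent ↥k⟮y⟯ (fun i => coeffMap (algebraMap 𝔽 k) (v i)) := by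
  subst hy
  exact linearIndependent_coeffMap x hx v hv

end Fermat.Agent.DS.Chart
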