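import Mathlib
import Fermat.Agent.DS.Chart.Assemble
import Fermat.Agent.DS.Chart.Base

/-!
# PROGRAMME III (S48), leaf X1-CHART (helper27): THE INPUT INTERFACE of the chart layer

`F₀ ⊂ ℚ((q))` a field of modular functions containing `j`, `ℓ` a prime, `d : ℕ`.

`ChartInputs F₀ ℓ d` :
* `zl`   : every element of `F₀` is a quotient of two series in `ℤ_(ℓ)((q))`
           (`isZlField_adjoin`: free for a field generated by such series);
* `deg`  : `F₀` is finite over `ℚ(j)` of degree `≤ d` (characteristic `0`, UPPER bound only);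
* `fam`, `indep` : `d` elements of `F₀`, integral over `ℤ_(ℓ)[j]`, whose reductions mod `ℓ` are
           linearly independent over `𝔽_ℓ(j̄)` (`Igusa.resField ℓ`).

For `X₀(N)`, `ℓ ∤ N`: `d = ψ(N)` and the monomials of `Igusa/TowerBoundProof`.  For `X₁(M)`,
`ℓ ∤ M`: `d = [SL₂(ℤ) : ±Γ₁(M)]` (port leaf X1-IG).
-/

set_option autoImplicit false
set_option linter.unusedSectionVars false

noncomputable section

namespace Fermat.Agent.DS.Chart

open ModularCurve Fermat.Agent.Igusa IntermediateField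

variable (F₀ : IntermediateField ℚ (LaurentSeries ℚ)) [hjF : Fact (jq ∈ F₀)]
variable (ℓ : ℕ) [Fact ℓ.Prime]

/-- **THE INPUTS of the chart layer.** -/
structure ChartInputs (d : ℕ) where
  /-- elements of `F₀` are `ℤ_(ℓ)`-fractions -/
  zl : IsZlField F₀ ℓ
  /-- `[F₀ : ℚ(j)] ≤ d` -/
  deg : DegInputs F₀ d
  /-- `d` elements of the finite chart algebra -/
  fam : Fin d → ↥(chartAlgFin F₀ ℓ)
  /-- their reductions are independent over `𝔽_ℓ(j̄)` -/
  indep : ∀ g : Fin d → LaurentSeries (ZMod ℓ), (∀ i, g i ∈ resField ℓ) →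
      ∑ i, g i * chartRes F₀ ℓ zl (hSFin F₀ ℓ) (fam i) = 0 → ∀ i, g i = 0

end Fermat.Agent.DS.Chart
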