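/-
PROGRAMME III (S48), leaf X1-CHART (helper27): extraction layer (generic twin of Good/IgusaExtract).

`F₀ ⊂ ℚ((q))` a field of modular functions containing `j`, `I : ChartInputs F₀ ℓ d`.  Exports:

* `redDataFin`, `redDataInf`, `redDataMid` : the `q`-expansion principle (`ReductionData`) on the
  three charts; `isDomain_tensor_fin/inf` : geometric integrality of the special fibre;
* `famFin`, `famInf` : `d` elements of the chart whose reductions are independent over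
  `𝔽_ℓ(j̄)`; `chart_key` (localised spanning: denominators prime to `ℓ`), `chartRes_mem_span`;
* `chart_finrank`, `finrank_eq` : `[F₀ : ℚ(j)] = d`;
* `finite_chartAlgFin/Inf`, `polyAlgebraFin`, `finite_poly_chartAlgFin`,
  `isFractionRing_chartAlgFin`, `isIntegrallyClosed_chartAlgFin` (from `DegInputs F₀ d` alone).
-/
import Mathlib
import Fermat.Agent.DS.Chart.Inputs
/- GENERIC-IN-THE-FIELD PORT (PROGRAMME III, leaf X1-CHART, helper27) of Good/IgusaExtract.lean: `F₀ ⊂ ℚ((q))` any field of modular functions containing `j` replaces `F_N = modularFunctionFieldFull N`. -/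


set_option autoImplicit false
set_option linter.style.haveILetI false
set_option synthInstance.maxHeartbeats 400000
set_option linter.unusedSectionVars false
open ModularCurve Fermat.Agent.Igusa IntermediateField
open Fermat.Agent.Igusa

noncomputable section
namespace Fermat.Agent.DS.Chart.S28X

section Abstract

variable {A B E ι : Type*} [CommRing A] [IsDomain A] [WfDvdMonoid A] [CommRing B] [IsDomain B]
  [Algebra A B] [CommRing E] [Fintype ι]

/-- **Localised spanning.** If every element of `B` is an `A`-combination of the `b i` up to a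
nonzero denominator, `φ` kills `ℓ`, and `A`-combinations of the `b i` killed by `φ` have all
coefficients divisible by the prime `ℓ`, then the denominator can be chosen prime to `ℓ`. -/
theorem exists_not_dvd_smul_eq_sum {ℓ : A} (hℓ : Prime ℓ)
    (hinj : Function.Injective (algebraMap A B))
    (φ : B →+* E) (hφℓ : φ (algebraMap A B ℓ) = 0) (b : ι → B)
    (hspan : ∀ x : B, ∃ (d : A) (a : ι → A), d ≠ 0 ∧
      algebraMap A B d * x = ∑ i, algebraMap A B (a i) * b i)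
    (hind : ∀ a : ι → A, φ (∑ i, algebraMap A B (a i) * b i) = 0 → ∀ i, ℓ ∣ a i)
    (x : B) : ∃ (s : A) (a : ι → A), ¬ ℓ ∣ s ∧
      algebraMap A B s * x = ∑ i, algebraMap A B (a i) * b i := by
  obtain ⟨d, a, hd, hda⟩ := hspan x
  obtain ⟨m, s, hs, rfl⟩ := WfDvdMonoid.max_power_factor hd hℓ.irreducible
  have hℓB : algebraMap A B ℓ ≠ 0 := by
    rw [Ne, map_eq_zero_iff _ hinj]; exact hℓ.ne_zero
  have key : ∀ m : ℕ, ∀ a : ι → A,
      algebraMap A B (ℓ ^ m * s) * x = ∑ i, algebraMap A B (a i) * b i →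
      ∃ a' : ι → A, algebraMap A B s * x = ∑ i, algebraMap A B (a' i) * b i := by
    intro m
    induction m with
    | zero => intro a ha; exact ⟨a, by simpa using ha⟩
    | succ m ih =>
      intro a ha
      have h0 : φ (∑ i, algebraMap A B (a i) * b i) = 0 := by
        rw [← ha, pow_succ', mul_assoc, map_mul (algebraMap A B), mul_assoc, map_mul φ, hφℓ,
          zero_mul]
      have hdiv := hind a h0
      choose a' ha' using hdiv
      refine ih a' ?_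
      apply mul_left_cancel₀ hℓB
      rw [← mul_assoc, ← map_mul, ← mul_assoc, ← pow_succ', ha, Finset.mul_sum]
      refine Finset.sum_congr rfl fun i _ => ?_
      rw [ha' i, map_mul, mul_assoc]
  obtain ⟨a₁, ha₁⟩ := key m a hda
  exact ⟨s, a₁, hs, ha₁⟩

end Abstract

section Abstract2

variable {A Kj L B E ι : Type*} [CommRing A] [IsDomain A] [WfDvdMonoid A]
  [Field Kj] [Field L] [Algebra Kj L] [Algebra A L] [FaithfulSMul A L]
  [CommRing B] [Algebra A B] [Algebra B L] [IsScalarTower A B L] [IsIntegralClosure B A L]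
  [CommRing E] [Fintype ι]

/-- Independence modulo `ℓ` implies linear independence over the second model `Kj` of the
fraction field. -/
theorem linearIndependent_of_ind {ℓ : A} (hℓ : Prime ℓ) (φ : B →+* E) (b : ι → B)
    (hclear : ∀ g : Kj, ∃ a d : A, d ≠ 0 ∧
      algebraMap A L d * algebraMap Kj L g = algebraMap A L a)
    (hind : ∀ a : ι → A, φ (∑ i, algebraMap A B (a i) * b i) = 0 → ∀ i, ℓ ∣ a i) :
    LinearIndependent Kj (fun i => algebraMap B L (b i)) := by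
  classical
  let _ : Algebra (FractionRing A) L := FractionRing.liftAlgebra A L
  have : IsScalarTower A (FractionRing A) L := FractionRing.isScalarTower_liftAlgebra A L
  have hBL : Function.Injective (algebraMap B L) := IsIntegralClosure.algebraMap_injective B A L
  have hAL : Function.Injective (algebraMap A L) := FaithfulSMul.algebraMap_injective A L
  rw [Fintype.linearIndependent_iff]
  intro g hg i
  obtain ⟨d, a, hd, ha⟩ := exists_clear_family (A := A) (L := L) hclear g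
  have h0 : ∑ i, algebraMap A B (a i) * b i = 0 := by
    apply hBL
    rw [map_sum, map_zero]
    have h3 : ∀ i, algebraMap B L (algebraMap A B (a i) * b i) =
        algebraMap A L d * (g i • algebraMap B L (b i)) := by
      intro i
      rw [map_mul, ← IsScalarTower.algebraMap_apply A B L, ← ha i, Algebra.smul_def, mul_assoc]
    rw [Finset.sum_congr rfl fun i _ => h3 i, ← Finset.mul_sum, hg, mul_zero]
  have hai := eq_zero_of_sum_eq_zero_of_ind (L := L) (FractionRing A) hℓ φ b hind a h0 i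
  have h4 := ha i
  rw [hai, map_zero] at h4
  rcases mul_eq_zero.mp h4 with h | h
  · exact absurd (hAL (by rw [h, map_zero])) hd
  · exact (map_eq_zero _).mp h

/-- With the degree bound `[L : Kj] ≤ #ι`, the family is a basis: spanning up to denominators. -/
theorem exists_span_of_ind [FiniteDimensional Kj L]
    (hfin : Module.finrank Kj L ≤ Fintype.card ι)
    {ℓ : A} (hℓ : Prime ℓ) (φ : B →+* E) (b : ι → B)
    (hclear : ∀ g : Kj, ∃ a d : A, d ≠ 0 ∧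
      algebraMap A L d * algebraMap Kj L g = algebraMap A L a)
    (hind : ∀ a : ι → A, φ (∑ i, algebraMap A B (a i) * b i) = 0 → ∀ i, ℓ ∣ a i) :
    Module.finrank Kj L = Fintype.card ι ∧
    ∀ x : B, ∃ (d : A) (a : ι → A), d ≠ 0 ∧
      algebraMap A B d * x = ∑ i, algebraMap A B (a i) * b i := by
  classical
  have hBL : Function.Injective (algebraMap B L) := IsIntegralClosure.algebraMap_injective B A L
  have hli := linearIndependent_of_ind (Kj := Kj) (L := L) hℓ φ b hclear hind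
  have hcard : Fintype.card ι = Module.finrank Kj L :=
    le_antisymm hli.fintype_card_le_finrank hfin
  refine ⟨hcard.symm, ?_⟩
  have hne : Nonempty ι := by
    by_contra h
    rw [not_nonempty_iff] at h
    have h1 : Fintype.card ι = 0 := Fintype.card_eq_zero
    have h2 := Module.finrank_pos (R := Kj) (M := L)
    omega
  let bas : Module.Basis ι Kj L := basisOfLinearIndependentOfCardEqFinrank hli hcard
  have hbas : ∀ i, bas i = algebraMap B L (b i) := fun i => by simp [bas]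
  intro x
  obtain ⟨d, a, hd, ha⟩ := exists_clear_family (A := A) (L := L) hclear
    (fun i => bas.repr (algebraMap B L x) i)
  refine ⟨d, a, hd, hBL ?_⟩
  rw [map_mul, ← IsScalarTower.algebraMap_apply A B L, map_sum]
  conv_lhs => rw [← bas.sum_repr (algebraMap B L x), Finset.mul_sum]
  refine Finset.sum_congr rfl fun i _ => ?_
  rw [map_mul, ← IsScalarTower.algebraMap_apply A B L, ← ha i, hbas, Algebra.smul_def, mul_assoc]

end Abstract2

variable (F₀ : IntermediateField ℚ (LaurentSeries ℚ)) [hjF : Fact (jq ∈ F₀)]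
variable (ℓ : ℕ) [Fact ℓ.Prime]

set_option quotPrecheck false in
local notation "ℤℓ" => ↥(GaloisRep.ratLocalizedAt ℓ)

set_option quotPrecheck false in
local notation "F" => ↥F₀

variable {d : ℕ}

attribute [local instance] chartBaseAlgebra
attribute [local instance 2000] chartBaseSMul

/-- shortcut instance -/
@[instance_reducible]
def chartBaseModule (S : Set F) : Module ↥(Algebra.adjoin ℤℓ S) ↥(chartAlg F₀ ℓ S) :=
  (chartBaseAlgebra F₀ ℓ S).toModule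

attribute [local instance 2000] chartBaseModule

section Chart

variable (hfr : IsZlField F₀ ℓ) (hdeg : DegInputs F₀ d)


/-- the independence hypothesis of the kernel principle -/
theorem chart_hind (t : F)
    (hS : ∀ s ∈ ({t} : Set F), ((s : F) : LaurentSeries ℚ) ∈ gaussSubring ℓ)
    (hbase : ChartBase F₀ ℓ t)
    (htres : chartRes F₀ ℓ hfr hS ⟨t, subset_chartAlg F₀ ℓ _ rfl⟩ ∈ resField ℓ)
    (b : Fin (d) → ↥(chartAlg F₀ ℓ {t}))
    (hb : ∀ g : Fin (d) → LaurentSeries (ZMod ℓ), (∀ i, g i ∈ resField ℓ) →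
      ∑ i, g i * chartRes F₀ ℓ hfr hS (b i) = 0 → ∀ i, g i = 0)
    (a : Fin (d) → ↥(Algebra.adjoin ℤℓ ({t} : Set F)))
    (h : chartRes F₀ ℓ hfr hS (∑ i, algebraMap ↥(Algebra.adjoin ℤℓ ({t} : Set F)) ↥(chartAlg F₀ ℓ {t})
        (a i) * b i) = 0) (i : Fin (d)) :
    algebraMap ℤℓ ↥(Algebra.adjoin ℤℓ ({t} : Set F)) (zlPrime ℓ) ∣ a i := by
  have h1 : ∑ i, chartRes F₀ ℓ hfr hS (algebraMap ↥(Algebra.adjoin ℤℓ ({t} : Set F))
      ↥(chartAlg F₀ ℓ {t}) (a i)) * chartRes F₀ ℓ hfr hS (b i) = 0 := by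
    rw [← h, map_sum]
    exact Finset.sum_congr rfl fun i _ => (RingHom.map_mul _ _ _).symm
  have h2 := hb _ (fun i => chartRes_base_mem_resField F₀ ℓ hfr t hS htres (a i)) h1 i
  rw [chartRes_eq_zero_iff] at h2
  exact hbase.gauss (a i) h2

theorem chart_hclear (t : F) (hbase : ChartBase F₀ ℓ t) (g : ↥ℚ⟮jG F₀⟯) :
    ∃ a d : ↥(Algebra.adjoin ℤℓ ({t} : Set F)), d ≠ 0 ∧
      algebraMap ↥(Algebra.adjoin ℤℓ ({t} : Set F)) F d * algebraMap ↥ℚ⟮jG F₀⟯ F g =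
        algebraMap ↥(Algebra.adjoin ℤℓ ({t} : Set F)) F a := hbase.clear g g.2

include hdeg in
/-- `[F_N : ℚ(j)] = ψ(F₀)` -/
theorem chart_finrank (t : F)
    (hS : ∀ s ∈ ({t} : Set F), ((s : F) : LaurentSeries ℚ) ∈ gaussSubring ℓ)
    (hbase : ChartBase F₀ ℓ t)
    (htres : chartRes F₀ ℓ hfr hS ⟨t, subset_chartAlg F₀ ℓ _ rfl⟩ ∈ resField ℓ)
    (b : Fin (d) → ↥(chartAlg F₀ ℓ {t}))
    (hb : ∀ g : Fin (d) → LaurentSeries (ZMod ℓ), (∀ i, g i ∈ resField ℓ) →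
      ∑ i, g i * chartRes F₀ ℓ hfr hS (b i) = 0 → ∀ i, g i = 0) : Module.finrank ↥ℚ⟮jG F₀⟯ F = d := by
  have := hbase.isIntegrallyClosed
  have := hbase.wfDvdMonoid
  have := hdeg.finite
  have hfin : Module.finrank ↥ℚ⟮jG F₀⟯ F ≤ Fintype.card (Fin (d)) := by
    rw [Fintype.card_fin]
    exact hdeg.finrank_le
  have h := (exists_span_of_ind (A := ↥(Algebra.adjoin ℤℓ ({t} : Set F)))
    (Kj := ↥ℚ⟮jG F₀⟯) (L := F) (B := ↥(chartAlg F₀ ℓ {t})) hfin hbase.prime (chartRes F₀ ℓ hfr hS) b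
    (chart_hclear F₀ ℓ t hbase) (chart_hind F₀ ℓ hfr t hS hbase htres b hb)).1
  rw [h, Fintype.card_fin]

/-- the lifted family is linearly independent over `ℚ(j)` -/
theorem chart_linearIndependent (t : F)
    (hS : ∀ s ∈ ({t} : Set F), ((s : F) : LaurentSeries ℚ) ∈ gaussSubring ℓ)
    (hbase : ChartBase F₀ ℓ t)
    (htres : chartRes F₀ ℓ hfr hS ⟨t, subset_chartAlg F₀ ℓ _ rfl⟩ ∈ resField ℓ)
    (b : Fin (d) → ↥(chartAlg F₀ ℓ {t}))
    (hb : ∀ g : Fin (d) → LaurentSeries (ZMod ℓ), (∀ i, g i ∈ resField ℓ) →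
      ∑ i, g i * chartRes F₀ ℓ hfr hS (b i) = 0 → ∀ i, g i = 0) :
    LinearIndependent ↥ℚ⟮jG F₀⟯ (fun i => ((b i : ↥(chartAlg F₀ ℓ {t})) : F)) := by
  have := hbase.isIntegrallyClosed
  have := hbase.wfDvdMonoid
  exact linearIndependent_of_ind (A := ↥(Algebra.adjoin ℤℓ ({t} : Set F)))
    (Kj := ↥ℚ⟮jG F₀⟯) (L := F) (B := ↥(chartAlg F₀ ℓ {t})) hbase.prime (chartRes F₀ ℓ hfr hS) b
    (chart_hclear F₀ ℓ t hbase) (chart_hind F₀ ℓ hfr t hS hbase htres b hb)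

include hdeg in
/-- **Localised spanning on a chart**: every element of the chart algebra is a combination of the
`b i` with coefficients in `ℤ_(ℓ)[t]` up to a denominator prime to `ℓ`. -/
theorem chart_key (t : F)
    (hS : ∀ s ∈ ({t} : Set F), ((s : F) : LaurentSeries ℚ) ∈ gaussSubring ℓ)
    (hbase : ChartBase F₀ ℓ t)
    (htres : chartRes F₀ ℓ hfr hS ⟨t, subset_chartAlg F₀ ℓ _ rfl⟩ ∈ resField ℓ)
    (b : Fin (d) → ↥(chartAlg F₀ ℓ {t}))
    (hb : ∀ g : Fin (d) → LaurentSeries (ZMod ℓ), (∀ i, g i ∈ resField ℓ) →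
      ∑ i, g i * chartRes F₀ ℓ hfr hS (b i) = 0 → ∀ i, g i = 0)
    (x : ↥(chartAlg F₀ ℓ {t})) :
    ∃ (s : ↥(Algebra.adjoin ℤℓ ({t} : Set F)))
      (a : Fin (d) → ↥(Algebra.adjoin ℤℓ ({t} : Set F))),
      ¬ algebraMap ℤℓ ↥(Algebra.adjoin ℤℓ ({t} : Set F)) (zlPrime ℓ) ∣ s ∧
      algebraMap ↥(Algebra.adjoin ℤℓ ({t} : Set F)) ↥(chartAlg F₀ ℓ {t}) s * x =
        ∑ i, algebraMap ↥(Algebra.adjoin ℤℓ ({t} : Set F)) ↥(chartAlg F₀ ℓ {t}) (a i) * b i := by
  have := hbase.isIntegrallyClosed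
  have := hbase.wfDvdMonoid
  have := hdeg.finite
  have hfin : Module.finrank ↥ℚ⟮jG F₀⟯ F ≤ Fintype.card (Fin (d)) := by
    rw [Fintype.card_fin]
    exact hdeg.finrank_le
  have hspan := (exists_span_of_ind (A := ↥(Algebra.adjoin ℤℓ ({t} : Set F)))
    (Kj := ↥ℚ⟮jG F₀⟯) (L := F) (B := ↥(chartAlg F₀ ℓ {t})) hfin hbase.prime (chartRes F₀ ℓ hfr hS) b
    (chart_hclear F₀ ℓ t hbase) (chart_hind F₀ ℓ hfr t hS hbase htres b hb)).2
  refine exists_not_dvd_smul_eq_sum hbase.prime ?_ (chartRes F₀ ℓ hfr hS) ?_ b hspan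
    (chart_hind F₀ ℓ hfr t hS hbase htres b hb) x
  · intro u v huv
    apply Subtype.ext
    exact congrArg (fun z : ↥(chartAlg F₀ ℓ {t}) => (z : F)) huv
  · have h : algebraMap ↥(Algebra.adjoin ℤℓ ({t} : Set F)) ↥(chartAlg F₀ ℓ {t})
        (algebraMap ℤℓ ↥(Algebra.adjoin ℤℓ ({t} : Set F)) (zlPrime ℓ)) =
        algebraMap ℤℓ ↥(chartAlg F₀ ℓ {t}) (zlPrime ℓ) := rfl
    rw [h, chartRes_algebraMap, zlResidue_zlPrime, map_zero]

/-- elements of the base ring prime to `ℓ` have nonzero reduction -/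
theorem chartRes_base_ne_zero (t : F)
    (hS : ∀ s ∈ ({t} : Set F), ((s : F) : LaurentSeries ℚ) ∈ gaussSubring ℓ)
    (hbase : ChartBase F₀ ℓ t) (s : ↥(Algebra.adjoin ℤℓ ({t} : Set F)))
    (hs : ¬ algebraMap ℤℓ ↥(Algebra.adjoin ℤℓ ({t} : Set F)) (zlPrime ℓ) ∣ s) :
    chartRes F₀ ℓ hfr hS (algebraMap ↥(Algebra.adjoin ℤℓ ({t} : Set F)) ↥(chartAlg F₀ ℓ {t}) s) ≠ 0 := by
  intro h
  rw [chartRes_eq_zero_iff] at h
  exact hs (hbase.gauss s h)

include hdeg in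
/-- **Reductions are spanned by the reductions of the family over `𝔽_ℓ(j̄)`.** -/
theorem chartRes_mem_span (t : F)
    (hS : ∀ s ∈ ({t} : Set F), ((s : F) : LaurentSeries ℚ) ∈ gaussSubring ℓ)
    (hbase : ChartBase F₀ ℓ t)
    (htres : chartRes F₀ ℓ hfr hS ⟨t, subset_chartAlg F₀ ℓ _ rfl⟩ ∈ resField ℓ)
    (b : Fin (d) → ↥(chartAlg F₀ ℓ {t}))
    (hb : ∀ g : Fin (d) → LaurentSeries (ZMod ℓ), (∀ i, g i ∈ resField ℓ) →
      ∑ i, g i * chartRes F₀ ℓ hfr hS (b i) = 0 → ∀ i, g i = 0)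
    (x : ↥(chartAlg F₀ ℓ {t})) :
    ∃ g : Fin (d) → LaurentSeries (ZMod ℓ), (∀ i, g i ∈ resField ℓ) ∧
      chartRes F₀ ℓ hfr hS x = ∑ i, g i * chartRes F₀ ℓ hfr hS (b i) := by
  obtain ⟨s, a, hs, hsa⟩ := chart_key F₀ ℓ hfr hdeg t hS hbase htres b hb x
  have hs0 := chartRes_base_ne_zero F₀ ℓ hfr t hS hbase s hs
  set ρ := chartRes F₀ ℓ hfr hS with hρ
  set alg := algebraMap ↥(Algebra.adjoin ℤℓ ({t} : Set F)) ↥(chartAlg F₀ ℓ {t}) with halg
  refine ⟨fun i => (ρ (alg s))⁻¹ * ρ (alg (a i)), fun i => ?_, ?_⟩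
  · exact (resField ℓ).mul_mem
      ((resField ℓ).inv_mem (chartRes_base_mem_resField F₀ ℓ hfr t hS htres s))
      (chartRes_base_mem_resField F₀ ℓ hfr t hS htres (a i))
  · have h := congrArg ρ hsa
    rw [map_mul, map_sum] at h
    apply mul_left_cancel₀ hs0
    rw [h, Finset.mul_sum]
    refine Finset.sum_congr rfl fun i _ => ?_
    rw [map_mul, ← mul_assoc, ← mul_assoc, mul_inv_cancel₀ hs0, one_mul]

end Chart

/-! ### The unconditional families and reduction data -/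

/-- the given family of `ChartInputs` -/
def famFin (I : ChartInputs F₀ ℓ d) : Fin (d) → ↥(chartAlgFin F₀ ℓ) := I.fam

theorem famFin_indep (I : ChartInputs F₀ ℓ d) (g : Fin (d) → LaurentSeries (ZMod ℓ))
    (hg : ∀ i, g i ∈ resField ℓ)
    (h : ∑ i, g i * chartRes F₀ ℓ I.zl (hSFin F₀ ℓ) (famFin F₀ ℓ I i) = 0) : ∀ i, g i = 0 :=
  I.indep g hg h

/-- **The `q`-expansion principle on the finite chart, unconditionally** (`ℓ ∤ F₀`). -/
def redDataFin (I : ChartInputs F₀ ℓ d) : ReductionData ℓ ↥(chartAlgFin F₀ ℓ) :=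
  reductionDataFin F₀ ℓ I.zl I.deg (chartBase_j F₀ ℓ) (famFin F₀ ℓ I) (famFin_indep F₀ ℓ I)

theorem redDataFin_ρ (I : ChartInputs F₀ ℓ d) : (redDataFin F₀ ℓ I).ρ = chartRes F₀ ℓ I.zl (hSFin F₀ ℓ) := rfl

theorem exists_family_inf' (I : ChartInputs F₀ ℓ d) :
    ∃ b' : Fin (d) → ↥(chartAlgInf F₀ ℓ),
      ∀ g : Fin (d) → LaurentSeries (ZMod ℓ), (∀ i, g i ∈ resField ℓ) →
        ∑ i, g i * chartRes F₀ ℓ I.zl (hSInf F₀ ℓ) (b' i) = 0 → ∀ i, g i = 0 :=
  exists_family_inf F₀ ℓ I.zl (famFin F₀ ℓ I) (famFin_indep F₀ ℓ I)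

/-- a chosen family in the chart at infinity -/
def famInf (I : ChartInputs F₀ ℓ d) : Fin (d) → ↥(chartAlgInf F₀ ℓ) :=
  (exists_family_inf' F₀ ℓ I).choose

theorem famInf_indep (I : ChartInputs F₀ ℓ d) (g : Fin (d) → LaurentSeries (ZMod ℓ))
    (hg : ∀ i, g i ∈ resField ℓ)
    (h : ∑ i, g i * chartRes F₀ ℓ I.zl (hSInf F₀ ℓ) (famInf F₀ ℓ I i) = 0) : ∀ i, g i = 0 :=
  (exists_family_inf' F₀ ℓ I).choose_spec g hg h

/-- **The `q`-expansion principle on the chart at infinity, unconditionally** (`ℓ ∤ F₀`). -/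
def redDataInf (I : ChartInputs F₀ ℓ d) : ReductionData ℓ ↥(chartAlgInf F₀ ℓ) :=
  reductionDataInf F₀ ℓ I.zl I.deg (chartBase_jInv F₀ ℓ) (famInf F₀ ℓ I) (famInf_indep F₀ ℓ I)

theorem redDataInf_ρ (I : ChartInputs F₀ ℓ d) : (redDataInf F₀ ℓ I).ρ = chartRes F₀ ℓ I.zl (hSInf F₀ ℓ) := rfl

/-- the middle chart -/
def redDataMid (I : ChartInputs F₀ ℓ d) : ReductionData ℓ ↥(chartAlgMid F₀ ℓ) :=
  reductionDataMid F₀ ℓ I.zl (redDataFin F₀ ℓ I).ker_le

open TensorProduct in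
/-- Geometric integrality of the special fibre of the finite chart. -/
theorem isDomain_tensor_fin (I : ChartInputs F₀ ℓ d) (K : Type*) [Field K] [CharP K ℓ] [Algebra ℤℓ K] :
    IsDomain (↥(chartAlgFin F₀ ℓ) ⊗[ℤℓ] K) :=
  (redDataFin F₀ ℓ I).isDomain_tensor ℓ K

open TensorProduct in
/-- Geometric integrality of the special fibre of the chart at infinity. -/
theorem isDomain_tensor_inf (I : ChartInputs F₀ ℓ d) (K : Type*) [Field K] [CharP K ℓ] [Algebra ℤℓ K] :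
    IsDomain (↥(chartAlgInf F₀ ℓ) ⊗[ℤℓ] K) :=
  (redDataInf F₀ ℓ I).isDomain_tensor ℓ K

/-! ### The finite chart: concrete forms -/

theorem htresFin (hfr : IsZlField F₀ ℓ) :
    chartRes F₀ ℓ hfr (hSFin F₀ ℓ) ⟨jG F₀, subset_chartAlg F₀ ℓ _ rfl⟩ ∈ resField ℓ := by
  rw [chartRes_jG F₀ ℓ hfr _ _ rfl]
  exact Subfield.subset_closure rfl

theorem htresInf (hfr : IsZlField F₀ ℓ) :
    chartRes F₀ ℓ hfr (hSInf F₀ ℓ) ⟨(jG F₀)⁻¹, subset_chartAlg F₀ ℓ _ rfl⟩ ∈ resField ℓ := by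
  rw [chartRes_jG_inv F₀ ℓ hfr _ _ rfl]
  exact jqModC_inv_mem_resField ℓ

/-- Localised spanning on the finite chart. -/
theorem famFin_key (I : ChartInputs F₀ ℓ d) (x : ↥(chartAlgFin F₀ ℓ)) :
    ∃ (s : ↥(Algebra.adjoin ℤℓ ({jG F₀} : Set F)))
      (a : Fin (d) → ↥(Algebra.adjoin ℤℓ ({jG F₀} : Set F))),
      ¬ algebraMap ℤℓ ↥(Algebra.adjoin ℤℓ ({jG F₀} : Set F)) (zlPrime ℓ) ∣ s ∧
      algebraMap ↥(Algebra.adjoin ℤℓ ({jG F₀} : Set F)) ↥(chartAlgFin F₀ ℓ) s * x =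
        ∑ i, algebraMap ↥(Algebra.adjoin ℤℓ ({jG F₀} : Set F)) ↥(chartAlgFin F₀ ℓ) (a i) *
          famFin F₀ ℓ I i :=
  chart_key F₀ ℓ I.zl I.deg (jG F₀) (hSFin F₀ ℓ) (chartBase_j F₀ ℓ) (htresFin F₀ ℓ I.zl) (famFin F₀ ℓ I)
    (famFin_indep F₀ ℓ I) x

/-- Reductions of elements of the finite chart are `𝔽_ℓ(j̄)`-combinations of the reductions of
the family. -/
theorem famFin_span (I : ChartInputs F₀ ℓ d) (x : ↥(chartAlgFin F₀ ℓ)) :
    ∃ g : Fin (d) → LaurentSeries (ZMod ℓ), (∀ i, g i ∈ resField ℓ) ∧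
      chartRes F₀ ℓ I.zl (hSFin F₀ ℓ) x = ∑ i, g i * chartRes F₀ ℓ I.zl (hSFin F₀ ℓ) (famFin F₀ ℓ I i) :=
  chartRes_mem_span F₀ ℓ I.zl I.deg (jG F₀) (hSFin F₀ ℓ) (chartBase_j F₀ ℓ) (htresFin F₀ ℓ I.zl) (famFin F₀ ℓ I)
    (famFin_indep F₀ ℓ I) x

/-- The family is linearly independent over `ℚ(j)`. -/
theorem famFin_linearIndependent (I : ChartInputs F₀ ℓ d) :
    LinearIndependent ↥ℚ⟮jG F₀⟯ (fun i => ((famFin F₀ ℓ I i : ↥(chartAlgFin F₀ ℓ)) : F)) :=
  chart_linearIndependent F₀ ℓ I.zl (jG F₀) (hSFin F₀ ℓ) (chartBase_j F₀ ℓ) (htresFin F₀ ℓ I.zl)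
    (famFin F₀ ℓ I) (famFin_indep F₀ ℓ I)

/-- **`[F₀ : ℚ(j)] = d`**, from `ChartInputs` at ONE prime `ℓ`. -/
theorem finrank_eq (I : ChartInputs F₀ ℓ d) : Module.finrank ↥ℚ⟮jG F₀⟯ F = d :=
  chart_finrank F₀ ℓ I.zl I.deg (jG F₀) (hSFin F₀ ℓ) (chartBase_j F₀ ℓ) (htresFin F₀ ℓ I.zl)
    (famFin F₀ ℓ I) (famFin_indep F₀ ℓ I)

/-! ### Finiteness and normality of the charts -/

/-- The finite chart algebra is a finite module over `ℤ_(ℓ)[j]`. -/
theorem finite_chartAlgFin (hdeg : DegInputs F₀ d) :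
    Module.Finite ↥(Algebra.adjoin ℤℓ ({jG F₀} : Set F)) ↥(chartAlgFin F₀ ℓ) := by
  let _ := adjoinAlgebraQj F₀ ℓ (singleton_jG_subset_Qj F₀)
  have := adjoinQj_isScalarTower F₀ ℓ (singleton_jG_subset_Qj F₀)
  have := isFractionRing_adjoin_jG F₀ ℓ
  have := hdeg.finite
  have : IsIntegrallyClosed ↥(Algebra.adjoin ℤℓ ({jG F₀} : Set F)) :=
    ChartBaseAux.isIntegrallyClosed_adjFin F₀ ℓ
  have : IsNoetherianRing ↥(Algebra.adjoin ℤℓ ({jG F₀} : Set F)) :=
    ChartBaseAux.isNoetherianRing_adjFin F₀ ℓ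
  exact IsIntegralClosure.finite ↥(Algebra.adjoin ℤℓ ({jG F₀} : Set F)) ↥ℚ⟮jG F₀⟯ F
    ↥(chartAlgFin F₀ ℓ)

/-- The chart algebra at infinity is a finite module over `ℤ_(ℓ)[1/j]`. -/
theorem finite_chartAlgInf (hdeg : DegInputs F₀ d) :
    Module.Finite ↥(Algebra.adjoin ℤℓ ({(jG F₀)⁻¹} : Set F)) ↥(chartAlgInf F₀ ℓ) := by
  let _ := adjoinAlgebraQj F₀ ℓ (singleton_jG_inv_subset_Qj F₀)
  have := adjoinQj_isScalarTower F₀ ℓ (singleton_jG_inv_subset_Qj F₀)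
  have := isFractionRing_adjoin_jG_inv F₀ ℓ
  have := hdeg.finite
  have : IsIntegrallyClosed ↥(Algebra.adjoin ℤℓ ({(jG F₀)⁻¹} : Set F)) :=
    ChartBaseAux.isIntegrallyClosed_adjInf F₀ ℓ
  have : IsNoetherianRing ↥(Algebra.adjoin ℤℓ ({(jG F₀)⁻¹} : Set F)) :=
    ChartBaseAux.isNoetherianRing_adjInf F₀ ℓ
  exact IsIntegralClosure.finite ↥(Algebra.adjoin ℤℓ ({(jG F₀)⁻¹} : Set F)) ↥ℚ⟮jG F₀⟯ F
    ↥(chartAlgInf F₀ ℓ)

/-- `F_N` is the fraction field of the finite chart algebra. -/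
theorem isFractionRing_chartAlgFin (hdeg : DegInputs F₀ d) : IsFractionRing ↥(chartAlgFin F₀ ℓ) F := by
  let _ := adjoinAlgebraQj F₀ ℓ (singleton_jG_subset_Qj F₀)
  have := adjoinQj_isScalarTower F₀ ℓ (singleton_jG_subset_Qj F₀)
  have := isFractionRing_adjoin_jG F₀ ℓ
  have := hdeg.finite
  exact IsIntegralClosure.isFractionRing_of_finite_extension
    ↥(Algebra.adjoin ℤℓ ({jG F₀} : Set F)) ↥ℚ⟮jG F₀⟯ F ↥(chartAlgFin F₀ ℓ)

/-- The finite chart algebra is integrally closed. -/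
theorem isIntegrallyClosed_chartAlgFin (hdeg : DegInputs F₀ d) : IsIntegrallyClosed ↥(chartAlgFin F₀ ℓ) := by
  have := isFractionRing_chartAlgFin F₀ ℓ hdeg
  rw [isIntegrallyClosed_iff F]
  intro x hx
  have : Algebra.IsIntegral ↥(Algebra.adjoin ℤℓ ({jG F₀} : Set F)) ↥(chartAlgFin F₀ ℓ) :=
    IsIntegralClosure.isIntegral_algebra ↥(Algebra.adjoin ℤℓ ({jG F₀} : Set F)) F
  have h1 : IsIntegral ↥(Algebra.adjoin ℤℓ ({jG F₀} : Set F)) x :=
    isIntegral_trans (A := ↥(chartAlgFin F₀ ℓ)) x hx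
  exact ⟨⟨x, (mem_chartAlg_iff F₀ ℓ).mpr h1⟩, rfl⟩

/-- `F_N` is the fraction field of the chart algebra at infinity. -/
theorem isFractionRing_chartAlgInf (hdeg : DegInputs F₀ d) : IsFractionRing ↥(chartAlgInf F₀ ℓ) F := by
  let _ := adjoinAlgebraQj F₀ ℓ (singleton_jG_inv_subset_Qj F₀)
  have := adjoinQj_isScalarTower F₀ ℓ (singleton_jG_inv_subset_Qj F₀)
  have := isFractionRing_adjoin_jG_inv F₀ ℓ
  have := hdeg.finite
  exact IsIntegralClosure.isFractionRing_of_finite_extension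
    ↥(Algebra.adjoin ℤℓ ({(jG F₀)⁻¹} : Set F)) ↥ℚ⟮jG F₀⟯ F ↥(chartAlgInf F₀ ℓ)

/-- The chart algebra at infinity is integrally closed. -/
theorem isIntegrallyClosed_chartAlgInf (hdeg : DegInputs F₀ d) : IsIntegrallyClosed ↥(chartAlgInf F₀ ℓ) := by
  have := isFractionRing_chartAlgInf F₀ ℓ hdeg
  rw [isIntegrallyClosed_iff F]
  intro x hx
  have : Algebra.IsIntegral ↥(Algebra.adjoin ℤℓ ({(jG F₀)⁻¹} : Set F)) ↥(chartAlgInf F₀ ℓ) :=
    IsIntegralClosure.isIntegral_algebra ↥(Algebra.adjoin ℤℓ ({(jG F₀)⁻¹} : Set F)) F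
  have h1 : IsIntegral ↥(Algebra.adjoin ℤℓ ({(jG F₀)⁻¹} : Set F)) x :=
    isIntegral_trans (A := ↥(chartAlgInf F₀ ℓ)) x hx
  exact ⟨⟨x, (mem_chartAlg_iff F₀ ℓ).mpr h1⟩, rfl⟩

/-! ### The finite chart as a `ℤ_(ℓ)[X]`-algebra -/

/-- The structure of `ℤ_(ℓ)[X]`-algebra on the finite chart, `X ↦ j`; use with `letI`. -/
@[reducible]
def polyAlgebraFin : Algebra (Polynomial ℤℓ) ↥(chartAlgFin F₀ ℓ) :=
  (Polynomial.aeval (jChartFin F₀ ℓ)).toRingHom.toAlgebra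

theorem polyAlgebraFin_algebraMap (P : Polynomial ℤℓ) :
    letI := polyAlgebraFin F₀ ℓ
    algebraMap (Polynomial ℤℓ) ↥(chartAlgFin F₀ ℓ) P = Polynomial.aeval (jChartFin F₀ ℓ) P := rfl

theorem polyAlgebraFin_isScalarTower :
    letI := polyAlgebraFin F₀ ℓ
    IsScalarTower ℤℓ (Polynomial ℤℓ) ↥(chartAlgFin F₀ ℓ) := by
  let _ := polyAlgebraFin F₀ ℓ
  refine IsScalarTower.of_algebraMap_eq fun r => ?_
  rw [polyAlgebraFin_algebraMap, Polynomial.algebraMap_apply, Polynomial.aeval_C]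
  rfl

/-- `ℤ_(ℓ)[X] → ℤ_(ℓ)[j]` is surjective. -/
theorem aeval_jAdjFin_surjective :
    Function.Surjective (Polynomial.aeval (R := ℤℓ) (ChartBaseAux.jAdjFin F₀ ℓ)) := by
  rintro ⟨x, hx⟩
  rw [Algebra.adjoin_singleton_eq_range_aeval] at hx
  obtain ⟨P, rfl⟩ := hx
  refine ⟨P, Subtype.ext ?_⟩
  show ((Polynomial.aeval (ChartBaseAux.jAdjFin F₀ ℓ) P :
    ↥(Algebra.adjoin ℤℓ ({jG F₀} : Set F))) : F) = _
  rw [← Subalgebra.coe_val, ← Polynomial.aeval_algHom_apply]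
  rfl

/-- The two base-ring actions on the finite chart agree. -/
theorem aeval_jAdjFin_smul (P : Polynomial ℤℓ) (y : ↥(chartAlgFin F₀ ℓ)) :
    letI := polyAlgebraFin F₀ ℓ
    Polynomial.aeval (R := ℤℓ) (ChartBaseAux.jAdjFin F₀ ℓ) P • y = P • y := by
  let _ := polyAlgebraFin F₀ ℓ
  rw [Algebra.smul_def, Algebra.smul_def]
  congr 1
  apply Subtype.ext
  show ((Polynomial.aeval (R := ℤℓ) (ChartBaseAux.jAdjFin F₀ ℓ) P :
      ↥(Algebra.adjoin ℤℓ ({jG F₀} : Set F))) : F) =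
    ((Polynomial.aeval (jChartFin F₀ ℓ) P : ↥(chartAlgFin F₀ ℓ)) : F)
  rw [← Subalgebra.coe_val, ← Polynomial.aeval_algHom_apply,
    ← Subalgebra.coe_val (chartAlgFin F₀ ℓ), ← Polynomial.aeval_algHom_apply]
  rfl

/-- The finite chart is a finite module over `ℤ_(ℓ)[X]` (`X ↦ j`). -/
theorem finite_poly_chartAlgFin (hdeg : DegInputs F₀ d) :
    letI := polyAlgebraFin F₀ ℓ
    Module.Finite (Polynomial ℤℓ) ↥(chartAlgFin F₀ ℓ) := by
  let _ := polyAlgebraFin F₀ ℓ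
  have hfin := finite_chartAlgFin F₀ ℓ hdeg
  obtain ⟨s, hs⟩ := hfin.fg_top
  refine ⟨⟨s, ?_⟩⟩
  rw [eq_top_iff]
  intro x _
  have hx : x ∈ Submodule.span ↥(Algebra.adjoin ℤℓ ({jG F₀} : Set F))
      (s : Set ↥(chartAlgFin F₀ ℓ)) := by rw [hs]; trivial
  refine Submodule.span_induction (p := fun x _ => x ∈ Submodule.span (Polynomial ℤℓ)
    (s : Set ↥(chartAlgFin F₀ ℓ))) ?_ ?_ ?_ ?_ hx
  · intro y hy
    exact Submodule.subset_span hy
  · exact Submodule.zero_mem _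
  · intro y z _ _ hy hz
    exact Submodule.add_mem _ hy hz
  · intro a y _ hy
    obtain ⟨P, rfl⟩ := aeval_jAdjFin_surjective F₀ ℓ a
    rw [aeval_jAdjFin_smul]
    exact Submodule.smul_mem _ _ hy

end Fermat.Agent.DS.Chart.S28X
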