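/-
PROGRAMME III (S48), leaf X1-CHART (helper27): the special fibre of the finite chart
(generic twin of Good/IgusaSpecial).

`F₀ ⊂ ℚ((q))` a field of modular functions containing `j`, `I : ChartInputs F₀ ℓ d`, `k` a field
over `𝔽_ℓ`.  Extension of coefficients of the reduction map of `q`-expansions,
`rhoK : chartAlgFin F₀ ℓ →+* k((q))`; the special-fibre function field
`FtK = k(rhoK(chart)) ⊂ k((q))`; the images `mK i` of the family `famFin i` span `FtK` over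
`k(j̄)` and are linearly independent over `k(j̄)` — UNCONDITIONALLY, for every `k`
(`BaseChangeIndep`: no tower bound, no modular equation).  Hence `[FtK : k(j̄)] = d` with an
explicit basis, and `FtK / k(j̄)` is separable for perfect `k`.

`FtK_eq_of_gens` identifies `FtK` with any concretely defined field `adjoin k S`.
-/
import Mathlib
import Fermat.Agent.DS.Chart.Extract
import Fermat.Agent.DS.Chart.BaseChangeIndep
import Fermat.Agent.Good.IgusaDisc

set_option autoImplicit false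
set_option linter.unusedSectionVars false
set_option synthInstance.maxHeartbeats 400000
open ModularCurve IntermediateField
open Fermat.Agent.Igusa
open Fermat.Agent.Good.S28X (adjoin_le_span basisInner basisInner_apply Kout coeffMap_mem_Kout
  order_jqModC' Kout_le_resField resField_le_Kout)

noncomputable section
namespace Fermat.Agent.DS.Chart.S28X

variable (F₀ : IntermediateField ℚ (LaurentSeries ℚ)) [hjF : Fact (jq ∈ F₀)]
variable (ℓ : ℕ) [Fact ℓ.Prime] {d : ℕ} (k : Type*) [Field k] [Algebra (ZMod ℓ) k]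

/-- reduction of `q`-expansions on the finite chart followed by extension of coefficients to `k` -/
def rhoK (hfr : IsZlField F₀ ℓ) : ↥(chartAlgFin F₀ ℓ) →+* LaurentSeries k :=
  (coeffMap (algebraMap (ZMod ℓ) k)).comp (chartRes F₀ ℓ hfr (hSFin F₀ ℓ))

theorem rhoK_apply (hfr : IsZlField F₀ ℓ) (x : ↥(chartAlgFin F₀ ℓ)) :
    rhoK F₀ ℓ k hfr x = coeffMap (algebraMap (ZMod ℓ) k) (chartRes F₀ ℓ hfr (hSFin F₀ ℓ) x) := rfl

/-- **The function field of the special fibre**: the subfield of `k((q))` generated over `k` by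
the reductions of the finite chart. -/
def FtK (hfr : IsZlField F₀ ℓ) : IntermediateField k (LaurentSeries k) :=
  IntermediateField.adjoin k (Set.range (rhoK F₀ ℓ k hfr))

theorem rhoK_mem_FtK (hfr : IsZlField F₀ ℓ) (x : ↥(chartAlgFin F₀ ℓ)) :
    rhoK F₀ ℓ k hfr x ∈ FtK F₀ ℓ k hfr :=
  IntermediateField.subset_adjoin _ _ ⟨x, rfl⟩

theorem rhoK_jChartFin (hfr : IsZlField F₀ ℓ) : rhoK F₀ ℓ k hfr (jChartFin F₀ ℓ) = jqModC k := by
  rw [rhoK_apply, chartRes_jG F₀ ℓ hfr _ _ rfl, coeffMap_jqModC]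

theorem jqModC_mem_FtK (hfr : IsZlField F₀ ℓ) : jqModC k ∈ FtK F₀ ℓ k hfr := by
  rw [← rhoK_jChartFin F₀ ℓ k hfr]
  exact rhoK_mem_FtK F₀ ℓ k hfr _

theorem Kout_le_FtK (hfr : IsZlField F₀ ℓ) : Kout k ≤ FtK F₀ ℓ k hfr := by
  rw [IntermediateField.adjoin_le_iff, Set.singleton_subset_iff]
  exact jqModC_mem_FtK F₀ ℓ k hfr

/-- the base-changed family -/
def mK (I : ChartInputs F₀ ℓ d) (i : Fin d) : LaurentSeries k :=
  rhoK F₀ ℓ k I.zl (famFin F₀ ℓ I i)

theorem mK_mem_FtK (I : ChartInputs F₀ ℓ d) (i : Fin d) : mK F₀ ℓ k I i ∈ FtK F₀ ℓ k I.zl :=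
  rhoK_mem_FtK F₀ ℓ k I.zl _

/-- **Outer span of the image of the chart.** -/
theorem rhoK_span (I : ChartInputs F₀ ℓ d) (x : ↥(chartAlgFin F₀ ℓ)) :
    ∃ c : Fin d → LaurentSeries k, (∀ i, c i ∈ Kout k) ∧
      rhoK F₀ ℓ k I.zl x = ∑ i, c i * mK F₀ ℓ k I i := by
  obtain ⟨g, hg, hx⟩ := famFin_span F₀ ℓ I x
  refine ⟨fun i => coeffMap (algebraMap (ZMod ℓ) k) (g i),
    fun i => coeffMap_mem_Kout ℓ k (hg i), ?_⟩
  rw [rhoK_apply, hx, map_sum]
  exact Finset.sum_congr rfl fun i _ => by rw [map_mul]; rfl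

theorem rhoK_mem_spanOut (I : ChartInputs F₀ ℓ d) (x : ↥(chartAlgFin F₀ ℓ)) :
    rhoK F₀ ℓ k I.zl x ∈ Submodule.span ↥(Kout k) (Set.range (mK F₀ ℓ k I)) := by
  obtain ⟨c, hc, hx⟩ := rhoK_span F₀ ℓ k I x
  rw [hx]
  refine Submodule.sum_mem _ fun i _ => ?_
  have : c i * mK F₀ ℓ k I i = (⟨c i, hc i⟩ : ↥(Kout k)) • mK F₀ ℓ k I i := rfl
  rw [this]
  exact Submodule.smul_mem _ _ (Submodule.subset_span (Set.mem_range_self i))

/-- **Outer span**: every element of `FtK` is a `k(j̄)`-combination of the family. -/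
theorem FtK_le_spanOut (I : ChartInputs F₀ ℓ d) {y : LaurentSeries k}
    (hy : y ∈ FtK F₀ ℓ k I.zl) :
    y ∈ Submodule.span ↥(Kout k) (Set.range (mK F₀ ℓ k I)) :=
  adjoin_le_span (Kout k) (Set.range (rhoK F₀ ℓ k I.zl)) (rhoK F₀ ℓ k I.zl) (le_refl _)
    (mK F₀ ℓ k I) (rhoK_mem_spanOut F₀ ℓ k I) hy

/-- the reductions of the family are independent over `𝔽_ℓ(j̄)` (as an intermediate field) -/
theorem chartRes_famFin_linearIndependent (I : ChartInputs F₀ ℓ d) :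
    LinearIndependent ↥(Kout (ZMod ℓ))
      (fun i => chartRes F₀ ℓ I.zl (hSFin F₀ ℓ) (famFin F₀ ℓ I i)) := by
  rw [Fintype.linearIndependent_iff]
  intro c hc i
  have h3 := famFin_indep F₀ ℓ I (fun i => ((c i : ↥(Kout (ZMod ℓ))) : LaurentSeries (ZMod ℓ)))
    (fun i => Kout_le_resField ℓ (c i).2) hc i
  exact Subtype.ext h3

/-- **Outer independence, UNCONDITIONALLY**: the base-changed family `mK i` is linearly
independent over `k(j̄)`, for every field `k` over `𝔽_ℓ`. -/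
theorem mK_linearIndependent (I : ChartInputs F₀ ℓ d) :
    LinearIndependent ↥(Kout k) (mK F₀ ℓ k I) :=
  linearIndependent_coeffMap' (k := k) (jqModC (ZMod ℓ))
    (ChartBaseAux.transcendental_jqModC (ZMod ℓ)) _
    (chartRes_famFin_linearIndependent F₀ ℓ I) (coeffMap_jqModC _)

/-- **Identification of `FtK`** with a concretely defined field: if `S ⊆ k((q))` consists of
reductions of elements of the chart, and `adjoin k S` contains `j̄` and the reductions of the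
family, then `FtK = adjoin k S`. -/
theorem FtK_eq_of_gens (I : ChartInputs F₀ ℓ d) (S : Set (LaurentSeries k))
    (hS : S ⊆ Set.range (rhoK F₀ ℓ k I.zl))
    (hj : jqModC k ∈ IntermediateField.adjoin k S)
    (hm : ∀ i, mK F₀ ℓ k I i ∈ IntermediateField.adjoin k S) :
    FtK F₀ ℓ k I.zl = IntermediateField.adjoin k S := by
  apply le_antisymm
  · intro y hy
    have h := FtK_le_spanOut F₀ ℓ k I hy
    obtain ⟨c, rfl⟩ := (Submodule.mem_span_range_iff_exists_fun _).mp h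
    refine sum_mem fun i _ => ?_
    have hK : Kout k ≤ IntermediateField.adjoin k S := by
      rw [IntermediateField.adjoin_le_iff, Set.singleton_subset_iff]
      exact hj
    exact mul_mem (hK (c i).2) (hm i)
  · exact IntermediateField.adjoin.mono k _ _ hS

/-! ### Inner statements on `FtK` -/

/-- `j̄` as an element of `FtK`. -/
abbrev jT (hfr : IsZlField F₀ ℓ) : ↥(FtK F₀ ℓ k hfr) := ⟨jqModC k, jqModC_mem_FtK F₀ ℓ k hfr⟩

/-- the inner `k(j̄) ⊆ FtK` -/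
abbrev KT (hfr : IsZlField F₀ ℓ) : IntermediateField k ↥(FtK F₀ ℓ k hfr) :=
  IntermediateField.adjoin k ({jT F₀ ℓ k hfr} : Set ↥(FtK F₀ ℓ k hfr))

/-- the reduction map into `FtK` -/
def rhoT (hfr : IsZlField F₀ ℓ) : ↥(chartAlgFin F₀ ℓ) →+* ↥(FtK F₀ ℓ k hfr) :=
  (rhoK F₀ ℓ k hfr).codRestrict (FtK F₀ ℓ k hfr).toSubfield
    (fun x => rhoK_mem_FtK F₀ ℓ k hfr x)

theorem coe_rhoT (hfr : IsZlField F₀ ℓ) (x : ↥(chartAlgFin F₀ ℓ)) :
    ((rhoT F₀ ℓ k hfr x : ↥(FtK F₀ ℓ k hfr)) : LaurentSeries k) = rhoK F₀ ℓ k hfr x := rfl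

theorem rhoT_jChartFin (hfr : IsZlField F₀ ℓ) :
    rhoT F₀ ℓ k hfr (jChartFin F₀ ℓ) = jT F₀ ℓ k hfr :=
  Subtype.ext (rhoK_jChartFin F₀ ℓ k hfr)

/-- **The explicit basis** of `FtK` over `k(j̄)`: the reductions of the family. -/
def basisFtK (I : ChartInputs F₀ ℓ d) :
    Module.Basis (Fin d) ↥(KT F₀ ℓ k I.zl) ↥(FtK F₀ ℓ k I.zl) :=
  basisInner (FtK F₀ ℓ k I.zl) (jqModC k) (jqModC_mem_FtK F₀ ℓ k I.zl) (mK F₀ ℓ k I)
    (mK_mem_FtK F₀ ℓ k I) (mK_linearIndependent F₀ ℓ k I)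
    (fun _ hy => FtK_le_spanOut F₀ ℓ k I hy)

theorem basisFtK_apply (I : ChartInputs F₀ ℓ d) (i : Fin d) :
    basisFtK F₀ ℓ k I i = rhoT F₀ ℓ k I.zl (famFin F₀ ℓ I i) := by
  rw [basisFtK, basisInner_apply]
  rfl

/-- **`[FtK : k(j̄)] = d`.** -/
theorem finrank_FtK (I : ChartInputs F₀ ℓ d) :
    Module.finrank ↥(KT F₀ ℓ k I.zl) ↥(FtK F₀ ℓ k I.zl) = d := by
  rw [Module.finrank_eq_card_basis (basisFtK F₀ ℓ k I), Fintype.card_fin]

theorem finite_FtK (I : ChartInputs F₀ ℓ d) :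
    Module.Finite ↥(KT F₀ ℓ k I.zl) ↥(FtK F₀ ℓ k I.zl) :=
  Module.Finite.of_basis (basisFtK F₀ ℓ k I)

/-- **Separability of `FtK / k(j̄)`** for perfect `k`. -/
theorem isSeparable_FtK (I : ChartInputs F₀ ℓ d) [PerfectField k] [CharP k ℓ] :
    Algebra.IsSeparable ↥(KT F₀ ℓ k I.zl) ↥(FtK F₀ ℓ k I.zl) := by
  have hfin := finite_FtK F₀ ℓ k I
  have : Algebra.IsAlgebraic ↥(KT F₀ ℓ k I.zl) ↥(FtK F₀ ℓ k I.zl) :=
    Algebra.IsAlgebraic.of_finite _ _
  refine Fermat.Agent.Good.SepLaurent.algebra_isSeparable ℓ (FtK F₀ ℓ k I.zl) (jqModC k)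
    (jqModC_mem_FtK F₀ ℓ k I.zl) (jqModC_ne_zero_of_nontrivial k) ?_
  rw [order_jqModC']
  intro h
  have h1 : (ℓ : ℤ) ∣ 1 := by simpa using h
  have h2 : ℓ ∣ 1 := by exact_mod_cast h1
  exact (Fact.out : ℓ.Prime).one_lt.ne' (Nat.dvd_one.mp h2)

end Fermat.Agent.DS.Chart.S28X
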