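/-
PROGRAMME III (S48), leaf X1-CHART (helper27): **(H1)** — the discriminant of the basis of the
chart is prime to `ℓ` (generic twin of Good/IgusaDisc; the abstract sections are imported).

* `chart_discr` (generic chart `t ∈ {j, 1/j}`): for a family `b` in `chartAlg F₀ ℓ {t}` with
  `𝔽_ℓ(j̄)`-independent reductions and any basis `β` of `F₀` over any fraction field `K0` of
  `ℤ_(ℓ)[t]` with `β i = b i`: `disc β = d0 ∈ ℤ_(ℓ)[t]` with `¬ ℓ ∣ d0`.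
* `chart_exists_basis` : such a basis exists.
* `exists_basis_discr_adjFin/adjInf` : (H1) for the two charts.
-/
import Mathlib
import Fermat.Agent.DS.Chart.Special
import Fermat.Agent.Good.IgusaDisc

set_option autoImplicit false
set_option linter.unusedSectionVars false
set_option synthInstance.maxHeartbeats 400000
open ModularCurve IntermediateField Polynomial
open Fermat.Agent.Igusa
open Fermat.Agent.Good (SepLaurent.isSeparable_of_isAlgebraic)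
open Fermat.Agent.Good.S28X (Kout order_jqModC' Kout_le_resField resField_le_Kout exists_discr_reduce
  adjoin_range_le_span finite_of_clear finrank_le_of_clear)

noncomputable section
namespace Fermat.Agent.DS.Chart.S28X

variable (F₀ : IntermediateField ℚ (LaurentSeries ℚ)) [hjF : Fact (jq ∈ F₀)] (ℓ : ℕ) [Fact ℓ.Prime] {d : ℕ}

set_option quotPrecheck false in
local notation "ℤℓ" => ↥(GaloisRep.ratLocalizedAt ℓ)

set_option quotPrecheck false in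
local notation "F" => ↥F₀

set_option quotPrecheck false in
local notation "κℓ" => ↥(Kout (ZMod ℓ))

attribute [local instance] chartBaseAlgebra
attribute [local instance 2000] chartBaseSMul chartBaseModule

section ChartRed

variable (hfr : IsZlField F₀ ℓ) (hdeg : DegInputs F₀ d)

variable (t : ↥F₀)
  (hS : ∀ s ∈ ({t} : Set ↥F₀),
    ((s : ↥F₀) : LaurentSeries ℚ) ∈ gaussSubring ℓ)

/-- the residue field of the chart: the subfield of `𝔽_ℓ((q))` generated over `𝔽_ℓ(j̄)` by the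
reductions of the chart algebra -/
def chartLt : IntermediateField κℓ (LaurentSeries (ZMod ℓ)) :=
  IntermediateField.adjoin κℓ (Set.range (chartRes F₀ ℓ hfr hS))

/-- reduction on the chart, with values in `chartLt` -/
def chartRho : ↥(chartAlg F₀ ℓ {t}) →+* ↥(chartLt F₀ ℓ hfr t hS) :=
  (chartRes F₀ ℓ hfr hS).codRestrict (chartLt F₀ ℓ hfr t hS).toSubfield
    (fun x => IntermediateField.subset_adjoin _ _ ⟨x, rfl⟩)

theorem coe_chartRho (x : ↥(chartAlg F₀ ℓ {t})) :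
    ((chartRho F₀ ℓ hfr t hS x : ↥(chartLt F₀ ℓ hfr t hS)) : LaurentSeries (ZMod ℓ)) =
      chartRes F₀ ℓ hfr hS x := rfl

variable (htres : chartRes F₀ ℓ hfr hS ⟨t, subset_chartAlg F₀ ℓ _ rfl⟩ ∈ resField ℓ)

/-- reduction on the base ring `ℤ_(ℓ)[t]`, with values in `𝔽_ℓ(j̄)` -/
def chartRhoA : ↥(Algebra.adjoin ℤℓ ({t} : Set F)) →+* κℓ :=
  ((chartRes F₀ ℓ hfr hS).comp
    (algebraMap ↥(Algebra.adjoin ℤℓ ({t} : Set F)) ↥(chartAlg F₀ ℓ {t}))).codRestrict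
    (Kout (ZMod ℓ)).toSubfield
    (fun a => resField_le_Kout ℓ (chartRes_base_mem_resField F₀ ℓ hfr t hS htres a))

theorem coe_chartRhoA (a : ↥(Algebra.adjoin ℤℓ ({t} : Set F))) :
    ((chartRhoA F₀ ℓ hfr t hS htres a : κℓ) : LaurentSeries (ZMod ℓ)) =
      chartRes F₀ ℓ hfr hS (algebraMap ↥(Algebra.adjoin ℤℓ ({t} : Set F)) ↥(chartAlg F₀ ℓ {t}) a) := rfl

theorem chartRho_algebraMap (a : ↥(Algebra.adjoin ℤℓ ({t} : Set F))) :
    chartRho F₀ ℓ hfr t hS (algebraMap ↥(Algebra.adjoin ℤℓ ({t} : Set F)) ↥(chartAlg F₀ ℓ {t}) a) =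
      algebraMap κℓ ↥(chartLt F₀ ℓ hfr t hS) (chartRhoA F₀ ℓ hfr t hS htres a) := rfl

variable (b : Fin (d) → ↥(chartAlg F₀ ℓ {t}))
  (hb : ∀ g : Fin (d) → LaurentSeries (ZMod ℓ), (∀ i, g i ∈ resField ℓ) →
      ∑ i, g i * chartRes F₀ ℓ hfr hS (b i) = 0 → ∀ i, g i = 0)

theorem chartRho_linearIndependent
    (b : Fin (d) → ↥(chartAlg F₀ ℓ {t}))
    (hb : ∀ g : Fin (d) → LaurentSeries (ZMod ℓ), (∀ i, g i ∈ resField ℓ) →
      ∑ i, g i * chartRes F₀ ℓ hfr hS (b i) = 0 → ∀ i, g i = 0) :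
    LinearIndependent κℓ (fun i => chartRho F₀ ℓ hfr t hS (b i)) := by
  rw [Fintype.linearIndependent_iff]
  intro c hc i
  have h : ((∑ i, c i • chartRho F₀ ℓ hfr t hS (b i) : ↥(chartLt F₀ ℓ hfr t hS)) :
      LaurentSeries (ZMod ℓ)) = 0 := by rw [hc]; rfl
  have h2 : ∑ i, ((c i : κℓ) : LaurentSeries (ZMod ℓ)) * chartRes F₀ ℓ hfr hS (b i) = 0 := by
    rw [← h, ← (chartLt F₀ ℓ hfr t hS).coe_val, map_sum]
    refine Finset.sum_congr rfl fun i _ => ?_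
    rfl
  have h3 := hb (fun i => ((c i : κℓ) : LaurentSeries (ZMod ℓ)))
    (fun i => Kout_le_resField ℓ (c i).2) h2 i
  exact Subtype.ext h3

include hdeg in
theorem chartRho_span_eq_top (hbase : ChartBase F₀ ℓ t)
    (htres : chartRes F₀ ℓ hfr hS ⟨t, subset_chartAlg F₀ ℓ _ rfl⟩ ∈ resField ℓ)
    (b : Fin (d) → ↥(chartAlg F₀ ℓ {t}))
    (hb : ∀ g : Fin (d) → LaurentSeries (ZMod ℓ), (∀ i, g i ∈ resField ℓ) →
      ∑ i, g i * chartRes F₀ ℓ hfr hS (b i) = 0 → ∀ i, g i = 0) :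
    ⊤ ≤ Submodule.span κℓ (Set.range fun i => chartRho F₀ ℓ hfr t hS (b i)) := by
  rintro ⟨y, hy⟩ -
  have hspan : ∀ x : ↥(chartAlg F₀ ℓ {t}), chartRes F₀ ℓ hfr hS x ∈
      Submodule.span κℓ (Set.range fun i => chartRes F₀ ℓ hfr hS (b i)) := by
    intro x
    obtain ⟨g, hg, hx⟩ := chartRes_mem_span F₀ ℓ hfr hdeg t hS hbase htres b hb x
    rw [hx]
    refine Submodule.sum_mem _ fun i _ => ?_
    have : g i * chartRes F₀ ℓ hfr hS (b i) =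
        (⟨g i, resField_le_Kout ℓ (hg i)⟩ : κℓ) • chartRes F₀ ℓ hfr hS (b i) := rfl
    rw [this]
    exact Submodule.smul_mem _ _ (Submodule.subset_span (Set.mem_range_self i))
  have hy' := adjoin_range_le_span (K := κℓ) (chartRes F₀ ℓ hfr hS)
    (fun i => chartRes F₀ ℓ hfr hS (b i)) hspan hy
  obtain ⟨c, hc⟩ := (Submodule.mem_span_range_iff_exists_fun _).mp hy'
  rw [Submodule.mem_span_range_iff_exists_fun]
  refine ⟨c, Subtype.ext ?_⟩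
  show ((∑ i, c i • chartRho F₀ ℓ hfr t hS (b i) : ↥(chartLt F₀ ℓ hfr t hS)) :
    LaurentSeries (ZMod ℓ)) = y
  rw [← hc, ← (chartLt F₀ ℓ hfr t hS).coe_val, map_sum]
  refine Finset.sum_congr rfl fun i _ => ?_
  rfl

include hdeg in
/-- the reduced basis -/
def chartBasisRed (hbase : ChartBase F₀ ℓ t)
    (htres : chartRes F₀ ℓ hfr hS ⟨t, subset_chartAlg F₀ ℓ _ rfl⟩ ∈ resField ℓ)
    (b : Fin (d) → ↥(chartAlg F₀ ℓ {t}))
    (hb : ∀ g : Fin (d) → LaurentSeries (ZMod ℓ), (∀ i, g i ∈ resField ℓ) →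
      ∑ i, g i * chartRes F₀ ℓ hfr hS (b i) = 0 → ∀ i, g i = 0) :
    Module.Basis (Fin (d)) κℓ ↥(chartLt F₀ ℓ hfr t hS) :=
  Module.Basis.mk (chartRho_linearIndependent F₀ ℓ hfr t hS b hb)
    (chartRho_span_eq_top F₀ ℓ hfr hdeg t hS hbase htres b hb)

include hdeg in
theorem chartBasisRed_apply (hbase : ChartBase F₀ ℓ t)
    (htres : chartRes F₀ ℓ hfr hS ⟨t, subset_chartAlg F₀ ℓ _ rfl⟩ ∈ resField ℓ)
    (b : Fin (d) → ↥(chartAlg F₀ ℓ {t}))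
    (hb : ∀ g : Fin (d) → LaurentSeries (ZMod ℓ), (∀ i, g i ∈ resField ℓ) →
      ∑ i, g i * chartRes F₀ ℓ hfr hS (b i) = 0 → ∀ i, g i = 0) (i : Fin (d)) :
    chartBasisRed F₀ ℓ hfr hdeg t hS hbase htres b hb i = chartRho F₀ ℓ hfr t hS (b i) := by
  rw [chartBasisRed, Module.Basis.mk_apply]

set_option synthInstance.maxHeartbeats 200000 in
include hdeg in
/-- the residue field extension of the chart is separable -/
theorem isSeparable_chartLt (hbase : ChartBase F₀ ℓ t)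
    (htres : chartRes F₀ ℓ hfr hS ⟨t, subset_chartAlg F₀ ℓ _ rfl⟩ ∈ resField ℓ)
    (b : Fin (d) → ↥(chartAlg F₀ ℓ {t}))
    (hb : ∀ g : Fin (d) → LaurentSeries (ZMod ℓ), (∀ i, g i ∈ resField ℓ) →
      ∑ i, g i * chartRes F₀ ℓ hfr hS (b i) = 0 → ∀ i, g i = 0) :
    Algebra.IsSeparable κℓ ↥(chartLt F₀ ℓ hfr t hS) := by
  have hfin : Module.Finite κℓ ↥(chartLt F₀ ℓ hfr t hS) :=
    Module.Finite.of_basis (chartBasisRed F₀ ℓ hfr hdeg t hS hbase htres b hb)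
  refine ⟨fun y => ?_⟩
  have halg : IsAlgebraic κℓ y := (IsIntegral.of_finite κℓ y).isAlgebraic
  have halg' : IsAlgebraic κℓ (y : LaurentSeries (ZMod ℓ)) := by
    have := halg.algHom (chartLt F₀ ℓ hfr t hS).val
    exact this
  have hord : ¬ ((ℓ : ℕ) : ℤ) ∣ (jqModC (ZMod ℓ)).order := by
    rw [order_jqModC']
    intro h
    have h1 : (ℓ : ℤ) ∣ 1 := by simpa using h
    have h2 : ℓ ∣ 1 := by exact_mod_cast h1
    exact (Fact.out : ℓ.Prime).one_lt.ne' (Nat.dvd_one.mp h2)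
  have hsep := SepLaurent.isSeparable_of_isAlgebraic ℓ (jqModC (ZMod ℓ))
    (jqModC_ne_zero_of_nontrivial (ZMod ℓ)) hord (y : LaurentSeries (ZMod ℓ)) halg'
  rw [IsSeparable] at hsep ⊢
  rwa [IntermediateField.minpoly_eq] 

theorem chartRhoA_zlPrime
    (htres : chartRes F₀ ℓ hfr hS ⟨t, subset_chartAlg F₀ ℓ _ rfl⟩ ∈ resField ℓ) :
    chartRhoA F₀ ℓ hfr t hS htres
      (algebraMap ℤℓ ↥(Algebra.adjoin ℤℓ ({t} : Set F)) (zlPrime ℓ)) = 0 := by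
  apply Subtype.ext
  rw [coe_chartRhoA]
  have h : algebraMap ↥(Algebra.adjoin ℤℓ ({t} : Set F)) ↥(chartAlg F₀ ℓ {t})
      (algebraMap ℤℓ ↥(Algebra.adjoin ℤℓ ({t} : Set F)) (zlPrime ℓ)) =
      algebraMap ℤℓ ↥(chartAlg F₀ ℓ {t}) (zlPrime ℓ) := rfl
  rw [h, chartRes_algebraMap, zlResidue_zlPrime, map_zero]
  rfl

set_option synthInstance.maxHeartbeats 200000 in
include hdeg in
/-- **(H1), generic chart**: the discriminant of any basis of `F_N` (over any fraction field `K0`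
of `ℤ_(ℓ)[t]`) consisting of elements `b i` of the chart with independent reductions is an element
of `ℤ_(ℓ)[t]` prime to `ℓ`. -/
theorem chart_discr (hbase : ChartBase F₀ ℓ t)
    (htres : chartRes F₀ ℓ hfr hS ⟨t, subset_chartAlg F₀ ℓ _ rfl⟩ ∈ resField ℓ)
    (b : Fin (d) → ↥(chartAlg F₀ ℓ {t}))
    (hb : ∀ g : Fin (d) → LaurentSeries (ZMod ℓ), (∀ i, g i ∈ resField ℓ) →
      ∑ i, g i * chartRes F₀ ℓ hfr hS (b i) = 0 → ∀ i, g i = 0)
    (K0 : Type*) [Field K0] [Algebra ↥(Algebra.adjoin ℤℓ ({t} : Set F)) K0]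
    [IsFractionRing ↥(Algebra.adjoin ℤℓ ({t} : Set F)) K0] [Algebra K0 F]
    [IsScalarTower ↥(Algebra.adjoin ℤℓ ({t} : Set F)) K0 F]
    (β : Module.Basis (Fin (d)) K0 F)
    (hβ : ∀ i, β i = ((b i : ↥(chartAlg F₀ ℓ {t})) : F)) :
    ∃ d0 : ↥(Algebra.adjoin ℤℓ ({t} : Set F)),
      algebraMap ↥(Algebra.adjoin ℤℓ ({t} : Set F)) K0 d0 = Algebra.discr K0 β ∧
      ¬ algebraMap ℤℓ ↥(Algebra.adjoin ℤℓ ({t} : Set F)) (zlPrime ℓ) ∣ d0 := by
  classical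
  have := hbase.isIntegrallyClosed
  have hsep := isSeparable_chartLt F₀ ℓ hfr hdeg t hS hbase htres b hb
  have hkey : ∀ x : ↥(chartAlg F₀ ℓ {t}), ∃ (s : ↥(Algebra.adjoin ℤℓ ({t} : Set F)))
      (a : Fin (d) → ↥(Algebra.adjoin ℤℓ ({t} : Set F))),
      chartRhoA F₀ ℓ hfr t hS htres s ≠ 0 ∧
      algebraMap ↥(Algebra.adjoin ℤℓ ({t} : Set F)) ↥(chartAlg F₀ ℓ {t}) s * x =
        ∑ i, algebraMap ↥(Algebra.adjoin ℤℓ ({t} : Set F)) ↥(chartAlg F₀ ℓ {t}) (a i) * b i := by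
    intro x
    obtain ⟨s, a, hs, hsa⟩ := chart_key F₀ ℓ hfr hdeg t hS hbase htres b hb x
    refine ⟨s, a, fun h0 => ?_, hsa⟩
    apply chartRes_base_ne_zero F₀ ℓ hfr t hS hbase s hs
    rw [← coe_chartRhoA F₀ ℓ hfr t hS htres, h0]
    rfl
  have hint : ∀ x : ↥(chartAlg F₀ ℓ {t}), IsIntegral ↥(Algebra.adjoin ℤℓ ({t} : Set F))
      (algebraMap ↥(chartAlg F₀ ℓ {t}) F x) := fun x => (mem_chartAlg_iff F₀ ℓ).mp x.2
  obtain ⟨d0, hd0, hred⟩ := exists_discr_reduce (chartRhoA F₀ ℓ hfr t hS htres) (chartRho F₀ ℓ hfr t hS)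
    (chartRho_algebraMap F₀ ℓ hfr t hS htres) b β hβ
    (chartBasisRed F₀ ℓ hfr hdeg t hS hbase htres b hb) (chartBasisRed_apply F₀ ℓ hfr hdeg t hS hbase htres b hb)
    hkey hint
  refine ⟨d0, hd0, fun hdvd => ?_⟩
  have hfin : Module.Finite κℓ ↥(chartLt F₀ ℓ hfr t hS) :=
    Module.Finite.of_basis (chartBasisRed F₀ ℓ hfr hdeg t hS hbase htres b hb)
  have hne := Algebra.discr_not_zero_of_basis κℓ (chartBasisRed F₀ ℓ hfr hdeg t hS hbase htres b hb)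
  apply hne
  rw [← hred]
  obtain ⟨c, rfl⟩ := hdvd
  rw [map_mul, chartRhoA_zlPrime, zero_mul]

set_option synthInstance.maxHeartbeats 200000 in
include hdeg in
/-- the family `b` is a basis of `F_N` over any fraction field `K0` of `ℤ_(ℓ)[t]` -/
theorem chart_exists_basis (hbase : ChartBase F₀ ℓ t)
    (htres : chartRes F₀ ℓ hfr hS ⟨t, subset_chartAlg F₀ ℓ _ rfl⟩ ∈ resField ℓ)
    (b : Fin (d) → ↥(chartAlg F₀ ℓ {t}))
    (hb : ∀ g : Fin (d) → LaurentSeries (ZMod ℓ), (∀ i, g i ∈ resField ℓ) →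
      ∑ i, g i * chartRes F₀ ℓ hfr hS (b i) = 0 → ∀ i, g i = 0)
    (K0 : Type*) [Field K0] [Algebra ↥(Algebra.adjoin ℤℓ ({t} : Set F)) K0]
    [IsFractionRing ↥(Algebra.adjoin ℤℓ ({t} : Set F)) K0] [Algebra K0 F]
    [IsScalarTower ↥(Algebra.adjoin ℤℓ ({t} : Set F)) K0 F] :
    ∃ β : Module.Basis (Fin (d)) K0 F,
      ∀ i, β i = ((b i : ↥(chartAlg F₀ ℓ {t})) : F) := by
  classical
  have := hbase.isIntegrallyClosed
  have := hbase.wfDvdMonoid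
  have := hdeg.finite
  have hclear0 : ∀ g : K0, ∃ a d : ↥(Algebra.adjoin ℤℓ ({t} : Set F)), d ≠ 0 ∧
      algebraMap ↥(Algebra.adjoin ℤℓ ({t} : Set F)) F d * algebraMap K0 F g =
        algebraMap ↥(Algebra.adjoin ℤℓ ({t} : Set F)) F a := by
    intro g
    obtain ⟨⟨a, d⟩, had⟩ := IsLocalization.surj (nonZeroDivisors ↥(Algebra.adjoin ℤℓ ({t} : Set F))) g
    refine ⟨a, d, nonZeroDivisors.ne_zero d.2, ?_⟩
    rw [IsScalarTower.algebraMap_apply ↥(Algebra.adjoin ℤℓ ({t} : Set F)) K0 F,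
      IsScalarTower.algebraMap_apply ↥(Algebra.adjoin ℤℓ ({t} : Set F)) K0 F, ← map_mul,
      mul_comm]
    exact congrArg _ had
  have hli := linearIndependent_of_ind (A := ↥(Algebra.adjoin ℤℓ ({t} : Set F)))
    (Kj := K0) (L := F) (B := ↥(chartAlg F₀ ℓ {t})) hbase.prime (chartRes F₀ ℓ hfr hS) b
    hclear0 (chart_hind F₀ ℓ hfr t hS hbase htres b hb)
  have hfinK0 : Module.Finite K0 F :=
    finite_of_clear (A := ↥(Algebra.adjoin ℤℓ ({t} : Set F))) (K1 := ↥ℚ⟮jG F₀⟯)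
      (chart_hclear F₀ ℓ t hbase)
  have hle : Module.finrank K0 F ≤ d := by
    have h := finrank_le_of_clear (A := ↥(Algebra.adjoin ℤℓ ({t} : Set F))) (K0 := K0)
      (K1 := ↥ℚ⟮jG F₀⟯) (L := F) (chart_hclear F₀ ℓ t hbase)
    rwa [chart_finrank F₀ ℓ hfr hdeg t hS hbase htres b hb] at h
  have hcard : Fintype.card (Fin (d)) = Module.finrank K0 F := by
    have h1 := hli.fintype_card_le_finrank
    rw [Fintype.card_fin] at h1 ⊢
    omega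
  have hne : Nonempty (Fin (d)) := by
    have h2 := Module.finrank_pos (R := K0) (M := F)
    rw [Fintype.card_fin] at hcard
    exact ⟨⟨0, by omega⟩⟩
  refine ⟨basisOfLinearIndependentOfCardEqFinrank hli hcard, fun i => ?_⟩
  rw [coe_basisOfLinearIndependentOfCardEqFinrank]
  rfl

end ChartRed

section Concrete

/-- **(H1) on the finite chart, over `ℤ_(ℓ)[j]`**: for every fraction field `K0` of
`ℤ_(ℓ)[j] = Algebra.adjoin ℤ_(ℓ) {j}` (compatibly acting on `F_N`), the monomials `famFin` form a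
`K0`-basis of `F_N` whose discriminant is an element of `ℤ_(ℓ)[j]` prime to `ℓ`. -/
theorem exists_basis_discr_adjFin (I : ChartInputs F₀ ℓ d)
    (K0 : Type*) [Field K0] [Algebra ↥(Algebra.adjoin ℤℓ ({jG F₀} : Set F)) K0]
    [IsFractionRing ↥(Algebra.adjoin ℤℓ ({jG F₀} : Set F)) K0] [Algebra K0 F]
    [IsScalarTower ↥(Algebra.adjoin ℤℓ ({jG F₀} : Set F)) K0 F] :
    ∃ (β : Module.Basis (Fin (d)) K0 F)
      (d0 : ↥(Algebra.adjoin ℤℓ ({jG F₀} : Set F))),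
      (∀ i, β i = ((famFin F₀ ℓ I i : ↥(chartAlgFin F₀ ℓ)) : F)) ∧
      algebraMap ↥(Algebra.adjoin ℤℓ ({jG F₀} : Set F)) K0 d0 = Algebra.discr K0 β ∧
      ¬ algebraMap ℤℓ ↥(Algebra.adjoin ℤℓ ({jG F₀} : Set F)) (zlPrime ℓ) ∣ d0 := by
  obtain ⟨β, hβ⟩ := chart_exists_basis F₀ ℓ I.zl I.deg (jG F₀) (hSFin F₀ ℓ) (chartBase_j F₀ ℓ)
    (htresFin F₀ ℓ I.zl) (famFin F₀ ℓ I) (famFin_indep F₀ ℓ I) K0
  obtain ⟨d0, hd0, hdvd⟩ := chart_discr F₀ ℓ I.zl I.deg (jG F₀) (hSFin F₀ ℓ) (chartBase_j F₀ ℓ)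
    (htresFin F₀ ℓ I.zl) (famFin F₀ ℓ I) (famFin_indep F₀ ℓ I) K0 β hβ
  exact ⟨β, d0, hβ, hd0, hdvd⟩

/-- **(H1) on the chart at infinity, over `ℤ_(ℓ)[1/j]`.** -/
theorem exists_basis_discr_adjInf (I : ChartInputs F₀ ℓ d)
    (K0 : Type*) [Field K0] [Algebra ↥(Algebra.adjoin ℤℓ ({(jG F₀)⁻¹} : Set F)) K0]
    [IsFractionRing ↥(Algebra.adjoin ℤℓ ({(jG F₀)⁻¹} : Set F)) K0] [Algebra K0 F]
    [IsScalarTower ↥(Algebra.adjoin ℤℓ ({(jG F₀)⁻¹} : Set F)) K0 F] :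
    ∃ (β : Module.Basis (Fin (d)) K0 F)
      (d0 : ↥(Algebra.adjoin ℤℓ ({(jG F₀)⁻¹} : Set F))),
      (∀ i, β i = ((famInf F₀ ℓ I i : ↥(chartAlgInf F₀ ℓ)) : F)) ∧
      algebraMap ↥(Algebra.adjoin ℤℓ ({(jG F₀)⁻¹} : Set F)) K0 d0 = Algebra.discr K0 β ∧
      ¬ algebraMap ℤℓ ↥(Algebra.adjoin ℤℓ ({(jG F₀)⁻¹} : Set F)) (zlPrime ℓ) ∣ d0 := by
  obtain ⟨β, hβ⟩ := chart_exists_basis F₀ ℓ I.zl I.deg (jG F₀)⁻¹ (hSInf F₀ ℓ) (chartBase_jInv F₀ ℓ)
    (htresInf F₀ ℓ I.zl) (famInf F₀ ℓ I) (famInf_indep F₀ ℓ I) K0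
  obtain ⟨d0, hd0, hdvd⟩ := chart_discr F₀ ℓ I.zl I.deg (jG F₀)⁻¹ (hSInf F₀ ℓ) (chartBase_jInv F₀ ℓ)
    (htresInf F₀ ℓ I.zl) (famInf F₀ ℓ I) (famInf_indep F₀ ℓ I) K0 β hβ
  exact ⟨β, d0, hβ, hd0, hdvd⟩

end Concrete

end Fermat.Agent.DS.Chart.S28X
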