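/-
PROGRAMME III (S48), leaf X1-CHART (helper27): **(H1) for the finite chart over `ℤ_(ℓ)[X]`**
(`X ↦ j`), generic twin of Good/IgusaDiscFin:

for every `Algebra ℤ_(ℓ)[X] F₀` with `algebraMap p = aeval j p` and every fraction field `K0` of
`ℤ_(ℓ)[X]` acting compatibly on `F₀`, the `d` elements `famFin` form a `K0`-basis of `F₀`
inside `chartAlgFin F₀ ℓ` whose discriminant is a polynomial `d0` with `¬ C ℓ ∣ d0`.
-/
import Mathlib
import Fermat.Agent.DS.Chart.Disc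

set_option autoImplicit false
set_option linter.unusedSectionVars false
set_option synthInstance.maxHeartbeats 400000
open ModularCurve IntermediateField Polynomial
open Fermat.Agent.Igusa

noncomputable section
namespace Fermat.Agent.DS.Chart.S28X

variable (F₀ : IntermediateField ℚ (LaurentSeries ℚ)) [hjF : Fact (jq ∈ F₀)] (ℓ : ℕ) [Fact ℓ.Prime] {d : ℕ}

set_option quotPrecheck false in
local notation "ℤℓ" => ↥(GaloisRep.ratLocalizedAt ℓ)

set_option quotPrecheck false in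
local notation "F" => ↥F₀

attribute [local instance] chartBaseAlgebra
attribute [local instance 2000] chartBaseSMul chartBaseModule

/-- `ℤ_(ℓ)[X] ≃ ℤ_(ℓ)[j]` -/
def polyEquivAdjFin : ℤℓ[X] ≃ₐ[ℤℓ] ↥(Algebra.adjoin ℤℓ ({jG F₀} : Set F)) :=
  Polynomial.algEquivOfTranscendental ℤℓ (jG F₀) (ChartBaseAux.transcendental_jG_zl F₀ ℓ)

theorem coe_polyEquivAdjFin (p : ℤℓ[X]) :
    ((polyEquivAdjFin F₀ ℓ p : ↥(Algebra.adjoin ℤℓ ({jG F₀} : Set F))) : F) =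
      Polynomial.aeval (jG F₀) p := by
  rw [polyEquivAdjFin, Polynomial.algEquivOfTranscendental_apply,
    ← Subalgebra.coe_val, ← Polynomial.aeval_algHom_apply]
  rfl

set_option synthInstance.maxHeartbeats 200000 in
/-- **(H1), finite chart, polynomial form.** -/
theorem exists_basis_discr_fin (I : ChartInputs F₀ ℓ d) [Algebra ℤℓ[X] F]
    (halg : ∀ p : ℤℓ[X], algebraMap ℤℓ[X] F p = Polynomial.aeval (jG F₀) p)
    (K0 : Type*) [Field K0] [Algebra ℤℓ[X] K0] [IsFractionRing ℤℓ[X] K0] [Algebra K0 F]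
    [IsScalarTower ℤℓ[X] K0 F] :
    ∃ b : Module.Basis (Fin (d)) K0 F,
      (∀ i, b i = ((famFin F₀ ℓ I i : ↥(chartAlgFin F₀ ℓ)) : F)) ∧
      (∀ i, b i ∈ chartAlgFin F₀ ℓ) ∧
      ∃ d : ℤℓ[X], Algebra.discr K0 b = algebraMap ℤℓ[X] K0 d ∧
        ¬ Polynomial.C (zlPrime ℓ) ∣ d := by
  classical
  let e : ↥(Algebra.adjoin ℤℓ ({jG F₀} : Set F)) ≃+* ℤℓ[X] :=
    (polyEquivAdjFin F₀ ℓ).symm.toRingEquiv
  let _ : Algebra ↥(Algebra.adjoin ℤℓ ({jG F₀} : Set F)) K0 :=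
    ((algebraMap ℤℓ[X] K0).comp (e : ↥(Algebra.adjoin ℤℓ ({jG F₀} : Set F)) →+* ℤℓ[X])).toAlgebra
  have hfr : IsFractionRing ↥(Algebra.adjoin ℤℓ ({jG F₀} : Set F)) K0 :=
    IsFractionRing.of_ringEquiv_left e (fun _ => rfl)
  have hst : IsScalarTower ↥(Algebra.adjoin ℤℓ ({jG F₀} : Set F)) K0 F := by
    refine IsScalarTower.of_algebraMap_eq fun a => ?_
    show (a : F) = algebraMap K0 F (algebraMap ℤℓ[X] K0 (e a))
    rw [← IsScalarTower.algebraMap_apply ℤℓ[X] K0 F, halg, ← coe_polyEquivAdjFin]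
    show (a : F) = (((polyEquivAdjFin F₀ ℓ) ((polyEquivAdjFin F₀ ℓ).symm a) :
      ↥(Algebra.adjoin ℤℓ ({jG F₀} : Set F))) : F)
    rw [AlgEquiv.apply_symm_apply]
  obtain ⟨β, d0, hβ, hd0, hdvd⟩ := exists_basis_discr_adjFin F₀ ℓ I K0
  refine ⟨β, hβ, fun i => ?_, e d0, hd0.symm, fun hC => hdvd ?_⟩
  · rw [hβ]; exact (famFin F₀ ℓ I i).2
  · obtain ⟨c, hc⟩ := hC
    refine ⟨polyEquivAdjFin F₀ ℓ c, ?_⟩
    have h1 : d0 = polyEquivAdjFin F₀ ℓ (e d0) := ((polyEquivAdjFin F₀ ℓ).apply_symm_apply d0).symm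
    rw [h1, hc, map_mul]
    congr 1
    have h2 : (Polynomial.C (zlPrime ℓ) : ℤℓ[X]) = algebraMap ℤℓ ℤℓ[X] (zlPrime ℓ) := rfl
    rw [h2, AlgEquiv.commutes]

end Fermat.Agent.DS.Chart.S28X
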