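import Mathlib
import Fermat.Agent.DS.Chart.Inputs
import Fermat.Agent.Igusa.TowerCor
import Fermat.Agent.Igusa.TowerAdapter
import Fermat.Agent.Good.IgusaSpecial

/-!
# PROGRAMME III (S48), leaf X1-CHART (helper27): constructors of `ChartInputs`

The input (I4) "`d` integral elements with independent reductions" in three equivalent forms:

* `ChartInputs.ofFamily` : the family itself;
* `nonempty_chartInputs_of_monomials` : `d` elements of `𝔽_ℓ((q))` in the multiplicative closure of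
  the reductions of a set `T` of integral elements, independent over `𝔽_ℓ(j̄)`;
* `nonempty_chartInputs_of_finrank` : **residue degree form**: for a set `T` of elements of the
  finite chart algebra (= elements of `F₀` integral over `ℤ_(ℓ)[j]`), the field generated over
  `𝔽_ℓ(j̄)` by the reductions of `T` has degree `≥ d`.
-/

set_option autoImplicit false
set_option linter.unusedSectionVars false
set_option synthInstance.maxHeartbeats 400000

noncomputable section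

namespace Fermat.Agent.DS.Chart

open ModularCurve Fermat.Agent.Igusa IntermediateField
open Fermat.Agent.Good.S28X (Kout)

variable (F₀ : IntermediateField ℚ (LaurentSeries ℚ)) [hjF : Fact (jq ∈ F₀)]
variable (ℓ : ℕ) [Fact ℓ.Prime] {d : ℕ}

/-- the family itself -/
def ChartInputs.ofFamily (hfr : IsZlField F₀ ℓ) (hdeg : DegInputs F₀ d)
    (b : Fin d → ↥(chartAlgFin F₀ ℓ))
    (hb : ∀ g : Fin d → LaurentSeries (ZMod ℓ), (∀ i, g i ∈ resField ℓ) →
      ∑ i, g i * chartRes F₀ ℓ hfr (hSFin F₀ ℓ) (b i) = 0 → ∀ i, g i = 0) :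
    ChartInputs F₀ ℓ d where
  zl := hfr
  deg := hdeg
  fam := b
  indep := hb

/-- monomials in the reductions of a set `T` lift to the chart -/
theorem exists_chartRes_eq_of_mem_closure_image (hfr : IsZlField F₀ ℓ)
    (T : Set ↥(chartAlgFin F₀ ℓ)) {y : LaurentSeries (ZMod ℓ)}
    (hy : y ∈ Submonoid.closure (chartRes F₀ ℓ hfr (hSFin F₀ ℓ) '' T)) :
    ∃ b : ↥(chartAlgFin F₀ ℓ), chartRes F₀ ℓ hfr (hSFin F₀ ℓ) b = y := by
  have hle : Submonoid.closure (chartRes F₀ ℓ hfr (hSFin F₀ ℓ) '' T) ≤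
      MonoidHom.mrange ((chartRes F₀ ℓ hfr (hSFin F₀ ℓ) : ↥(chartAlgFin F₀ ℓ) →+* _) :
        ↥(chartAlgFin F₀ ℓ) →* LaurentSeries (ZMod ℓ)) := by
    rw [Submonoid.closure_le]
    rintro _ ⟨x, -, rfl⟩
    exact ⟨x, rfl⟩
  exact hle hy

/-- **(I4), monomial form**, with the reductions of the family. -/
theorem exists_chartInputs_of_monomials (hfr : IsZlField F₀ ℓ) (hdeg : DegInputs F₀ d)
    (T : Set ↥(chartAlgFin F₀ ℓ)) (m : Fin d → LaurentSeries (ZMod ℓ))
    (hm : ∀ i, m i ∈ Submonoid.closure (chartRes F₀ ℓ hfr (hSFin F₀ ℓ) '' T))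
    (hli : ∀ g : Fin d → LaurentSeries (ZMod ℓ), (∀ i, g i ∈ resField ℓ) →
      ∑ i, g i * m i = 0 → ∀ i, g i = 0) :
    ∃ I : ChartInputs F₀ ℓ d, ∀ i, chartRes F₀ ℓ I.zl (hSFin F₀ ℓ) (I.fam i) = m i := by
  choose b hb using fun i => exists_chartRes_eq_of_mem_closure_image F₀ ℓ hfr T (hm i)
  refine ⟨ChartInputs.ofFamily F₀ ℓ hfr hdeg b fun g hg hsum => hli g hg ?_, hb⟩
  rw [← hsum]
  exact Finset.sum_congr rfl fun i _ => by rw [hb i]

/-- **(I4), monomial form.** -/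
theorem nonempty_chartInputs_of_monomials (hfr : IsZlField F₀ ℓ) (hdeg : DegInputs F₀ d)
    (T : Set ↥(chartAlgFin F₀ ℓ)) (m : Fin d → LaurentSeries (ZMod ℓ))
    (hm : ∀ i, m i ∈ Submonoid.closure (chartRes F₀ ℓ hfr (hSFin F₀ ℓ) '' T))
    (hli : ∀ g : Fin d → LaurentSeries (ZMod ℓ), (∀ i, g i ∈ resField ℓ) →
      ∑ i, g i * m i = 0 → ∀ i, g i = 0) :
    Nonempty (ChartInputs F₀ ℓ d) :=
  let ⟨I, _⟩ := exists_chartInputs_of_monomials F₀ ℓ hfr hdeg T m hm hli
  ⟨I⟩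

/-- **(I4), residue degree form**, with the reductions of the family: monomials in the reductions
of `T`. -/
theorem exists_chartInputs_of_finrank (hfr : IsZlField F₀ ℓ) (hdeg : DegInputs F₀ d)
    (T : Set ↥(chartAlgFin F₀ ℓ))
    (h : d ≤ Module.finrank ↥(Kout (ZMod ℓ))
      ↥(IntermediateField.adjoin ↥(Kout (ZMod ℓ))
        (chartRes F₀ ℓ hfr (hSFin F₀ ℓ) '' T))) :
    ∃ I : ChartInputs F₀ ℓ d, ∀ i, chartRes F₀ ℓ I.zl (hSFin F₀ ℓ) (I.fam i) ∈
      Submonoid.closure (chartRes F₀ ℓ hfr (hSFin F₀ ℓ) '' T) := by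
  have hd : 0 < d := by
    have := hdeg.finite
    have h1 : 0 < Module.finrank ↥ℚ⟮jG F₀⟯ ↥F₀ := Module.finrank_pos
    exact lt_of_lt_of_le h1 hdeg.finrank_le
  have hfin : FiniteDimensional ↥(Kout (ZMod ℓ))
      ↥(IntermediateField.adjoin ↥(Kout (ZMod ℓ))
        (chartRes F₀ ℓ hfr (hSFin F₀ ℓ) '' T)) :=
    Module.finite_of_finrank_pos (lt_of_lt_of_le hd h)
  obtain ⟨m, hm, hli⟩ := exists_linearIndependent_monomials
    (K := ↥(Kout (ZMod ℓ))) (chartRes F₀ ℓ hfr (hSFin F₀ ℓ) '' T) h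
  obtain ⟨I, hI⟩ := exists_chartInputs_of_monomials F₀ ℓ hfr hdeg T m hm
    (hli_of_linearIndependent ℓ (Kout (ZMod ℓ))
      (IntermediateField.mem_adjoin_simple_self (ZMod ℓ) _) m hli)
  exact ⟨I, fun i => by rw [hI i]; exact hm i⟩

/-- **(I4), residue degree form**: if the field generated over `𝔽_ℓ(j̄)` by the reductions of a
set `T` of integral elements of `F₀` has degree at least `d ≥ [F₀ : ℚ(j)]`, the chart layer
applies. -/
theorem nonempty_chartInputs_of_finrank (hfr : IsZlField F₀ ℓ) (hdeg : DegInputs F₀ d)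
    (T : Set ↥(chartAlgFin F₀ ℓ))
    (h : d ≤ Module.finrank ↥(Kout (ZMod ℓ))
      ↥(IntermediateField.adjoin ↥(Kout (ZMod ℓ))
        (chartRes F₀ ℓ hfr (hSFin F₀ ℓ) '' T))) :
    Nonempty (ChartInputs F₀ ℓ d) :=
  let ⟨I, _⟩ := exists_chartInputs_of_finrank F₀ ℓ hfr hdeg T h
  ⟨I⟩

end Fermat.Agent.DS.Chart
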