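import Mathlib
import Fermat.Agent.DS.Chart.OfResidue
import Fermat.Agent.DS.Chart.Special
import Fermat.Agent.Good.IgusaSpecial

/-!
# PROGRAMME III (S48), leaf X1-CHART (helper27): SANITY — the `X₀(N)` instance of `ChartInputs`

`F₀ = modularFunctionFieldFull N`, `ℓ ∤ N`, `d = ψ(N)`: every input of the generic chart layer is
instantiated from main (`Igusa/*`, `Good/IgusaExtract`), exactly the way the `K1 M` instance will
do it.  The generic definitions are definitionally the ones of main for this `F₀`.
-/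

set_option autoImplicit false
set_option linter.unusedSectionVars false
set_option synthInstance.maxHeartbeats 400000

noncomputable section

namespace Fermat.Agent.DS.Chart.SanityX0

open ModularCurve IntermediateField
open Fermat.Agent.DS.Chart

variable (N : ℕ) [NeZero N] (ℓ : ℕ) [Fact ℓ.Prime]

/-- (I1) `j ∈ F_N` -/
theorem fact_jq_mem_full : Fact (jq ∈ modularFunctionFieldFull N) :=
  ⟨modularFunctionField_le_full N (jq_mem N)⟩

attribute [local instance] fact_jq_mem_full

/-- (I2) elements of `F_N` are `ℤ_(ℓ)`-fractions -/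
theorem isZlField_full : IsZlField (modularFunctionFieldFull N) ℓ :=
  fun _ hx => Fermat.Agent.Igusa.isZlFraction_of_mem_full ℓ N hx

/-- (I3) `[F_N : ℚ(j)] ≤ ψ(N)` -/
theorem degInputs_full : DegInputs (modularFunctionFieldFull N) (dedekindPsi N) where
  finite := Fermat.Agent.Igusa.finiteDimensional_full N
  finrank_le := Fermat.Agent.Igusa.finrank_full_le_dedekindPsi N

/-- (I4) the `ψ(N)` monomials of main: **`ChartInputs` for `X₀(N)`**. -/
def chartInputs_full (hℓN : ¬ ℓ ∣ N) :
    ChartInputs (modularFunctionFieldFull N) ℓ (dedekindPsi N) :=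
  ChartInputs.ofFamily (modularFunctionFieldFull N) ℓ (isZlField_full N ℓ) (degInputs_full N)
    (Fermat.Agent.Good.S28X.famFin N ℓ hℓN) (Fermat.Agent.Good.S28X.famFin_indep N ℓ hℓN)

/-- the generic special-fibre field `FtK` is `F̃_k = modularFunctionFieldFullC k N` -/
theorem FtK_full (hℓN : ¬ ℓ ∣ N) (k : Type*) [Field k] [Algebra (ZMod ℓ) k] :
    S28X.FtK (modularFunctionFieldFull N) ℓ k (isZlField_full N ℓ) =
      modularFunctionFieldFullC k N := by
  refine S28X.FtK_eq_of_gens (modularFunctionFieldFull N) ℓ k (chartInputs_full N ℓ hℓN)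
    (divisorExpansionsC k N) ?_ (jqModC_mem_full k N) ?_
  · rintro _ ⟨d, hd, hdN, rfl⟩
    exact ⟨Fermat.Agent.Good.S28X.jqdFin N ℓ hℓN d hdN,
      Fermat.Agent.Good.S28X.rhoK_jqdFin N ℓ k hℓN d hdN⟩
  · intro i
    exact Fermat.Agent.Good.S28X.mK_mem_fullC N ℓ k hℓN i

end Fermat.Agent.DS.Chart.SanityX0
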