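import Mathlib
import Fermat.Agent.DS.Chart.Extract

/-!
# PROGRAMME III (S48), leaf X1-CHART (helper27): the Gauss valuation ring of `F₀`

`chartO F₀ ℓ = {x ∈ F₀ | x ∈ gaussSubring ℓ}` (the valuation ring of the Gauss valuation of
`ℚ((q))` restricted to `F₀`), with its reduction map `chartORes`.

* `chartO_key` : **valuation-ring form of `famFin_key`**: for `I : ChartInputs F₀ ℓ d`, every
  `x ∈ chartO F₀ ℓ` satisfies `s x = ∑ aᵢ famᵢ` with `s, aᵢ ∈ ℤ_(ℓ)[j]`, `ℓ ∤ s`: the valuation ring is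
  the localisation of `⊕ ℤ_(ℓ)[j] famᵢ` at `ℤ_(ℓ)[j] ∖ (ℓ)`;
* `mem_chartAlgFin_of_isIntegral` : elements of `F₀` integral over the chart algebra lie in it
  (no degree hypothesis);
* `exists_base_div_of_mem_resField` : elements of `𝔽_ℓ(j̄)` are quotients of reductions of elements
  of `ℤ_(ℓ)[j]`.
-/

set_option autoImplicit false
set_option linter.unusedSectionVars false
set_option linter.style.haveILetI false
set_option synthInstance.maxHeartbeats 400000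

noncomputable section

namespace Fermat.Agent.DS.Chart

open ModularCurve Fermat.Agent.Igusa IntermediateField

variable (F₀ : IntermediateField ℚ (LaurentSeries ℚ)) [hjF : Fact (jq ∈ F₀)]
variable (ℓ : ℕ) [Fact ℓ.Prime] {d : ℕ}

set_option quotPrecheck false in
local notation "ℤℓ" => ↥(GaloisRep.ratLocalizedAt ℓ)

set_option quotPrecheck false in
local notation "F" => ↥F₀

attribute [local instance] chartBaseAlgebra
attribute [local instance 2000] chartBaseSMul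

/-- **The Gauss valuation ring of `F₀`.** -/
def chartO : Subalgebra ℤℓ F where
  carrier := {x | ((x : F) : LaurentSeries ℚ) ∈ gaussSubring ℓ}
  mul_mem' ha hb := (gaussSubring ℓ).mul_mem ha hb
  one_mem' := (gaussSubring ℓ).one_mem
  add_mem' ha hb := (gaussSubring ℓ).add_mem ha hb
  zero_mem' := (gaussSubring ℓ).zero_mem
  algebraMap_mem' r := by
    show ((algebraMap ℤℓ F r : F) : LaurentSeries ℚ) ∈ gaussSubring ℓ
    rw [coe_algebraMap_zl]
    exact (gaussRes_C ℓ r).1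

omit hjF in
theorem mem_chartO_iff {x : F} :
    x ∈ chartO F₀ ℓ ↔ ((x : F) : LaurentSeries ℚ) ∈ gaussSubring ℓ := Iff.rfl

omit hjF in
theorem chartAlg_le_chartO (hfr : IsZlField F₀ ℓ) {S : Set F}
    (hS : ∀ s ∈ S, ((s : F) : LaurentSeries ℚ) ∈ gaussSubring ℓ) :
    chartAlg F₀ ℓ S ≤ chartO F₀ ℓ :=
  fun _ hx => coe_mem_gaussSubring_of_mem_chartAlg F₀ ℓ hfr hS hx

/-- the inclusion of the valuation ring into the Gauss ring -/
def chartOToGauss : ↥(chartO F₀ ℓ) →+* gaussSubring ℓ where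
  toFun x := ⟨(((x : ↥(chartO F₀ ℓ)) : F) : LaurentSeries ℚ), x.2⟩
  map_one' := rfl
  map_mul' _ _ := rfl
  map_zero' := rfl
  map_add' _ _ := rfl

/-- **Reduction of `q`-expansions** on the valuation ring. -/
def chartORes : ↥(chartO F₀ ℓ) →+* LaurentSeries (ZMod ℓ) :=
  (gaussRes ℓ).comp (chartOToGauss F₀ ℓ)

omit hjF in
theorem chartORes_apply (x : ↥(chartO F₀ ℓ)) :
    chartORes F₀ ℓ x = gaussRes ℓ ⟨(((x : ↥(chartO F₀ ℓ)) : F) : LaurentSeries ℚ), x.2⟩ := rfl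

omit hjF in
/-- compatibility with the reduction on a chart algebra -/
theorem chartORes_mk_of_mem_chartAlg (hfr : IsZlField F₀ ℓ) {S : Set F}
    (hS : ∀ s ∈ S, ((s : F) : LaurentSeries ℚ) ∈ gaussSubring ℓ) (x : ↥(chartAlg F₀ ℓ S)) :
    chartORes F₀ ℓ ⟨(x : F), chartAlg_le_chartO F₀ ℓ hfr hS x.2⟩ = chartRes F₀ ℓ hfr hS x := rfl

omit hjF in
theorem chartORes_eq_zero_iff (x : ↥(chartO F₀ ℓ)) :
    chartORes F₀ ℓ x = 0 ↔ ∃ y ∈ gaussSubring ℓ,
      (((x : ↥(chartO F₀ ℓ)) : F) : LaurentSeries ℚ) = HahnSeries.C (ℓ : ℚ) * y := by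
  rw [chartORes_apply, gaussRes_eq_zero_iff]
  constructor
  · rintro ⟨y, hy⟩
    refine ⟨y, y.2, ?_⟩
    have := congrArg (fun z : gaussSubring ℓ => (z : LaurentSeries ℚ)) hy
    simpa [coe_gaussPrime] using this
  · rintro ⟨y, hy, hxy⟩
    exact ⟨⟨y, hy⟩, Subtype.ext (by rw [Subring.coe_mul, coe_gaussPrime]; exact hxy)⟩

theorem jG_mem_chartO : jG F₀ ∈ chartO F₀ ℓ := jq_mem_gaussSubring ℓ

theorem adjFin_le_chartO : Algebra.adjoin ℤℓ ({jG F₀} : Set F) ≤ chartO F₀ ℓ :=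
  Algebra.adjoin_le (Set.singleton_subset_iff.mpr (jG_mem_chartO F₀ ℓ))

/-! ### elements integral over the chart algebra -/

omit hjF in
/-- elements of `F₀` integral over a chart algebra lie in it -/
theorem mem_chartAlg_of_isIntegral {S : Set F} (x : F)
    (hx : IsIntegral ↥(chartAlg F₀ ℓ S) x) : x ∈ chartAlg F₀ ℓ S := by
  have : Algebra.IsIntegral ↥(Algebra.adjoin ℤℓ S) ↥(chartAlg F₀ ℓ S) :=
    IsIntegralClosure.isIntegral_algebra ↥(Algebra.adjoin ℤℓ S) F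
  have h1 : IsIntegral ↥(Algebra.adjoin ℤℓ S) x :=
    isIntegral_trans (A := ↥(chartAlg F₀ ℓ S)) x hx
  exact (mem_chartAlg_iff F₀ ℓ).mpr h1

/-! ### spanning of the whole field, up to denominators -/

section AbstractField

variable {A Kj L B E ι : Type*} [CommRing A] [IsDomain A] [WfDvdMonoid A]
  [Field Kj] [Field L] [Algebra Kj L] [Algebra A L] [FaithfulSMul A L]
  [CommRing B] [Algebra A B] [Algebra B L] [IsScalarTower A B L] [IsIntegralClosure B A L]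
  [CommRing E] [Fintype ι]

/-- field form of `S28X.exists_span_of_ind` -/
theorem exists_span_field_of_ind [FiniteDimensional Kj L]
    (hfin : Module.finrank Kj L ≤ Fintype.card ι)
    {ℓ : A} (hℓ : Prime ℓ) (φ : B →+* E) (b : ι → B)
    (hclear : ∀ g : Kj, ∃ a d : A, d ≠ 0 ∧
      algebraMap A L d * algebraMap Kj L g = algebraMap A L a)
    (hind : ∀ a : ι → A, φ (∑ i, algebraMap A B (a i) * b i) = 0 → ∀ i, ℓ ∣ a i) (x : L) :
    ∃ (d : A) (a : ι → A), d ≠ 0 ∧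
      algebraMap A L d * x = ∑ i, algebraMap A L (a i) * algebraMap B L (b i) := by
  classical
  have hli := S28X.linearIndependent_of_ind (Kj := Kj) (L := L) hℓ φ b hclear hind
  have hcard : Fintype.card ι = Module.finrank Kj L :=
    le_antisymm hli.fintype_card_le_finrank hfin
  have hne : Nonempty ι := by
    by_contra h
    rw [not_nonempty_iff] at h
    have h1 : Fintype.card ι = 0 := Fintype.card_eq_zero
    have h2 := Module.finrank_pos (R := Kj) (M := L)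
    omega
  let bas : Module.Basis ι Kj L := basisOfLinearIndependentOfCardEqFinrank hli hcard
  have hbas : ∀ i, bas i = algebraMap B L (b i) := fun i => by simp [bas]
  obtain ⟨d, a, hd, ha⟩ := exists_clear_family (A := A) (L := L) hclear
    (fun i => bas.repr x i)
  refine ⟨d, a, hd, ?_⟩
  conv_lhs => rw [← bas.sum_repr x, Finset.mul_sum]
  refine Finset.sum_congr rfl fun i _ => ?_
  rw [← ha i, hbas, Algebra.smul_def, mul_assoc]

end AbstractField

/-! ### the valuation ring is the localisation of the lattice spanned by the family -/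

/-- `ℤ_(ℓ)[j] → chartO` -/
@[instance_reducible]
def chartOBaseAlgebra : Algebra ↥(Algebra.adjoin ℤℓ ({jG F₀} : Set F)) ↥(chartO F₀ ℓ) :=
  (Subalgebra.inclusion (adjFin_le_chartO F₀ ℓ)).toRingHom.toAlgebra

attribute [local instance] chartOBaseAlgebra

theorem coe_chartOBaseAlgebraMap (a : ↥(Algebra.adjoin ℤℓ ({jG F₀} : Set F))) :
    ((algebraMap ↥(Algebra.adjoin ℤℓ ({jG F₀} : Set F)) ↥(chartO F₀ ℓ) a : ↥(chartO F₀ ℓ)) : F) =
      (a : F) := rfl

/-- **The valuation ring is spanned by the family up to denominators prime to `ℓ`.** -/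
theorem chartO_key (I : ChartInputs F₀ ℓ d) (x : ↥(chartO F₀ ℓ)) :
    ∃ (s : ↥(Algebra.adjoin ℤℓ ({jG F₀} : Set F)))
      (a : Fin d → ↥(Algebra.adjoin ℤℓ ({jG F₀} : Set F))),
      ¬ algebraMap ℤℓ ↥(Algebra.adjoin ℤℓ ({jG F₀} : Set F)) (zlPrime ℓ) ∣ s ∧
      (s : F) * ((x : ↥(chartO F₀ ℓ)) : F) =
        ∑ i, (a i : F) * ((S28X.famFin F₀ ℓ I i : ↥(chartAlgFin F₀ ℓ)) : F) := by
  classical
  have hbase := chartBase_j F₀ ℓ
  have := hbase.isIntegrallyClosed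
  have := hbase.wfDvdMonoid
  have := I.deg.finite
  have hfin : Module.finrank ↥ℚ⟮jG F₀⟯ F ≤ Fintype.card (Fin d) := by
    rw [Fintype.card_fin]
    exact I.deg.finrank_le
  have hind := S28X.chart_hind F₀ ℓ I.zl (jG F₀) (hSFin F₀ ℓ) hbase (S28X.htresFin F₀ ℓ I.zl)
    (S28X.famFin F₀ ℓ I) (S28X.famFin_indep F₀ ℓ I)
  -- the family inside the valuation ring
  let bO : Fin d → ↥(chartO F₀ ℓ) := fun i =>
    ⟨((S28X.famFin F₀ ℓ I i : ↥(chartAlgFin F₀ ℓ)) : F),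
      chartAlg_le_chartO F₀ ℓ I.zl (hSFin F₀ ℓ) (S28X.famFin F₀ ℓ I i).2⟩
  have hsum : ∀ a : Fin d → ↥(Algebra.adjoin ℤℓ ({jG F₀} : Set F)),
      chartORes F₀ ℓ (∑ i, algebraMap ↥(Algebra.adjoin ℤℓ ({jG F₀} : Set F)) ↥(chartO F₀ ℓ)
        (a i) * bO i) =
      chartRes F₀ ℓ I.zl (hSFin F₀ ℓ) (∑ i, algebraMap ↥(Algebra.adjoin ℤℓ ({jG F₀} : Set F))
        ↥(chartAlgFin F₀ ℓ) (a i) * S28X.famFin F₀ ℓ I i) := by
    intro a
    rw [← chartORes_mk_of_mem_chartAlg F₀ ℓ I.zl (hSFin F₀ ℓ)]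
    congr 1
    apply Subtype.ext
    simp only [AddSubmonoidClass.coe_finsetSum, MulMemClass.coe_mul]
    rfl
  have hspan : ∀ x : ↥(chartO F₀ ℓ), ∃ (d' : ↥(Algebra.adjoin ℤℓ ({jG F₀} : Set F)))
      (a : Fin d → ↥(Algebra.adjoin ℤℓ ({jG F₀} : Set F))), d' ≠ 0 ∧
      algebraMap ↥(Algebra.adjoin ℤℓ ({jG F₀} : Set F)) ↥(chartO F₀ ℓ) d' * x =
        ∑ i, algebraMap ↥(Algebra.adjoin ℤℓ ({jG F₀} : Set F)) ↥(chartO F₀ ℓ) (a i) * bO i := by
    intro x
    obtain ⟨d', a, hd', ha⟩ := exists_span_field_of_ind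
      (A := ↥(Algebra.adjoin ℤℓ ({jG F₀} : Set F))) (Kj := ↥ℚ⟮jG F₀⟯) (L := F)
      (B := ↥(chartAlgFin F₀ ℓ)) hfin hbase.prime (chartRes F₀ ℓ I.zl (hSFin F₀ ℓ))
      (S28X.famFin F₀ ℓ I) (S28X.chart_hclear F₀ ℓ (jG F₀) hbase) hind (x : F)
    refine ⟨d', a, hd', Subtype.ext ?_⟩
    simp only [AddSubmonoidClass.coe_finsetSum, MulMemClass.coe_mul]
    exact ha
  obtain ⟨s, a, hs, hsa⟩ := S28X.exists_not_dvd_smul_eq_sum hbase.prime
    (fun u v huv => Subtype.ext (congrArg (fun z : ↥(chartO F₀ ℓ) => (z : F)) huv))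
    (chartORes F₀ ℓ) (by
      have h : algebraMap ↥(Algebra.adjoin ℤℓ ({jG F₀} : Set F)) ↥(chartO F₀ ℓ)
          (algebraMap ℤℓ ↥(Algebra.adjoin ℤℓ ({jG F₀} : Set F)) (zlPrime ℓ)) =
          ⟨((algebraMap ℤℓ ↥(chartAlgFin F₀ ℓ) (zlPrime ℓ) : ↥(chartAlgFin F₀ ℓ)) : F),
            chartAlg_le_chartO F₀ ℓ I.zl (hSFin F₀ ℓ)
              (algebraMap ℤℓ ↥(chartAlgFin F₀ ℓ) (zlPrime ℓ)).2⟩ := rfl
      rw [h, chartORes_mk_of_mem_chartAlg F₀ ℓ I.zl (hSFin F₀ ℓ), chartRes_algebraMap,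
        zlResidue_zlPrime, map_zero])
    bO hspan (fun a h => hind a (by rw [← hsum]; exact h)) x
  refine ⟨s, a, hs, ?_⟩
  have h := congrArg (fun z : ↥(chartO F₀ ℓ) => (z : F)) hsa
  simp only [AddSubmonoidClass.coe_finsetSum, MulMemClass.coe_mul] at h
  exact h

end Fermat.Agent.DS.Chart
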