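import Mathlib
import Fermat.Agent.DS.Chart.ValRing

/-!
# PROGRAMME III (S48), leaf X1-CHART (helper27): `ChartInputs` in a tower `F₀' ⊆ F₁`

`F₀' ≤ F₁` two fields of modular functions containing `j`, `I₀ : ChartInputs F₀' ℓ d₀`, and
`n = [F₁ : F₀']` elements `b i` of the Gauss valuation ring `chartO F₁ ℓ`, integral over the
valuation ring `chartO F₀' ℓ`, whose residues are independent over the residue field of
`chartO F₀' ℓ`.  Then `ChartInputs F₁ ℓ (d₀ * n)`.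

This is the packaging of the residue-degree statement of X1-IRR ("`D = G`": the Gauss valuation
of `K1 M` is the unique extension of that of `F₀(M)`, with full residue degree) into the input
(I4) of the chart layer: `F₀' = modularFunctionFieldFull M`, `F₁ = K1 M`, `n = φ(M)/2`.
-/

set_option autoImplicit false
set_option linter.unusedSectionVars false
set_option linter.style.haveILetI false
set_option synthInstance.maxHeartbeats 400000

noncomputable section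

namespace Fermat.Agent.DS.Chart

open ModularCurve Fermat.Agent.Igusa IntermediateField Polynomial

variable (ℓ : ℕ) [Fact ℓ.Prime]

set_option quotPrecheck false in
local notation "ℤℓ" => ↥(GaloisRep.ratLocalizedAt ℓ)

attribute [local instance] chartBaseAlgebra
attribute [local instance 2000] chartBaseSMul

/-! ### elements of `𝔽_ℓ(j̄)` as quotients of reductions of elements of `ℤ_(ℓ)[j]` -/

section Lift

variable (F₀ : IntermediateField ℚ (LaurentSeries ℚ)) [hjF : Fact (jq ∈ F₀)]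

set_option quotPrecheck false in
local notation "F" => ↥F₀

/-- reduction on the base ring `ℤ_(ℓ)[j]` -/
def baseRes (hfr : IsZlField F₀ ℓ) :
    ↥(Algebra.adjoin ℤℓ ({jG F₀} : Set F)) →+* LaurentSeries (ZMod ℓ) :=
  (chartRes F₀ ℓ hfr (hSFin F₀ ℓ)).comp
    (algebraMap ↥(Algebra.adjoin ℤℓ ({jG F₀} : Set F)) ↥(chartAlgFin F₀ ℓ))

theorem baseRes_apply (hfr : IsZlField F₀ ℓ) (a : ↥(Algebra.adjoin ℤℓ ({jG F₀} : Set F))) :
    baseRes ℓ F₀ hfr a = chartRes F₀ ℓ hfr (hSFin F₀ ℓ)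
      (algebraMap ↥(Algebra.adjoin ℤℓ ({jG F₀} : Set F)) ↥(chartAlgFin F₀ ℓ) a) := rfl

theorem baseRes_mem_resField (hfr : IsZlField F₀ ℓ)
    (a : ↥(Algebra.adjoin ℤℓ ({jG F₀} : Set F))) : baseRes ℓ F₀ hfr a ∈ resField ℓ :=
  chartRes_base_mem_resField F₀ ℓ hfr (jG F₀) (hSFin F₀ ℓ) (S28X.htresFin F₀ ℓ hfr) a

theorem baseRes_ne_zero (hfr : IsZlField F₀ ℓ) (s : ↥(Algebra.adjoin ℤℓ ({jG F₀} : Set F)))
    (hs : ¬ algebraMap ℤℓ ↥(Algebra.adjoin ℤℓ ({jG F₀} : Set F)) (zlPrime ℓ) ∣ s) :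
    baseRes ℓ F₀ hfr s ≠ 0 :=
  S28X.chartRes_base_ne_zero F₀ ℓ hfr (jG F₀) (hSFin F₀ ℓ) (chartBase_j F₀ ℓ) s hs

/-- every element of `𝔽_ℓ(j̄)` is a quotient of reductions of elements of `ℤ_(ℓ)[j]` -/
theorem exists_baseRes_div (hfr : IsZlField F₀ ℓ) {g : LaurentSeries (ZMod ℓ)}
    (hg : g ∈ resField ℓ) :
    ∃ a t : ↥(Algebra.adjoin ℤℓ ({jG F₀} : Set F)),
      baseRes ℓ F₀ hfr t ≠ 0 ∧ g * baseRes ℓ F₀ hfr t = baseRes ℓ F₀ hfr a := by
  have hle : Subring.closure ({jqModC (ZMod ℓ)} : Set (LaurentSeries (ZMod ℓ))) ≤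
      (baseRes ℓ F₀ hfr).range := by
    rw [Subring.closure_le, Set.singleton_subset_iff]
    refine ⟨⟨jG F₀, Algebra.subset_adjoin (Set.mem_singleton _)⟩, ?_⟩
    rw [baseRes_apply]
    exact chartRes_jG F₀ ℓ hfr _ _ rfl
  obtain ⟨y, hy, z, hz, rfl⟩ := Subfield.mem_closure_iff.mp hg
  obtain ⟨a, rfl⟩ := hle hy
  obtain ⟨t, rfl⟩ := hle hz
  by_cases ht : baseRes ℓ F₀ hfr t = 0
  · refine ⟨0, 1, ?_, ?_⟩
    · rw [map_one]; exact one_ne_zero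
    · rw [ht, div_zero, zero_mul, map_zero]
  · exact ⟨a, t, ht, div_mul_cancel₀ _ ht⟩

/-- finite families -/
theorem exists_baseRes_div_family (hfr : IsZlField F₀ ℓ) {ι : Type*} [Fintype ι]
    (g : ι → LaurentSeries (ZMod ℓ)) (hg : ∀ k, g k ∈ resField ℓ) :
    ∃ (t : ↥(Algebra.adjoin ℤℓ ({jG F₀} : Set F)))
      (a : ι → ↥(Algebra.adjoin ℤℓ ({jG F₀} : Set F))),
      baseRes ℓ F₀ hfr t ≠ 0 ∧ ∀ k, g k * baseRes ℓ F₀ hfr t = baseRes ℓ F₀ hfr (a k) := by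
  classical
  choose a t ht hat using fun k => exists_baseRes_div ℓ F₀ hfr (hg k)
  refine ⟨∏ k, t k, fun k => a k * ∏ k' ∈ Finset.univ.erase k, t k', ?_, fun k => ?_⟩
  · rw [map_prod]
    exact Finset.prod_ne_zero_iff.mpr fun k _ => ht k
  · rw [← Finset.mul_prod_erase Finset.univ t (Finset.mem_univ k), map_mul, map_mul, ← mul_assoc,
      hat k]

end Lift

/-! ### the inclusion `F₀' ⊆ F₁` -/

section Incl

variable (F₀' F₁ : IntermediateField ℚ (LaurentSeries ℚ)) [h0 : Fact (jq ∈ F₀')]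
  [h1 : Fact (jq ∈ F₁)] (h01 : F₀' ≤ F₁)

/-- the inclusion `F₀' → F₁`, as a `ℤ_(ℓ)`-algebra homomorphism -/
def inclZl : ↥F₀' →ₐ[ℤℓ] ↥F₁ where
  toFun x := ⟨(x : LaurentSeries ℚ), h01 x.2⟩
  map_one' := rfl
  map_mul' _ _ := rfl
  map_zero' := rfl
  map_add' _ _ := rfl
  commutes' r := Subtype.ext (by
    rw [coe_algebraMap_zl]
    exact coe_algebraMap_zl F₀' ℓ r)

omit h0 h1 in
theorem coe_inclZl (x : ↥F₀') :
    ((inclZl ℓ F₀' F₁ h01 x : ↥F₁) : LaurentSeries ℚ) = (x : LaurentSeries ℚ) := rfl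

theorem inclZl_jG : inclZl ℓ F₀' F₁ h01 (jG F₀') = jG F₁ := Subtype.ext rfl

omit h0 h1 in
theorem inclZl_mem_chartO {x : ↥F₀'} (hx : x ∈ chartO F₀' ℓ) :
    inclZl ℓ F₀' F₁ h01 x ∈ chartO F₁ ℓ := hx

/-- the inclusion of the valuation rings -/
def inclO : ↥(chartO F₀' ℓ) →+* ↥(chartO F₁ ℓ) where
  toFun x := ⟨inclZl ℓ F₀' F₁ h01 x, inclZl_mem_chartO ℓ F₀' F₁ h01 x.2⟩
  map_one' := Subtype.ext (map_one _)
  map_mul' _ _ := Subtype.ext (map_mul _ _ _)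
  map_zero' := Subtype.ext (map_zero _)
  map_add' _ _ := Subtype.ext (map_add _ _ _)

omit h0 h1 in
theorem chartORes_inclO (x : ↥(chartO F₀' ℓ)) :
    chartORes F₁ ℓ (inclO ℓ F₀' F₁ h01 x) = chartORes F₀' ℓ x := rfl

theorem map_adjFin :
    (Algebra.adjoin ℤℓ ({jG F₀'} : Set ↥F₀')).map (inclZl ℓ F₀' F₁ h01) =
      Algebra.adjoin ℤℓ ({jG F₁} : Set ↥F₁) := by
  rw [AlgHom.map_adjoin, Set.image_singleton, inclZl_jG]

/-- `ℤ_(ℓ)[j] ⊆ F₀'` to `ℤ_(ℓ)[j] ⊆ F₁` -/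
def inclAdj : ↥(Algebra.adjoin ℤℓ ({jG F₀'} : Set ↥F₀')) →ₐ[ℤℓ]
    ↥(Algebra.adjoin ℤℓ ({jG F₁} : Set ↥F₁)) :=
  ((inclZl ℓ F₀' F₁ h01).comp (Subalgebra.val _)).codRestrict _ (fun a => by
    rw [← map_adjFin ℓ F₀' F₁ h01]
    exact ⟨a, a.2, rfl⟩)

theorem coe_inclAdj (a : ↥(Algebra.adjoin ℤℓ ({jG F₀'} : Set ↥F₀'))) :
    ((inclAdj ℓ F₀' F₁ h01 a : ↥(Algebra.adjoin ℤℓ ({jG F₁} : Set ↥F₁))) : ↥F₁) =
      inclZl ℓ F₀' F₁ h01 (a : ↥F₀') := rfl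

/-- integrality over `ℤ_(ℓ)[j]` is preserved -/
theorem inclZl_mem_chartAlgFin {x : ↥F₀'} (hx : x ∈ chartAlgFin F₀' ℓ) :
    inclZl ℓ F₀' F₁ h01 x ∈ chartAlgFin F₁ ℓ := by
  have hint : IsIntegral ↥(Algebra.adjoin ℤℓ ({jG F₀'} : Set ↥F₀')) x :=
    (mem_chartAlg_iff F₀' ℓ).mp hx
  exact (mem_chartAlg_iff F₁ ℓ).mpr
    (hint.map_of_comp_eq (inclAdj ℓ F₀' F₁ h01).toRingHom (inclZl ℓ F₀' F₁ h01).toRingHom
      (by ext; rfl))

/-- **Clearing the denominators of an element integral over the valuation ring of `F₀'`.**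
If `x ∈ F₁` is a root of a monic polynomial with coefficients in `chartO F₀' ℓ`, then `s x` is
integral over `ℤ_(ℓ)[j]` for some `s ∈ ℤ_(ℓ)[j]` prime to `ℓ`. -/
theorem exists_mul_mem_chartAlgFin_of_integral {d₀ : ℕ} (I₀ : ChartInputs F₀' ℓ d₀) (x : ↥F₁)
    (P : (↥F₀')[X]) (hP : P.Monic) (hPO : ∀ k, P.coeff k ∈ chartO F₀' ℓ)
    (hx : eval₂ (inclZl ℓ F₀' F₁ h01).toRingHom x P = 0) :
    ∃ s : ↥(Algebra.adjoin ℤℓ ({jG F₀'} : Set ↥F₀')),
      ¬ algebraMap ℤℓ ↥(Algebra.adjoin ℤℓ ({jG F₀'} : Set ↥F₀')) (zlPrime ℓ) ∣ s ∧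
      inclZl ℓ F₀' F₁ h01 (s : ↥F₀') * x ∈ chartAlgFin F₁ ℓ := by
  classical
  have hbase := chartBase_j F₀' ℓ
  -- denominators of the coefficients
  choose s a hs hsa using fun k => chartO_key F₀' ℓ I₀ ⟨P.coeff k, hPO k⟩
  set n := P.natDegree with hn
  set S : ↥(Algebra.adjoin ℤℓ ({jG F₀'} : Set ↥F₀')) := ∏ k ∈ Finset.range n, s k with hS
  have hSdvd : ¬ algebraMap ℤℓ ↥(Algebra.adjoin ℤℓ ({jG F₀'} : Set ↥F₀')) (zlPrime ℓ) ∣ S := by
    rw [hS, hbase.prime.dvd_finsetProd_iff]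
    rintro ⟨k, -, hk⟩
    exact hs k hk
  have hA : ∀ u : ↥(Algebra.adjoin ℤℓ ({jG F₀'} : Set ↥F₀')), (u : ↥F₀') ∈ chartAlgFin F₀' ℓ :=
    fun u => adjoin_le_chartAlg F₀' ℓ _ u.2
  -- `S * coeff k` is integral for `k < n`
  have hcoeff : ∀ k, k < n → (S : ↥F₀') * P.coeff k ∈ chartAlgFin F₀' ℓ := by
    intro k hk
    have h1 : (s k : ↥F₀') * P.coeff k ∈ chartAlgFin F₀' ℓ := by
      have := hsa k
      simp only at this
      rw [this]
      exact Subalgebra.sum_mem _ fun i _ =>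
        Subalgebra.mul_mem _ (hA (a k i)) (S28X.famFin F₀' ℓ I₀ i).2
    have h2 : (S : ↥F₀') = ((∏ k' ∈ (Finset.range n).erase k, s k' :
        ↥(Algebra.adjoin ℤℓ ({jG F₀'} : Set ↥F₀'))) : ↥F₀') * (s k : ↥F₀') := by
      rw [hS, ← Finset.mul_prod_erase (Finset.range n) s (Finset.mem_range.mpr hk),
        MulMemClass.coe_mul, mul_comm]
    rw [h2, mul_assoc]
    exact Subalgebra.mul_mem _ (hA _) h1
  -- the scaled polynomial
  set Q := scaleRoots P (S : ↥F₀') with hQ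
  have hQmonic : Q.Monic := (monic_scaleRoots_iff _).mpr hP
  have hQcoeff : ∀ k, Q.coeff k ∈ chartAlgFin F₀' ℓ := by
    intro k
    rw [hQ, coeff_scaleRoots]
    rcases lt_trichotomy k n with hk | hk | hk
    · have h3 : P.coeff k * (S : ↥F₀') ^ (P.natDegree - k) =
          ((S : ↥F₀') * P.coeff k) * (S : ↥F₀') ^ (n - k - 1) := by
        rw [← hn, mul_comm (S : ↥F₀') (P.coeff k), mul_assoc, ← pow_succ']
        congr 2
        omega
      rw [h3]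
      exact Subalgebra.mul_mem _ (hcoeff k hk) (Subalgebra.pow_mem _ (hA S) _)
    · rw [hk, hn, tsub_self, pow_zero, mul_one, ← leadingCoeff, hP.leadingCoeff]
      exact Subalgebra.one_mem _
    · rw [coeff_eq_zero_of_natDegree_lt (by rw [← hn]; exact hk), zero_mul]
      exact Subalgebra.zero_mem _
  have hQroot : eval₂ (inclZl ℓ F₀' F₁ h01).toRingHom
      ((inclZl ℓ F₀' F₁ h01).toRingHom (S : ↥F₀') * x) Q = 0 :=
    scaleRoots_eval₂_eq_zero _ hx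
  refine ⟨S, hSdvd, mem_chartAlg_of_isIntegral F₁ ℓ _ ?_⟩
  -- lift `Q` to the chart algebra of `F₁`
  have hlift : Q.map (inclZl ℓ F₀' F₁ h01).toRingHom ∈
      Polynomial.lifts (algebraMap ↥(chartAlgFin F₁ ℓ) ↥F₁) := by
    rw [lifts_iff_coeff_lifts]
    intro k
    rw [coeff_map]
    exact ⟨⟨_, inclZl_mem_chartAlgFin ℓ F₀' F₁ h01 (hQcoeff k)⟩, rfl⟩
  obtain ⟨Q₁, hQ₁, -, hQ₁monic⟩ := lifts_and_degree_eq_and_monic hlift
    (hQmonic.map _)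
  refine ⟨Q₁, hQ₁monic, ?_⟩
  rw [← eval_map, hQ₁, eval_map]
  exact hQroot

/-! ### the tower -/

omit h1 in
/-- reduction on `ℤ_(ℓ)[j] ⊆ F₀'` through the valuation ring -/
theorem baseRes_eq_chartORes (hfr : IsZlField F₀' ℓ)
    (a : ↥(Algebra.adjoin ℤℓ ({jG F₀'} : Set ↥F₀'))) :
    baseRes ℓ F₀' hfr a = chartORes F₀' ℓ ⟨(a : ↥F₀'), adjFin_le_chartO F₀' ℓ a.2⟩ := rfl

/-- **`ChartInputs` in a tower.**  `F₀' ⊆ F₁`, `I₀ : ChartInputs F₀' ℓ d₀`, and `n` elements `b i`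
of the Gauss valuation ring of `F₁`, integral over the Gauss valuation ring of `F₀'`, whose
residues are independent over the residue field of `F₀'`; `[F₁ : ℚ(j)] ≤ d₀ n`.  Then
`ChartInputs F₁ ℓ (d₀ n)`. -/
theorem nonempty_chartInputs_of_tower {d₀ n : ℕ} (I₀ : ChartInputs F₀' ℓ d₀)
    (hzl : IsZlField F₁ ℓ) (hdeg : DegInputs F₁ (d₀ * n))
    (b : Fin n → ↥(chartO F₁ ℓ))
    (hint : ∀ i, ∃ P : (↥F₀')[X], P.Monic ∧ (∀ k, P.coeff k ∈ chartO F₀' ℓ) ∧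
      eval₂ (inclZl ℓ F₀' F₁ h01).toRingHom ((b i : ↥(chartO F₁ ℓ)) : ↥F₁) P = 0)
    (hind : ∀ c : Fin n → ↥(chartO F₀' ℓ),
      chartORes F₁ ℓ (∑ i, inclO ℓ F₀' F₁ h01 (c i) * b i) = 0 →
        ∀ i, chartORes F₀' ℓ (c i) = 0) :
    Nonempty (ChartInputs F₁ ℓ (d₀ * n)) := by
  classical
  -- clear the denominators of the `b i`
  choose P hPm hPO hPx using hint
  choose s hs hsb using fun i =>
    exists_mul_mem_chartAlgFin_of_integral ℓ F₀' F₁ h01 I₀ ((b i : ↥(chartO F₁ ℓ)) : ↥F₁)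
      (P i) (hPm i) (hPO i) (hPx i)
  let y : Fin n → ↥(chartAlgFin F₁ ℓ) := fun i => ⟨_, hsb i⟩
  let m : Fin d₀ → ↥(chartAlgFin F₁ ℓ) := fun j =>
    ⟨_, inclZl_mem_chartAlgFin ℓ F₀' F₁ h01 (S28X.famFin F₀' ℓ I₀ j).2⟩
  let e : Fin (d₀ * n) ≃ Fin d₀ × Fin n := finProdFinEquiv.symm
  let f : Fin (d₀ * n) → ↥(chartAlgFin F₁ ℓ) := fun k => m (e k).1 * y (e k).2
  refine ⟨{ zl := hzl, deg := hdeg, fam := f, indep := fun g hg hsum => ?_ }⟩
  -- a common denominator of the coefficients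
  obtain ⟨t, a, ht, hta⟩ := exists_baseRes_div_family ℓ F₀' I₀.zl g hg
  -- elements of the valuation rings
  let aO : Fin (d₀ * n) → ↥(chartO F₀' ℓ) := fun k => ⟨(a k : ↥F₀'), adjFin_le_chartO F₀' ℓ (a k).2⟩
  let sO : Fin n → ↥(chartO F₀' ℓ) := fun i => ⟨(s i : ↥F₀'), adjFin_le_chartO F₀' ℓ (s i).2⟩
  let mO : Fin d₀ → ↥(chartO F₀' ℓ) := fun j =>
    ⟨((S28X.famFin F₀' ℓ I₀ j : ↥(chartAlgFin F₀' ℓ)) : ↥F₀'),
      chartAlg_le_chartO F₀' ℓ I₀.zl (hSFin F₀' ℓ) (S28X.famFin F₀' ℓ I₀ j).2⟩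
  let fO : Fin (d₀ * n) → ↥(chartO F₁ ℓ) := fun k =>
    ⟨((f k : ↥(chartAlgFin F₁ ℓ)) : ↥F₁), chartAlg_le_chartO F₁ ℓ hzl (hSFin F₁ ℓ) (f k).2⟩
  let c : Fin n → ↥(chartO F₀' ℓ) := fun i => (∑ j, aO (e.symm (j, i)) * mO j) * sO i
  -- the relation, in the valuation ring of `F₁`
  have hrel : chartORes F₁ ℓ (∑ k, inclO ℓ F₀' F₁ h01 (aO k) * fO k) = 0 := by
    rw [map_sum]
    have h0 : ∑ k, g k * chartRes F₁ ℓ hzl (hSFin F₁ ℓ) (f k) * baseRes ℓ F₀' I₀.zl t = 0 := by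
      rw [← Finset.sum_mul, hsum, zero_mul]
    rw [← h0]
    refine Finset.sum_congr rfl fun k _ => ?_
    rw [map_mul, chartORes_inclO, mul_right_comm, hta k]
    rfl
  have hsumeq : (∑ k, inclO ℓ F₀' F₁ h01 (aO k) * fO k) =
      ∑ i, inclO ℓ F₀' F₁ h01 (c i) * b i := by
    rw [← e.symm.sum_comp, Fintype.sum_prod_type, Finset.sum_comm]
    refine Finset.sum_congr rfl fun i _ => ?_
    simp only [c, map_mul, map_sum, Finset.sum_mul]
    refine Finset.sum_congr rfl fun j _ => ?_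
    apply Subtype.ext
    simp only [MulMemClass.coe_mul, fO, f, m, y, Equiv.apply_symm_apply]
    rw [mul_assoc, mul_assoc]
    rfl
  rw [hsumeq] at hrel
  have hc := hind c hrel
  -- the inner relations
  have hinner : ∀ i j, baseRes ℓ F₀' I₀.zl (a (e.symm (j, i))) = 0 := by
    intro i
    have h1 := hc i
    simp only [c, map_mul, map_sum] at h1
    have hsne : chartORes F₀' ℓ (sO i) ≠ 0 := baseRes_ne_zero ℓ F₀' I₀.zl (s i) (hs i)
    have h2 := (mul_eq_zero.mp h1).resolve_right hsne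
    exact S28X.famFin_indep F₀' ℓ I₀ (fun j => baseRes ℓ F₀' I₀.zl (a (e.symm (j, i))))
      (fun j => baseRes_mem_resField ℓ F₀' I₀.zl _) h2
  intro k
  have hk : baseRes ℓ F₀' I₀.zl (a k) = 0 := by
    have := hinner (e k).2 (e k).1
    rwa [Prod.mk.eta, Equiv.symm_apply_apply] at this
  have := hta k
  rw [hk] at this
  exact (mul_eq_zero.mp this).resolve_right ht

end Incl

end Fermat.Agent.DS.Chart
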