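import Mathlib
import Fermat.Agent.DS.Chart.Tower
import Fermat.Agent.DS.X1.ResidueDegree

/-!
# PROGRAMME III (S48), leaf X1-CHART (helper27): `ChartInputs` from a Galois-stable valuation ring

`F₀' ⊆ F₁`, `F₁ / F₀'` finite Galois (through ANY model `K ≃ F₀'` of the base with an algebra
structure `K → F₁` compatible with the inclusion), `I₀ : ChartInputs F₀' ℓ d₀`, and
**`D = G`**: every element of `Gal(F₁/F₀')` preserves the Gauss valuation ring `chartO F₁ ℓ`.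
Then `ChartInputs F₁ ℓ (d₀ [F₁ : F₀'])`, as soon as `[F₁ : ℚ(j)] ≤ d₀ [F₁ : F₀']`.

`=` helper23's (E') `ResDeg.exists_residue_independent` (full residue degree) `+`
`nonempty_chartInputs_of_tower`.
-/

set_option autoImplicit false
set_option linter.unusedSectionVars false
set_option linter.style.haveILetI false
set_option synthInstance.maxHeartbeats 400000

noncomputable section

namespace Fermat.Agent.DS.Chart

open ModularCurve Fermat.Agent.Igusa IntermediateField Polynomial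

variable (ℓ : ℕ) [Fact ℓ.Prime]

set_option quotPrecheck false in
local notation "ℤℓ" => ↥(GaloisRep.ratLocalizedAt ℓ)

attribute [local instance] chartBaseAlgebra
attribute [local instance 2000] chartBaseSMul

/-! ### every nonzero `ℤ_(ℓ)`-fraction is `ℓ^k` times a Gauss unit -/

theorem zlIota_C_zlPrime : zlIota ℓ (HahnSeries.C (zlPrime ℓ)) = HahnSeries.C (ℓ : ℚ) :=
  coe_gaussPrime ℓ

theorem exists_zpow_mul_gaussUnit {x : LaurentSeries ℚ} (hx : IsZlFraction ℓ x) (hx0 : x ≠ 0) :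
    ∃ (k : ℤ) (u : LaurentSeries ℚ), u ∈ gaussSubring ℓ ∧ u⁻¹ ∈ gaussSubring ℓ ∧
      x = (HahnSeries.C (ℓ : ℚ) : LaurentSeries ℚ) ^ k * u := by
  obtain ⟨a, b, hb, hab⟩ := hx
  have hb0 : zlIota ℓ b ≠ 0 := fun h => hb (zlIota_injective ℓ (by rw [h, map_zero]))
  have ha : a ≠ 0 := by
    rintro rfl
    rw [map_zero] at hab
    exact (mul_ne_zero hx0 hb0) hab
  obtain ⟨m, a', rfl, ha'⟩ := exists_eq_pow_mul_of_ne_zero ℓ ha
  obtain ⟨n, b', rfl, hb'⟩ := exists_eq_pow_mul_of_ne_zero ℓ hb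
  have hπ0 : (HahnSeries.C (ℓ : ℚ) : LaurentSeries ℚ) ≠ 0 := by
    rw [← zlIota_C_zlPrime]
    exact zlIota_C_zlPrime_ne_zero ℓ
  rw [map_mul, map_mul, map_pow, map_pow, zlIota_C_zlPrime] at hab
  have ha0 := zlIota_ne_zero_of_zlRed_ne_zero ℓ ha'
  have hb0' := zlIota_ne_zero_of_zlRed_ne_zero ℓ hb'
  refine ⟨(m : ℤ) - n, zlIota ℓ a' / zlIota ℓ b', ⟨a', b', hb', div_mul_cancel₀ _ hb0'⟩,
    ⟨b', a', ha', ?_⟩, ?_⟩
  · rw [inv_div, div_mul_cancel₀ _ ha0]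
  · rw [zpow_sub₀ hπ0, zpow_natCast, zpow_natCast]
    field_simp
    rw [← hab]
    ring

/-! ### the Gauss valuation ring as a `ValuationSubring` -/

section Val

variable (F₁ : IntermediateField ℚ (LaurentSeries ℚ))

/-- the Gauss valuation ring of `F₁` as a valuation subring -/
def chartOVal (hzl : IsZlField F₁ ℓ) : ValuationSubring ↥F₁ :=
  { (chartO F₁ ℓ).toSubring with
    mem_or_inv_mem' := fun x => by
      have := mem_or_inv_mem_gaussSubring ℓ (hzl (x : LaurentSeries ℚ) x.2)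
      exact this }

theorem mem_chartOVal (hzl : IsZlField F₁ ℓ) {x : ↥F₁} :
    x ∈ chartOVal ℓ F₁ hzl ↔ x ∈ chartO F₁ ℓ := Iff.rfl

theorem coe_natCast_prime :
    (((ℓ : ℕ) : ↥F₁) : LaurentSeries ℚ) = HahnSeries.C (ℓ : ℚ) := by
  have h1 : (HahnSeries.C (ℓ : ℚ) : LaurentSeries ℚ) = ((ℓ : ℕ) : LaurentSeries ℚ) :=
    map_natCast (HahnSeries.C : ℚ →+* LaurentSeries ℚ) ℓ
  rw [h1]
  exact map_natCast (algebraMap ↥F₁ (LaurentSeries ℚ)) ℓ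

theorem natCast_prime_mem_chartO : ((ℓ : ℕ) : ↥F₁) ∈ chartO F₁ ℓ := by
  rw [mem_chartO_iff, coe_natCast_prime, ← zlIota_C_zlPrime]
  exact zlIota_mem_gaussSubring ℓ _

theorem inv_natCast_prime_not_mem_chartO : (((ℓ : ℕ) : ↥F₁))⁻¹ ∉ chartO F₁ ℓ := by
  intro h
  rw [mem_chartO_iff] at h
  have h1 : (((ℓ : ℕ) : ↥F₁) : LaurentSeries ℚ) ≠ 0 := by
    rw [coe_natCast_prime, ← zlIota_C_zlPrime]
    exact zlIota_C_zlPrime_ne_zero ℓ
  have h2 : gaussPrime ℓ * ⟨_, h⟩ = 1 := by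
    apply Subtype.ext
    rw [Subring.coe_mul, coe_gaussPrime, ← coe_natCast_prime ℓ F₁, Subring.coe_one]
    show (((ℓ : ℕ) : ↥F₁) : LaurentSeries ℚ) * ((((ℓ : ℕ) : ↥F₁)⁻¹ : ↥F₁) : LaurentSeries ℚ) = 1
    rw [← MulMemClass.coe_mul, mul_inv_cancel₀ (fun h0 => h1 (by rw [h0]; rfl))]
    rfl
  have h3 := congrArg (gaussRes ℓ) h2
  rw [map_mul, gaussRes_gaussPrime, zero_mul, map_one] at h3
  exact zero_ne_one h3

theorem exists_zpow_mul_unit_chartO (hzl : IsZlField F₁ ℓ) (x : ↥F₁) (hx : x ≠ 0) :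
    ∃ (k : ℤ) (u : ↥F₁), u ∈ chartO F₁ ℓ ∧ u⁻¹ ∈ chartO F₁ ℓ ∧ x = ((ℓ : ℕ) : ↥F₁) ^ k * u := by
  have hx0 : (x : LaurentSeries ℚ) ≠ 0 := fun h => hx (Subtype.ext h)
  obtain ⟨k, u, hu, hu', hxu⟩ := exists_zpow_mul_gaussUnit ℓ (hzl (x : LaurentSeries ℚ) x.2) hx0
  have hπ0 : ((ℓ : ℕ) : ↥F₁) ≠ 0 := by
    intro h
    have := congrArg (fun z : ↥F₁ => (z : LaurentSeries ℚ)) h
    simp only [coe_natCast_prime] at this
    rw [← zlIota_C_zlPrime] at this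
    exact zlIota_C_zlPrime_ne_zero ℓ this
  have hcoe : ((x * (((ℓ : ℕ) : ↥F₁) ^ k)⁻¹ : ↥F₁) : LaurentSeries ℚ) = u := by
    have h1 : ((x * (((ℓ : ℕ) : ↥F₁) ^ k)⁻¹ : ↥F₁) : LaurentSeries ℚ) =
        (x : LaurentSeries ℚ) * ((HahnSeries.C (ℓ : ℚ) : LaurentSeries ℚ) ^ k)⁻¹ := by
      rw [← coe_natCast_prime ℓ F₁]
      have h2 : (((((ℓ : ℕ) : ↥F₁) ^ k : ↥F₁)) : LaurentSeries ℚ) =
          (((ℓ : ℕ) : ↥F₁) : LaurentSeries ℚ) ^ k := map_zpow₀ (algebraMap ↥F₁ (LaurentSeries ℚ)) _ k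
      rw [← h2]
      simp
    rw [h1, hxu]
    have hC : (HahnSeries.C (ℓ : ℚ) : LaurentSeries ℚ) ^ k ≠ 0 := by
      apply zpow_ne_zero
      rw [← zlIota_C_zlPrime]
      exact zlIota_C_zlPrime_ne_zero ℓ
    field_simp
  refine ⟨k, x * (((ℓ : ℕ) : ↥F₁) ^ k)⁻¹, ?_, ?_, ?_⟩
  · rw [mem_chartO_iff, hcoe]; exact hu
  · rw [mem_chartO_iff]
    have : (((x * (((ℓ : ℕ) : ↥F₁) ^ k)⁻¹)⁻¹ : ↥F₁) : LaurentSeries ℚ) = u⁻¹ := by
      rw [← hcoe]; simp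
    rw [this]; exact hu'
  · have hk : ((ℓ : ℕ) : ↥F₁) ^ k ≠ 0 := zpow_ne_zero _ hπ0
    field_simp

/-- elements of the valuation ring with zero residue are non-units -/
theorem mem_nonunits_of_chartORes_eq_zero (hzl : IsZlField F₁ ℓ) (x : ↥(chartO F₁ ℓ))
    (h : chartORes F₁ ℓ x = 0) : (x : ↥F₁) ∈ (chartOVal ℓ F₁ hzl).nonunits := by
  rw [ValuationSubring.mem_nonunits_iff_exists_mem_maximalIdeal]
  refine ⟨x.2, ?_⟩
  rw [IsLocalRing.mem_maximalIdeal, mem_nonunits_iff]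
  intro hu
  obtain ⟨v, hv⟩ := hu.exists_right_inv
  have h1 : x * (⟨(v : ↥F₁), v.2⟩ : ↥(chartO F₁ ℓ)) = 1 :=
    Subtype.ext (congrArg (fun z : ↥(chartOVal ℓ F₁ hzl) => (z : ↥F₁)) hv)
  have h2 := congrArg (chartORes F₁ ℓ) h1
  rw [map_mul, h, zero_mul, map_one] at h2
  exact zero_ne_one h2

end Val

/-! ### the Galois tower -/

section Galois

variable (F₀' F₁ : IntermediateField ℚ (LaurentSeries ℚ)) [h0 : Fact (jq ∈ F₀')]
  [h1 : Fact (jq ∈ F₁)]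
variable {K : Type*} [Field K] [Algebra K ↥F₁]

omit h0 h1 in
/-- a model `K ≃ F₀'` of the base whose structure map to `F₁` is the inclusion: `F₀' ⊆ F₁` -/
theorem le_of_ringEquiv (e : K ≃+* ↥F₀')
    (he : ∀ x : K, ((algebraMap K ↥F₁ x : ↥F₁) : LaurentSeries ℚ) = ((e x : ↥F₀') : LaurentSeries ℚ)) :
    F₀' ≤ F₁ := by
  intro y hy
  have h := he (e.symm ⟨y, hy⟩)
  rw [e.apply_symm_apply] at h
  have h2 : ((algebraMap K ↥F₁ (e.symm ⟨y, hy⟩) : ↥F₁) : LaurentSeries ℚ) = y := h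
  rw [← h2]
  exact (algebraMap K ↥F₁ _).2

variable [FiniteDimensional K ↥F₁] [IsGalois K ↥F₁]

omit h0 h1 in
/-- **`D = G` ⟹ integrality**: if every element of `Gal(F₁/F₀')` preserves the Gauss valuation ring
of `F₁`, every element of it is a root of a monic polynomial with coefficients in the Gauss valuation
ring of `F₀'`. -/
theorem exists_monic_of_galois_stable (e : K ≃+* ↥F₀')
    (he : ∀ x : K, ((algebraMap K ↥F₁ x : ↥F₁) : LaurentSeries ℚ) = ((e x : ↥F₀') : LaurentSeries ℚ))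
    (hzl : IsZlField F₁ ℓ)
    (hO : ∀ (g : ↥F₁ ≃ₐ[K] ↥F₁) (x : ↥F₁), x ∈ chartO F₁ ℓ → g x ∈ chartO F₁ ℓ)
    (x : ↥F₁) (hx : x ∈ chartO F₁ ℓ) :
    ∃ P : (↥F₀')[X], P.Monic ∧ (∀ k, P.coeff k ∈ chartO F₀' ℓ) ∧
      eval₂ (inclZl ℓ F₀' F₁ (le_of_ringEquiv F₀' F₁ e he)).toRingHom x P = 0 := by
  classical
  set O : ValuationSubring ↥F₁ := chartOVal ℓ F₁ hzl with hOdef
  set O₀ : ValuationSubring K := O.comap (algebraMap K ↥F₁) with hO₀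
  have hmem₀ : ∀ c : K, c ∈ O₀ ↔ algebraMap K ↥F₁ c ∈ O := fun c => ValuationSubring.mem_comap
  let f₀ : ↥O₀ →+* ↥O :=
    { toFun := fun c => ⟨algebraMap K ↥F₁ c, (hmem₀ _).mp c.2⟩
      map_one' := Subtype.ext (map_one _)
      map_mul' := fun _ _ => Subtype.ext (map_mul _ _ _)
      map_zero' := Subtype.ext (map_zero _)
      map_add' := fun _ _ => Subtype.ext (map_add _ _ _) }
  letI : Algebra ↥O₀ ↥O := f₀.toAlgebra
  letI : MulSemiringAction (↥F₁ ≃ₐ[K] ↥F₁) ↥O :=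
    { smul := fun g y => ⟨g y, hO g y y.2⟩
      one_smul := fun _ => rfl
      mul_smul := fun _ _ _ => rfl
      smul_zero := fun g => Subtype.ext (map_zero g)
      smul_add := fun g _ _ => Subtype.ext (map_add g _ _)
      smul_one := fun g => Subtype.ext (map_one g)
      smul_mul := fun g _ _ => Subtype.ext (map_mul g _ _) }
  haveI : Algebra.IsInvariant ↥O₀ ↥O (↥F₁ ≃ₐ[K] ↥F₁) := ⟨fun b hb => by
    have hfix : ∀ g : ↥F₁ ≃ₐ[K] ↥F₁, g (b : ↥F₁) = b := fun g => congrArg Subtype.val (hb g)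
    obtain ⟨a, ha⟩ := (IsGalois.mem_range_algebraMap_iff_fixed (F := K) (E := ↥F₁) (b : ↥F₁)).mpr hfix
    exact ⟨⟨a, (hmem₀ a).mpr (ha ▸ b.2)⟩, Subtype.ext ha⟩⟩
  haveI : Algebra.IsIntegral ↥O₀ ↥O := Algebra.IsInvariant.isIntegral ↥O₀ ↥O (↥F₁ ≃ₐ[K] ↥F₁)
  obtain ⟨p, hpm, hpx⟩ := Algebra.IsIntegral.isIntegral (R := ↥O₀) (⟨x, hx⟩ : ↥O)
  let φ : ↥O₀ →+* ↥F₀' := e.toRingHom.comp O₀.subtype
  refine ⟨p.map φ, hpm.map φ, fun k => ?_, ?_⟩
  · rw [coeff_map, mem_chartO_iff]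
    show ((e ((p.coeff k : ↥O₀) : K) : ↥F₀') : LaurentSeries ℚ) ∈ gaussSubring ℓ
    rw [← he]
    exact (hmem₀ _).mp (p.coeff k).2
  · rw [eval₂_map]
    have hcomp : (inclZl ℓ F₀' F₁ (le_of_ringEquiv F₀' F₁ e he)).toRingHom.comp φ =
        O.subtype.comp (algebraMap ↥O₀ ↥O) :=
      RingHom.ext fun c => Subtype.ext (he (c : K)).symm
    rw [hcomp]
    have h := hom_eval₂ p (algebraMap ↥O₀ ↥O) O.subtype (⟨x, hx⟩ : ↥O)
    rw [hpx, map_zero] at h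
    exact h.symm

/-- **`ChartInputs` from `D = G`.**  `F₁ / F₀'` finite Galois (through a model `K ≃ F₀'` of the
base), `I₀ : ChartInputs F₀' ℓ d₀`, every element of `Gal(F₁/F₀')` preserves the Gauss valuation
ring of `F₁`, and `[F₁ : ℚ(j)] ≤ d₀ [F₁ : F₀']`.  Then `ChartInputs F₁ ℓ (d₀ [F₁ : F₀'])`. -/
theorem nonempty_chartInputs_of_galois {d₀ : ℕ} (I₀ : ChartInputs F₀' ℓ d₀) (hzl : IsZlField F₁ ℓ)
    (e : K ≃+* ↥F₀')
    (he : ∀ x : K, ((algebraMap K ↥F₁ x : ↥F₁) : LaurentSeries ℚ) = ((e x : ↥F₀') : LaurentSeries ℚ))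
    (hO : ∀ (g : ↥F₁ ≃ₐ[K] ↥F₁) (x : ↥F₁), x ∈ chartO F₁ ℓ → g x ∈ chartO F₁ ℓ)
    (hdeg : DegInputs F₁ (d₀ * Module.finrank K ↥F₁)) :
    Nonempty (ChartInputs F₁ ℓ (d₀ * Module.finrank K ↥F₁)) := by
  classical
  have h01 := le_of_ringEquiv F₀' F₁ e he
  have hmap : ∀ c : K, algebraMap K ↥F₁ c = inclZl ℓ F₀' F₁ h01 (e c) :=
    fun c => Subtype.ext (he c)
  have hϖ : algebraMap K ↥F₁ ((ℓ : ℕ) : K) ∈ chartOVal ℓ F₁ hzl := by
    rw [map_natCast]; exact natCast_prime_mem_chartO ℓ F₁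
  have hnu : (algebraMap K ↥F₁ ((ℓ : ℕ) : K))⁻¹ ∉ chartOVal ℓ F₁ hzl := by
    rw [map_natCast]; exact inv_natCast_prime_not_mem_chartO ℓ F₁
  have hdvr : ∀ x : ↥F₁, x ≠ 0 → ∃ (k : ℤ) (u : ↥F₁), u ∈ chartOVal ℓ F₁ hzl ∧
      u⁻¹ ∈ chartOVal ℓ F₁ hzl ∧ x = algebraMap K ↥F₁ ((ℓ : ℕ) : K) ^ k * u := by
    intro x hx
    rw [map_natCast]
    exact exists_zpow_mul_unit_chartO ℓ F₁ hzl x hx
  obtain ⟨b, hbO, hb⟩ := X1.ResDeg.exists_residue_independent (chartOVal ℓ F₁ hzl) hO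
    ((ℓ : ℕ) : K) hϖ hnu hdvr
  refine nonempty_chartInputs_of_tower ℓ F₀' F₁ h01 I₀ hzl hdeg (fun i => ⟨b i, hbO i⟩)
    (fun i => exists_monic_of_galois_stable ℓ F₀' F₁ e he hzl hO (b i) (hbO i))
    (fun c hc i => ?_)
  -- the coefficients, in `K`
  have hcK : ∀ i, algebraMap K ↥F₁ (e.symm (c i : ↥F₀')) = inclZl ℓ F₀' F₁ h01 (c i : ↥F₀') :=
    fun i => by rw [hmap, e.apply_symm_apply]
  have hmemK : ∀ i, e.symm (c i : ↥F₀') ∈ (chartOVal ℓ F₁ hzl).comap (algebraMap K ↥F₁) := by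
    intro i
    rw [ValuationSubring.mem_comap, hcK]
    exact inclZl_mem_chartO ℓ F₀' F₁ h01 (c i).2
  have hsum : (∑ i, algebraMap K ↥F₁ (e.symm (c i : ↥F₀')) * b i) ∈
      (chartOVal ℓ F₁ hzl).nonunits := by
    have h2 := mem_nonunits_of_chartORes_eq_zero ℓ F₁ hzl _ hc
    convert h2 using 1
    rw [AddSubmonoidClass.coe_finsetSum]
    refine Finset.sum_congr rfl fun i _ => ?_
    rw [hcK, MulMemClass.coe_mul]
    rfl
  have hci := hb (fun i => e.symm (c i : ↥F₀')) hmemK hsum i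
  -- non-units have zero residue
  by_contra hne
  have hinv := inv_mem_gaussSubring_of_gaussRes_ne_zero ℓ
    ⟨(((c i : ↥(chartO F₀' ℓ)) : ↥F₀') : LaurentSeries ℚ), (c i).2⟩ hne
  have hc0 : e.symm (c i : ↥F₀') ≠ 0 := by
    intro h0'
    have : ((c i : ↥(chartO F₀' ℓ)) : ↥F₀') = 0 := by
      have := congrArg e h0'
      rwa [e.apply_symm_apply, map_zero] at this
    apply hne
    have h3 : c i = 0 := Subtype.ext this
    rw [h3, map_zero]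
  obtain ⟨hmem, hmax⟩ := ValuationSubring.mem_nonunits_iff_exists_mem_maximalIdeal.mp hci
  rw [IsLocalRing.mem_maximalIdeal, mem_nonunits_iff] at hmax
  apply hmax
  have hinvK : (e.symm (c i : ↥F₀'))⁻¹ ∈ (chartOVal ℓ F₁ hzl).comap (algebraMap K ↥F₁) := by
    rw [ValuationSubring.mem_comap, map_inv₀, hcK]
    exact hinv
  exact IsUnit.of_mul_eq_one ⟨_, hinvK⟩ (Subtype.ext (mul_inv_cancel₀ hc0))

end Galois

end Fermat.Agent.DS.Chart
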